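import Mathlib

/-!
Fixed field of the automorphisms of ℂ; descent of linear spaces; denominators.
-/

set_option autoImplicit false

noncomputable section

namespace FLTAgent.ModFun

theorem exists_extend {K : Type*} [Field K] [Algebra K ℂ] {ι : Type*} {v : ι → ℂ}
    (hv : IsTranscendenceBasis K v) (e : MvPolynomial ι K ≃+* MvPolynomial ι K) :
    ∃ σ : ℂ →+* ℂ, ∀ p, σ (MvPolynomial.aeval v p) = MvPolynomial.aeval v (e p) := by
  letI := IsAlgClosed.isAlgClosure_of_transcendence_basis v hv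
  let e' : Algebra.adjoin K (Set.range v) ≃+* Algebra.adjoin K (Set.range v) :=
    (hv.1.aevalEquiv.symm.toRingEquiv.trans e).trans hv.1.aevalEquiv.toRingEquiv
  refine ⟨(IsAlgClosure.equivOfEquiv ℂ ℂ e').toRingHom, fun p => ?_⟩
  have h := IsAlgClosure.equivOfEquiv_algebraMap ℂ ℂ e' (hv.1.aevalEquiv p)
  simp only [e', RingEquiv.trans_apply, AlgEquiv.toRingEquiv_eq_coe, AlgEquiv.coe_ringEquiv,
    AlgEquiv.symm_apply_apply, AlgebraicIndependent.algebraMap_aevalEquiv] at h
  exact h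

/-- negation of all variables -/
def negVars (K : Type*) [CommRing K] (ι : Type*) : MvPolynomial ι K ≃+* MvPolynomial ι K :=
  (AlgEquiv.ofAlgHom (MvPolynomial.aeval fun i => -MvPolynomial.X i)
    (MvPolynomial.aeval fun i => -MvPolynomial.X i)
    (by ext i; simp) (by ext i; simp)).toRingEquiv

theorem fixed_eq_rat {x : ℂ} (h : ∀ σ : ℂ →+* ℂ, σ x = x) : ∃ r : ℚ, x = r := by
  let A := algebraicClosure ℚ ℂ
  by_cases hx : x ∈ A
  · haveI : IsAlgClosure ℚ A := algebraicClosure.isAlgClosure ℚ ℂ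
    haveI : Normal ℚ A := IsAlgClosure.normal ℚ A
    haveI : IsGalois ℚ A := ⟨⟩
    obtain ⟨v, hv⟩ := exists_isTranscendenceBasis A ℂ
    have hfix : ∀ e : A ≃ₐ[ℚ] A, e ⟨x, hx⟩ = ⟨x, hx⟩ := by
      intro e
      obtain ⟨σ, hσ⟩ := exists_extend hv (MvPolynomial.mapEquiv _ e.toRingEquiv)
      have := hσ (MvPolynomial.C ⟨x, hx⟩)
      simp [MvPolynomial.mapEquiv_apply] at this
      exact Subtype.ext (this.symm.trans (h σ))
    obtain ⟨r, hr⟩ := (InfiniteGalois.mem_range_algebraMap_iff_fixed (⟨x, hx⟩ : A)).mpr hfix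
    exact ⟨r, by simpa using (congrArg (Subtype.val) hr).symm⟩
  · exfalso
    haveI : Algebra.IsAlgebraic ℚ A := algebraicClosure.isAlgebraic ℚ ℂ
    have hind : AlgebraicIndepOn A id ({x} : Set ℂ) := by
      show AlgebraicIndependent A (fun i : ({x} : Set ℂ) => (i : ℂ))
      refine algebraicIndependent_unique_type_iff.mpr ?_
      intro halg
      refine hx (mem_algebraicClosure_iff.mpr ?_)
      exact IsAlgebraic.restrictScalars ℚ halg
    obtain ⟨s, hs, hv⟩ := exists_isTranscendenceBasis_superset hind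
    obtain ⟨σ, hσ⟩ := exists_extend hv (negVars A _)
    have := hσ (MvPolynomial.X ⟨x, hs rfl⟩)
    simp [negVars, h σ] at this
    refine hx ?_
    have hx0 : x = 0 := by linear_combination (1 / 2 : ℂ) * this
    rw [hx0]
    exact A.zero_mem

/-- descent: a subspace stable under all automorphisms is spanned by its rational vectors -/
theorem le_span_rat {ι : Type*} [Fintype ι] (W : Submodule ℂ (ι → ℂ))
    (hW : ∀ σ : ℂ →+* ℂ, ∀ v ∈ W, (fun i => σ (v i)) ∈ W) :
    W ≤ Submodule.span ℂ {v | v ∈ W ∧ ∀ i, ∃ r : ℚ, v i = r} := by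
  classical
  let supp : (ι → ℂ) → Finset ι := fun v => Finset.univ.filter fun i => v i ≠ 0
  suffices ∀ n, ∀ v ∈ W, (supp v).card ≤ n →
      v ∈ Submodule.span ℂ {v | v ∈ W ∧ ∀ i, ∃ r : ℚ, v i = r} from fun v hv => this _ v hv le_rfl
  intro n
  induction n using Nat.strong_induction_on with
  | _ n ih =>
  intro v hv hn
  by_cases h0 : v = 0
  · rw [h0]; exact Submodule.zero_mem _
  have hex : ∃ m, ∃ a ∈ W, a ≠ 0 ∧ supp a ⊆ supp v ∧ (supp a).card = m :=
    ⟨_, v, hv, h0, subset_rfl, rfl⟩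
  obtain ⟨a, ha, ha0, hsub, hcard⟩ := Nat.find_spec hex
  obtain ⟨i, hi⟩ : ∃ i, a i ≠ 0 := Function.ne_iff.mp ha0
  set b := (a i)⁻¹ • a with hb
  have hbW : b ∈ W := W.smul_mem _ ha
  have hbi : b i = 1 := by simp [hb, inv_mul_cancel₀ hi]
  have hrat : ∀ j, ∃ r : ℚ, b j = r := by
    intro j
    refine fixed_eq_rat fun σ => ?_
    by_contra hne
    let e : ι → ℂ := (fun l => σ (b l)) - b
    have he : e ≠ 0 := fun he => hne (by
      have := congrFun he j; simpa [e, sub_eq_zero] using this)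
    have hes : supp e ⊂ supp a := by
      refine Finset.ssubset_iff_subset_ne.mpr ⟨fun l hl => ?_, fun heq => ?_⟩
      · simp only [supp, Finset.mem_filter, Finset.mem_univ, true_and] at hl ⊢
        intro hal; apply hl; simp [e, hb, hal]
      · have : i ∈ supp e := heq ▸ (by simp [supp, hi])
        simp [supp, e, hbi] at this
    exact Nat.find_min hex (hcard ▸ Finset.card_lt_card hes)
      ⟨e, W.sub_mem (hW σ b hbW) hbW, he, hes.subset.trans hsub, rfl⟩
  have hbm : b ∈ Submodule.span ℂ {v | v ∈ W ∧ ∀ i, ∃ r : ℚ, v i = r} :=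
    Submodule.subset_span ⟨hbW, hrat⟩
  have hlt : (supp (v - v i • b)).card < n := by
    refine lt_of_lt_of_le (Finset.card_lt_card ?_) hn
    refine Finset.ssubset_iff_subset_ne.mpr ⟨fun l hl => ?_, fun heq => ?_⟩
    · by_contra hlv
      have hla : a l = 0 := by
        by_contra h; exact hlv (hsub (by simp [supp, h]))
      simp [supp] at hl hlv
      simp [hlv, hb, hla] at hl
    · have : i ∈ supp (v - v i • b) := heq ▸ hsub (by simp [supp, hi])
      simp [supp, hbi] at this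
  have := Submodule.add_mem _ (ih _ hlt (v - v i • b) (W.sub_mem hv (W.smul_mem _ hbW)) le_rfl)
    (Submodule.smul_mem _ (v i) hbm)
  simpa using this

theorem dvd_of_integral_rel {A : Type*} [CommRing A] [IsDomain A] [IsIntegrallyClosed A] {R D : A}
    (hD : D ≠ 0) {n : ℕ} {a : ℕ → A} (ha : a 0 = 1)
    (h : ∑ m ∈ Finset.range (n + 1), a m * R ^ (n - m) * D ^ m = 0) : D ∣ R := by
  let K := FractionRing A
  have hD' : algebraMap A K D ≠ 0 := by simpa using hD
  set y : K := algebraMap A K R / algebraMap A K D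
  let p : Polynomial A :=
    Polynomial.X ^ n + ∑ m ∈ Finset.range n, Polynomial.C (a (m + 1)) * Polynomial.X ^ (n - (m + 1))
  have hy : IsIntegral A y := by
    refine ⟨p, ?_, ?_⟩
    · refine Polynomial.monic_X_pow_add ((Polynomial.degree_sum_le _ _).trans_lt ?_)
      refine (Finset.sup_lt_iff (WithBot.bot_lt_coe n)).mpr fun m hm => ?_
      refine (Polynomial.degree_C_mul_X_pow_le _ _).trans_lt ?_
      exact Nat.cast_lt.mpr (by have := Finset.mem_range.mp hm; omega)
    · apply mul_left_cancel₀ (pow_ne_zero n hD')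
      rw [mul_zero]
      have h' := congrArg (algebraMap A K) h
      rw [map_zero, map_sum, Finset.sum_range_succ', ha, add_comm] at h'
      refine Eq.trans ?_ h'
      simp only [p, Polynomial.eval₂_add, Polynomial.eval₂_X_pow, Polynomial.eval₂_finsetSum,
        Polynomial.eval₂_mul, Polynomial.eval₂_C, mul_add, Finset.mul_sum, map_mul, map_pow,
        map_one, Nat.sub_zero, pow_zero, mul_one, one_mul]
      congr 1
      · rw [← mul_pow, mul_div_cancel₀ _ hD']
      · rw [Finset.mul_sum]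
        refine Finset.sum_congr rfl fun m hm => ?_
        have hm' := Finset.mem_range.mp hm
        have e : algebraMap A K D ^ n = algebraMap A K D ^ (n - (m + 1)) * algebraMap A K D ^ (m + 1) := by
          rw [← pow_add, Nat.sub_add_cancel hm']
        simp only [y]
        rw [e, div_pow]
        have hp := pow_ne_zero (n - (m + 1)) hD'
        generalize algebraMap A K D ^ (n - (m + 1)) = X at hp ⊢
        calc X * algebraMap A K D ^ (m + 1) *
              (algebraMap A K (a (m + 1)) * (algebraMap A K R ^ (n - (m + 1)) / X))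
            = algebraMap A K (a (m + 1)) * (X * (algebraMap A K R ^ (n - (m + 1)) / X)) *
              algebraMap A K D ^ (m + 1) := by ring
          _ = _ := by rw [mul_div_cancel₀ _ hp]
  obtain ⟨z, hz⟩ := IsIntegrallyClosed.algebraMap_eq_of_integral hy
  refine ⟨z, IsFractionRing.injective A K ?_⟩
  rw [map_mul, hz, mul_div_cancel₀ _ hD']

/-- a rational series has bounded denominators -/
def BddDen (P : PowerSeries ℚ) : Prop :=
  ∃ (M : ℕ) (Z : PowerSeries ℤ), M ≠ 0 ∧ (M : ℚ) • P = Z.map (Int.castRingHom ℚ)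

theorem BddDen.add {P Q : PowerSeries ℚ} (hP : BddDen P) (hQ : BddDen Q) : BddDen (P + Q) := by
  obtain ⟨M, Z, hM, hZ⟩ := hP
  obtain ⟨M', Z', hM', hZ'⟩ := hQ
  refine ⟨M * M', (M' : ℤ) • Z + (M : ℤ) • Z', mul_ne_zero hM hM', ?_⟩
  rw [map_add, map_zsmul, map_zsmul, ← hZ, ← hZ', Nat.cast_mul, smul_add, ← Int.cast_smul_eq_zsmul ℚ,
    ← Int.cast_smul_eq_zsmul ℚ, smul_smul, smul_smul, Int.cast_natCast, Int.cast_natCast,
    mul_comm (M : ℚ) (M' : ℚ)]

theorem BddDen.smul (r : ℚ) {P : PowerSeries ℚ} (hP : BddDen P) : BddDen (r • P) := by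
  obtain ⟨M, Z, hM, hZ⟩ := hP
  refine ⟨M * r.den, r.num • Z, mul_ne_zero hM r.den_pos.ne', ?_⟩
  rw [map_zsmul, ← hZ, ← Int.cast_smul_eq_zsmul ℚ, smul_smul, smul_smul, Nat.cast_mul, mul_assoc,
    Rat.den_mul_eq_num, mul_comm]

theorem BddDen.zero : BddDen 0 := ⟨1, 0, one_ne_zero, by simp⟩

theorem bddDen_common {n : ℕ} {P : ℕ → PowerSeries ℚ} (h : ∀ m, BddDen (P m)) :
    ∃ M : ℕ, M ≠ 0 ∧ ∀ m ≤ n, ∃ Z : PowerSeries ℤ, (M : ℚ) • P m = Z.map (Int.castRingHom ℚ) := by
  induction n with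
  | zero =>
    obtain ⟨M, Z, hM, hZ⟩ := h 0
    exact ⟨M, hM, fun m hm => ⟨Z, by rw [Nat.le_zero.mp hm, hZ]⟩⟩
  | succ n ih =>
    obtain ⟨M, hM, hall⟩ := ih
    obtain ⟨M', Z', hM', hZ'⟩ := h (n + 1)
    refine ⟨M * M', mul_ne_zero hM hM', fun m hm => ?_⟩
    rcases Nat.lt_or_eq_of_le hm with hlt | rfl
    · obtain ⟨Z, hZ⟩ := hall m (by omega)
      exact ⟨(M' : ℤ) • Z, by
        rw [map_zsmul, ← hZ, ← Int.cast_smul_eq_zsmul ℚ, smul_smul, Nat.cast_mul, mul_comm,
          Int.cast_natCast]⟩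
    · exact ⟨(M : ℤ) • Z', by
        rw [map_zsmul, ← hZ', ← Int.cast_smul_eq_zsmul ℚ, smul_smul, Nat.cast_mul, Int.cast_natCast]⟩

end FLTAgent.ModFun
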