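import Fermat.Agent.ModFun.Quotient
import Fermat.Agent.ModFun.Descent
import Fermat.Prelude.Def_CuspForm_IntegralStructure
import Fermat.Prelude.Thm_ModularForm_sturm_bound_Gamma0

/-!
Integral structure on cusp forms for Γ₀(N), every level and weight.
-/

set_option autoImplicit false

noncomputable section

open UpperHalfPlane CongruenceSubgroup ModularForm Filter
open scoped MatrixGroups Manifold Topology

namespace FLTAgent.ModFun

theorem Good.tendsto_coeff_zero {f : ℍ → ℂ} (hf : Good f) :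
    Tendsto f atImInfty (𝓝 ((qx f).coeff 0)) := by
  have h := hf.analytic.continuousAt.tendsto.comp (qParam_tendsto_atImInfty one_pos)
  have e : (cuspFunction 1 f ∘ fun τ : ℍ => Function.Periodic.qParam 1 (τ : ℂ)) = f :=
    funext fun τ => eq_cuspFunction τ one_ne_zero (by simpa using hf.per)
  rw [e] at h
  simpa [qx, qExpansion_coeff] using h

theorem Good.isZero_iff {f : ℍ → ℂ} (hf : Good f) :
    IsZeroAtImInfty f ↔ (qx f).coeff 0 = 0 :=
  ⟨fun h => tendsto_nhds_unique hf.tendsto_coeff_zero h, fun h => by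
    have := hf.tendsto_coeff_zero; rwa [h] at this⟩

variable {N : ℕ} [NeZero N] {k w : ℤ}

omit [NeZero N] in
theorem RatMF.twist {f : ℍ → ℂ} (hf : f ∈ RatMF N w) (σ : ℂ →+* ℂ) :
    ∃ f' ∈ RatMF N w, qx f' = (qx f).map σ := by
  induction hf using Submodule.span_induction with
  | mem x hx =>
    refine ⟨x, Submodule.subset_span hx, ?_⟩
    obtain ⟨Z, hZ⟩ := hx.2
    rw [hZ]
    ext n
    simp
  | zero => exact ⟨0, Submodule.zero_mem _, by simp [qx, qExpansion_zero]⟩
  | add x y hx hy ihx ihy =>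
    obtain ⟨x', hx', ex⟩ := ihx
    obtain ⟨y', hy', ey⟩ := ihy
    exact ⟨x' + y', Submodule.add_mem _ hx' hy', by
      rw [Good.qx_add (RatMF.isMF hx').good (RatMF.isMF hy').good, ex, ey,
        Good.qx_add (RatMF.isMF hx).good (RatMF.isMF hy).good, map_add]⟩
  | smul c x hx ihx =>
    obtain ⟨x', hx', ex⟩ := ihx
    exact ⟨σ c • x', Submodule.smul_mem _ _ hx', by
      rw [Good.qx_smul _ (RatMF.isMF hx').good, ex, Good.qx_smul _ (RatMF.isMF hx).good]
      ext n; simp⟩

/-- The relation satisfied by f·D and D. -/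
theorem rel_mul_D {n : ℕ} {c : ℕ → ℍ → ℂ} {f D : ℍ → ℂ}
    (h : ∑ m ∈ Finset.range (n + 1), c m * f ^ (n - m) = 0) :
    ∑ m ∈ Finset.range (n + 1), c m * (f * D) ^ (n - m) * D ^ m = 0 := by
  have : ∑ m ∈ Finset.range (n + 1), c m * (f * D) ^ (n - m) * D ^ m =
      D ^ n * ∑ m ∈ Finset.range (n + 1), c m * f ^ (n - m) := by
    rw [Finset.mul_sum]
    refine Finset.sum_congr rfl fun m hm => ?_
    have hm' : m ≤ n := Nat.lt_succ_iff.mp (Finset.mem_range.mp hm)
    rw [mul_pow, show D ^ n = D ^ (n - m) * D ^ m by rw [← pow_add, Nat.sub_add_cancel hm']]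
    ring
  rw [this, h, mul_zero]

theorem qx_rel {n : ℕ} {c : ℕ → ℍ → ℂ} {R D : ℍ → ℂ} (hc : ∀ m, Good (c m)) (hR : Good R)
    (hD : Good D) :
    qx (∑ m ∈ Finset.range (n + 1), c m * R ^ (n - m) * D ^ m) =
      ∑ m ∈ Finset.range (n + 1), qx (c m) * qx R ^ (n - m) * qx D ^ m := by
  rw [Good.qx_sum _ fun m _ => ((hc m).mul (hR.pow _)).mul (hD.pow _)]
  refine Finset.sum_congr rfl fun m _ => ?_
  rw [Good.qx_mul ((hc m).mul (hR.pow _)) (hD.pow _), Good.qx_mul (hc m) (hR.pow _),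
    Good.qx_pow hR, Good.qx_pow hD]

/-- Cusp forms are stable under field endomorphisms acting on coefficients. -/
theorem cusp_twist {f : ℍ → ℂ} (hf : IsCF N k f) (σ : ℂ →+* ℂ) :
    ∃ h, IsCF N k h ∧ qx h = (qx f).map σ := by
  have hfg := hf.isMF.good
  have hDg := (RatMF.isMF (interpD_mem N)).good
  obtain ⟨D', hD', eD⟩ := RatMF.twist (interpD_mem N) σ
  obtain ⟨R', hR', eR⟩ := RatMF.twist (interp_mem hf.isMF) σ
  have hc' : ∀ m : ℕ, ∃ c' ∈ RatMF 1 ((m : ℤ) * k), qx c' = (qx (charC N k f m)).map σ :=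
    fun m => RatMF.twist (charC_mem hf.isMF m) σ
  choose c hc ec using hc'
  have hcg : ∀ m, Good (c m) := fun m => (RatMF.isMF (hc m)).good
  have hRg := (RatMF.isMF hR').good
  have hD'g := (RatMF.isMF hD').good
  have hD0 : qx (interpD N) ≠ 0 := by
    intro h
    refine interpD_ne_zero N (Good.qx_inj hDg Good.zero ?_)
    rw [h]; exact (qExpansion_zero 1).symm
  have hD'0 : qx D' ≠ 0 := by
    rw [eD]
    intro h
    refine hD0 (PowerSeries.map_injective σ σ.injective ?_)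
    rw [h, map_zero]
  have hc0 : c 0 = 1 := by
    refine Good.qx_inj (hcg 0) Good.one ?_
    rw [ec 0, charC_zero_eq]
    simp [qx, qExpansion_one]
  have hcz : ∀ m, m ≠ 0 → IsZeroAtImInfty (c m) := by
    intro m hm
    rw [(hcg m).isZero_iff, ec m, PowerSeries.coeff_map,
      ((RatMF.isMF (charC_mem hf.isMF m)).good.isZero_iff).mp (charC_zero hf hm), map_zero]
  have hrel : ∑ m ∈ Finset.range (idx N + 1), c m * R' ^ (idx N - m) * D' ^ m = 0 := by
    refine Good.qx_inj (Good.sum _ fun m _ => ((hcg m).mul (hRg.pow _)).mul (hD'g.pow _)) Good.zero ?_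
    rw [qx_rel hcg hRg hD'g]
    simp only [eD, eR, ec, ← map_pow, ← map_mul, ← map_sum]
    rw [← qx_rel (fun m => (RatMF.isMF (charC_mem hf.isMF m)).good) (hfg.mul hDg) hDg,
      rel_mul_D (charC_rel hf.isMF)]
    simp [qx, qExpansion_zero]
  obtain ⟨h, hh, hhD⟩ := quot_isCF (k := k) (RatMF.isMF hR') (RatMF.isMF hD')
    (fun e => hD'0 (by rw [e]; exact qExpansion_zero 1)) hc0 (fun m => RatMF.isMF (hc m)) hcz hrel
  refine ⟨h, hh, mul_right_cancel₀ hD'0 ?_⟩
  rw [← Good.qx_mul hh.isMF.good hD'g, hhD, eR, eD, Good.qx_mul hfg hDg, map_mul]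

/-- coefficientwise application of a linear functional -/
def phiS (φ : ℂ →ₗ[ℚ] ℚ) (P : PowerSeries ℂ) : PowerSeries ℚ :=
  PowerSeries.mk fun n => φ (P.coeff n)

theorem phiS_mul (φ : ℂ →ₗ[ℚ] ℚ) (F : PowerSeries ℚ) (P : PowerSeries ℂ) :
    phiS φ (F.map (Rat.castHom ℂ) * P) = F * phiS φ P := by
  ext n
  simp only [phiS, PowerSeries.coeff_mk, PowerSeries.coeff_mul, map_sum, PowerSeries.coeff_map]
  refine Finset.sum_congr rfl fun p _ => ?_
  rw [show (Rat.castHom ℂ) (F.coeff p.1) * P.coeff p.2 = F.coeff p.1 • P.coeff p.2 by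
    rw [Rat.smul_def]; rfl, map_smul, smul_eq_mul]

omit [NeZero N] in
theorem RatMF.bddDen {f : ℍ → ℂ} (hf : f ∈ RatMF N w) :
    ∀ φ : ℂ →ₗ[ℚ] ℚ, BddDen (phiS φ (qx f)) := by
  induction hf using Submodule.span_induction with
  | mem x hx =>
    intro φ
    obtain ⟨Z, hZ⟩ := hx.2
    have : phiS φ (qx x) = φ 1 • Z.map (Int.castRingHom ℚ) := by
      ext n
      rw [hZ]
      simp only [phiS, PowerSeries.coeff_mk, PowerSeries.coeff_map, map_smul, smul_eq_mul,
        eq_intCast]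
      have : ((Z.coeff n : ℤ) : ℂ) = ((Z.coeff n : ℤ) : ℚ) • (1 : ℂ) := by
        rw [Rat.smul_def]; simp
      rw [this, map_smul, smul_eq_mul, mul_comm]
    rw [this]
    exact BddDen.smul _ ⟨1, Z, one_ne_zero, by simp⟩
  | zero =>
    intro φ
    have : phiS φ (qx (0 : ℍ → ℂ)) = 0 := by ext n; simp [phiS, qx, qExpansion_zero]
    rw [this]; exact BddDen.zero
  | add x y hx hy ihx ihy =>
    intro φ
    have : phiS φ (qx (x + y)) = phiS φ (qx x) + phiS φ (qx y) := by
      rw [Good.qx_add (RatMF.isMF hx).good (RatMF.isMF hy).good]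
      ext n; simp [phiS]
    rw [this]; exact (ihx φ).add (ihy φ)
  | smul c x hx ihx =>
    intro φ
    have : phiS φ (qx (c • x)) = phiS (φ.comp (LinearMap.mulLeft ℚ c)) (qx x) := by
      rw [Good.qx_smul c (RatMF.isMF hx).good]
      ext n; simp [phiS]
    rw [this]; exact ihx _

theorem exists_proj : ∃ φ : ℂ →ₗ[ℚ] ℚ, φ 1 = 1 := by
  obtain ⟨φ, hφ⟩ := (Algebra.linearMap ℚ ℂ).exists_leftInverse_of_injective
    (LinearMap.ker_eq_bot.mpr (algebraMap ℚ ℂ).injective)
  exact ⟨φ, by simpa using LinearMap.congr_fun hφ 1⟩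

/-- Rational cusp forms have bounded denominators. -/
theorem cusp_bddDen {f : ℍ → ℂ} (hf : IsCF N k f) {F : PowerSeries ℚ}
    (hF : qx f = F.map (Rat.castHom ℂ)) :
    ∃ (M : ℕ) (Z : PowerSeries ℤ), M ≠ 0 ∧ (M : ℚ) • F = Z.map (Int.castRingHom ℚ) := by
  obtain ⟨φ, hφ⟩ := exists_proj
  have hfg := hf.isMF.good
  have hDg := (RatMF.isMF (interpD_mem N)).good
  obtain ⟨n₀, hn₀⟩ : ∃ n, (qx (interpD N)).coeff n ≠ 0 := by
    by_contra hc
    push Not at hc
    refine interpD_ne_zero N (Good.qx_inj hDg Good.zero ?_)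
    rw [show qx (0 : ℍ → ℂ) = 0 from qExpansion_zero 1]
    exact PowerSeries.ext (by simpa using hc)
  set a := ((qx (interpD N)).coeff n₀)⁻¹ with ha
  have hD1 := Submodule.smul_mem _ a (interpD_mem N)
  have hR1 := Submodule.smul_mem _ a (interp_mem hf.isMF)
  set d := phiS φ (qx (a • interpD N)) with hd
  have hd0 : d ≠ 0 := by
    intro h
    have := congrArg (fun P : PowerSeries ℚ => P.coeff n₀) h
    simp only [hd, Good.qx_smul a hDg] at this
    simp [phiS, ha, inv_mul_cancel₀ hn₀, hφ] at this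
  obtain ⟨Md, Zd, hMd, hZd⟩ := RatMF.bddDen hD1 φ
  obtain ⟨Mr, Zr, hMr, hZr⟩ := RatMF.bddDen hR1 φ
  have hr : phiS φ (qx (a • (f * interpD N))) = F * d := by
    rw [← mul_smul_comm, Good.qx_mul hfg (hDg.smul a), hF, phiS_mul, hd]
  rw [hr] at hZr
  rw [← hd] at hZd
  set C : ℕ → PowerSeries ℚ := fun m => phiS φ (qx (charC N k f m)) with hC
  have hC0 : C 0 = 1 := by
    ext n
    rw [hC]
    simp only [charC_zero_eq, phiS, qx, qExpansion_one, PowerSeries.coeff_mk, PowerSeries.coeff_one]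
    split_ifs <;> simp [hφ]
  have hCrel : ∑ m ∈ Finset.range (idx N + 1), C m * F ^ (idx N - m) = 0 := by
    have h := congrArg (fun g => phiS φ (qx g)) (charC_rel hf.isMF)
    rw [Good.qx_sum _ fun m _ => (RatMF.isMF (charC_mem hf.isMF m)).good.mul (hfg.pow _)] at h
    have hz : phiS φ (qx (0 : ℍ → ℂ)) = 0 := by ext n; simp [phiS, qx, qExpansion_zero]
    rw [hz] at h
    refine Eq.trans ?_ h
    have hlin : ∀ (s : Finset ℕ) (P : ℕ → PowerSeries ℂ),
        phiS φ (∑ m ∈ s, P m) = ∑ m ∈ s, phiS φ (P m) := by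
      intro s P; ext n; simp [phiS]
    rw [hlin]
    refine Finset.sum_congr rfl fun m _ => ?_
    rw [Good.qx_mul (RatMF.isMF (charC_mem hf.isMF m)).good (hfg.pow _), Good.qx_pow hfg, hF,
      ← map_pow, mul_comm (qx (charC N k f m)), phiS_mul, mul_comm]
  obtain ⟨M, hM, hMC⟩ := bddDen_common (n := idx N) (P := C)
    (fun m => RatMF.bddDen (charC_mem hf.isMF m) φ)
  let ι := PowerSeries.map (Int.castRingHom ℚ)
  have hι : Function.Injective ι := PowerSeries.map_injective _ Int.cast_injective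
  let Q : ℚ → PowerSeries ℚ := fun r => PowerSeries.C r
  have hA : ∀ m ≤ idx N, ∃ Z : PowerSeries ℤ,
      ι Z = (PowerSeries.C ((M : ℚ) ^ m)) * C m := by
    intro m hm
    rcases Nat.eq_zero_or_pos m with rfl | hm0
    · exact ⟨1, by simp [hC0]⟩
    · obtain ⟨Z, hZ⟩ := hMC m hm
      refine ⟨(M : PowerSeries ℤ) ^ (m - 1) * Z, ?_⟩
      simp only [ι, map_mul, map_pow, map_natCast, ← hZ, PowerSeries.smul_eq_C_mul]
      rw [← mul_assoc, ← pow_succ, Nat.sub_add_cancel hm0]
  choose! A hA using hA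
  let A' : ℕ → PowerSeries ℤ := fun m => if m = 0 then 1 else A m
  have hA' : ∀ m ≤ idx N, ι (A' m) = PowerSeries.C ((M : ℚ) ^ m) * C m := by
    intro m hm
    by_cases h : m = 0
    · subst h; simp [A', hC0]
    · simp [A', h, hA m hm]
  set G : PowerSeries ℚ := PowerSeries.C (M : ℚ) * F with hG
  set D0 : PowerSeries ℤ := (Mr : PowerSeries ℤ) * Zd with hD0def
  set R0 : PowerSeries ℤ := ((M * Md : ℕ) : PowerSeries ℤ) * Zr with hR0def
  rw [PowerSeries.smul_eq_C_mul, map_natCast] at hZd hZr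
  have hD0ι : ι D0 = (Mr : PowerSeries ℚ) * (Md * d) := by
    simp [ι, hD0def, hZd]
  have hR0 : ι R0 = G * ι D0 := by
    rw [hD0ι]
    simp only [ι, hR0def, hG, map_mul, map_natCast, ← hZr]
    push_cast
    ring
  have hD00 : D0 ≠ 0 := by
    intro h
    have hc : ∀ j : ℕ, j ≠ 0 → (j : PowerSeries ℚ) ≠ 0 := fun j hj => by
      intro h0
      have h1 := congrArg (PowerSeries.constantCoeff (R := ℚ)) h0
      simp at h1
      exact hj h1
    have := congrArg ι h
    rw [hD0ι, map_zero] at this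
    exact mul_ne_zero (hc _ hMr) (mul_ne_zero (hc _ hMd) hd0) this
  have hrel : ∑ m ∈ Finset.range (idx N + 1), A' m * R0 ^ (idx N - m) * D0 ^ m = 0 := by
    apply hι
    rw [map_zero, map_sum]
    calc ∑ m ∈ Finset.range (idx N + 1), ι (A' m * R0 ^ (idx N - m) * D0 ^ m)
        = ι D0 ^ idx N * PowerSeries.C ((M : ℚ) ^ idx N) *
            ∑ m ∈ Finset.range (idx N + 1), C m * F ^ (idx N - m) := by
          rw [Finset.mul_sum]
          refine Finset.sum_congr rfl fun m hm => ?_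
          have hm' : m ≤ idx N := Nat.lt_succ_iff.mp (Finset.mem_range.mp hm)
          obtain ⟨j, hj⟩ := Nat.exists_eq_add_of_le hm'
          rw [map_mul, map_mul, map_pow, map_pow, hA' m hm', hR0, hG]
          simp only [hj, Nat.add_sub_cancel_left, map_pow, map_mul, pow_add, mul_pow]
          ring
      _ = 0 := by rw [hCrel, mul_zero]
  obtain ⟨Z, hZ⟩ := dvd_of_integral_rel hD00 (a := A') (by simp [A']) hrel
  refine ⟨M, Z, hM, ?_⟩
  rw [PowerSeries.smul_eq_C_mul, ← hG]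
  have := congrArg ι hZ
  rw [hR0, map_mul ι D0 Z, mul_comm G] at this
  have hne : ι D0 ≠ 0 := fun e => hD00 (hι (e.trans (map_zero ι).symm))
  exact mul_left_cancel₀ hne this

/-- truncated q-expansion -/
def truncC (N : ℕ) [NeZero N] (k : ℤ) :
    CuspForm (Gamma0 N) k →ₗ[ℂ] (Fin ((k * (Gamma0 N).index).toNat / 12 + 1) → ℂ) where
  toFun f i := (qx f).coeff (i : ℕ)
  map_add' f g := by
    funext i
    show (qx (⇑f + ⇑g)).coeff (i : ℕ) = _
    rw [Good.qx_add (isCF_of_form f).isMF.good (isCF_of_form g).isMF.good, map_add]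
    rfl
  map_smul' c f := by
    funext i
    show (qx (c • ⇑f)).coeff (i : ℕ) = _
    rw [Good.qx_smul c (isCF_of_form f).isMF.good]
    simp

theorem truncC_injective (N : ℕ) [NeZero N] (k : ℤ) : Function.Injective (truncC N k) := by
  refine (injective_iff_map_eq_zero _).mpr fun f hf => ?_
  have hmf : (isCF_of_form f).isMF.toForm = 0 := by
    refine ModularForm.sturm_bound_Gamma0 N _ fun n hn => ?_
    exact congrFun hf ⟨n, Nat.lt_succ_of_le hn⟩
  exact DFunLike.coe_injective (show (⇑f : ℍ → ℂ) = 0 from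
    (congrArg (fun F : ModularForm (Gamma0 N) k => (⇑F : ℍ → ℂ)) hmf).trans (funext fun _ => rfl))

/-- every weight, every level -/
theorem hasIntegralStructure (N : ℕ) [NeZero N] (k : ℤ) : CuspForm.HasIntegralStructure N k := by
  rw [CuspForm.HasIntegralStructure, eq_top_iff]
  intro f _
  set L := ((CuspForm.intLattice N k : Submodule ℤ (CuspForm (Gamma0 N) k)) :
    Set (CuspForm (Gamma0 N) k))
  set T := truncC N k
  suffices h : T f ∈ (Submodule.span ℂ L).map T by
    obtain ⟨g, hg, hgf⟩ := h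
    rwa [← truncC_injective N k hgf]
  let W := LinearMap.range T
  have hW : ∀ σ : ℂ →+* ℂ, ∀ v ∈ W, (fun i => σ (v i)) ∈ W := by
    rintro σ _ ⟨g, rfl⟩
    obtain ⟨h, hh, he⟩ := cusp_twist (isCF_of_form g) σ
    refine ⟨hh.toForm, funext fun i => ?_⟩
    show (qx h).coeff (i : ℕ) = _
    rw [he, PowerSeries.coeff_map]
    rfl
  refine (le_span_rat W hW).trans (Submodule.span_le.mpr ?_) (LinearMap.mem_range_self T f)
  rintro _ ⟨⟨g, rfl⟩, hrat⟩
  have hall : ∀ n, ∃ r : ℚ, (qx g).coeff n = r := by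
    intro n
    refine fixed_eq_rat fun σ => ?_
    obtain ⟨h, hh, he⟩ := cusp_twist (isCF_of_form g) σ
    have : hh.toForm = g := by
      refine truncC_injective N k (funext fun i => ?_)
      show (qx h).coeff (i : ℕ) = _
      obtain ⟨r, hr⟩ := hrat i
      rw [he, PowerSeries.coeff_map, hr]
      show σ ((qx g).coeff (i : ℕ)) = _
      rw [show (qx g).coeff (i : ℕ) = (r : ℂ) from hr, map_ratCast]
    rw [← this, IsCF.coe_toForm, he, PowerSeries.coeff_map]
    have h2 := congrArg (fun F : CuspForm (Gamma0 N) k => (qx F).coeff n) this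
    simp only [IsCF.coe_toForm, he, PowerSeries.coeff_map] at h2
    rw [h2, h2]
  choose r hr using hall
  obtain ⟨M, Z, hM, hZ⟩ := cusp_bddDen (isCF_of_form g) (F := PowerSeries.mk r)
    (PowerSeries.ext fun n => by simpa using hr n)
  have hMg : (M : ℂ) • g ∈ CuspForm.intLattice N k := by
    refine Submodule.subset_span fun n => ⟨Z.coeff n, ?_⟩
    show (qx ((M : ℂ) • ⇑g)).coeff n = _
    rw [Good.qx_smul _ (isCF_of_form g).isMF.good, PowerSeries.coeff_smul, hr n]
    have := congrArg (fun P : PowerSeries ℚ => ((P.coeff n : ℚ) : ℂ)) hZ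
    simpa [smul_eq_mul] using this
  refine ⟨g, ?_, rfl⟩
  have hM' : (M : ℂ) ≠ 0 := by exact_mod_cast hM
  rw [← inv_smul_smul₀ hM' g]
  exact Submodule.smul_mem _ _ (Submodule.subset_span hMg)

end FLTAgent.ModFun
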