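import Fermat.Agent.RR.Defs

/-!
Degree of a field generated by x, y over the field of x, from a relation and independence.
-/

set_option autoImplicit false

noncomputable section

namespace FLTAgent.ModFun.FieldAux

variable {K F : Type*} [Field K] [Field F] [Algebra K F] {x y : F} {n : ℕ}

theorem transcendental_of_indep (hn : 0 < n)
    (hind : ∀ c : ℕ → Polynomial K,
      ∑ i ∈ Finset.range n, Polynomial.aeval x (c i) * y ^ i = 0 → ∀ i < n, c i = 0) :
    Transcendental K x := by
  rw [transcendental_iff]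
  intro P hP
  let c : ℕ → Polynomial K := fun i => if i = 0 then P else 0
  have h : ∑ i ∈ Finset.range n, Polynomial.aeval x (c i) * y ^ i = 0 := by
    refine Finset.sum_eq_zero fun i _ => ?_
    by_cases hi : i = 0 <;> simp [c, hi, hP]
  simpa [c] using hind c h 0 hn

theorem exists_monic (hrel : ∃ c : ℕ → Polynomial K, c 0 = 1 ∧
      ∑ m ∈ Finset.range (n + 1), Polynomial.aeval x (c m) * y ^ (n - m) = 0) :
    ∃ p : Polynomial (IntermediateField.adjoin K ({x} : Set F)),
      p.Monic ∧ p.natDegree = n ∧ Polynomial.aeval y p = 0 := by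
  obtain ⟨c, hc0, hc⟩ := hrel
  set L := IntermediateField.adjoin K ({x} : Set F)
  let x' : L := ⟨x, IntermediateField.mem_adjoin_simple_self _ _⟩
  let b : ℕ → L := fun m => Polynomial.aeval x' (c m)
  have hb : ∀ m, algebraMap L F (b m) = Polynomial.aeval x (c m) := fun m =>
    (Polynomial.aeval_algHom_apply L.val x' (c m)).symm
  let p : Polynomial L :=
    Polynomial.X ^ n + ∑ m ∈ Finset.range n, Polynomial.C (b (m + 1)) * Polynomial.X ^ (n - (m + 1))
  have hdeg : (∑ m ∈ Finset.range n,
      Polynomial.C (b (m + 1)) * Polynomial.X ^ (n - (m + 1))).degree < (n : WithBot ℕ) := by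
    refine (Polynomial.degree_sum_le _ _).trans_lt ?_
    refine (Finset.sup_lt_iff (WithBot.bot_lt_coe _)).mpr fun m hm => ?_
    refine (Polynomial.degree_C_mul_X_pow_le _ _).trans_lt ?_
    exact Nat.cast_lt.mpr (by have := Finset.mem_range.mp hm; omega)
  refine ⟨p, Polynomial.monic_X_pow_add hdeg, ?_, ?_⟩
  · apply Polynomial.natDegree_eq_of_degree_eq_some
    rw [Polynomial.degree_add_eq_left_of_degree_lt (by rwa [Polynomial.degree_X_pow]),
      Polynomial.degree_X_pow]
  · rw [Finset.sum_range_succ', hc0, map_one, one_mul, Nat.sub_zero, add_comm] at hc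
    refine Eq.trans ?_ hc
    simp only [p, map_add, map_pow, Polynomial.aeval_X, map_sum, map_mul, Polynomial.aeval_C, hb]

theorem minpoly_natDegree (hrel : ∃ c : ℕ → Polynomial K, c 0 = 1 ∧
      ∑ m ∈ Finset.range (n + 1), Polynomial.aeval x (c m) * y ^ (n - m) = 0)
    (hind : ∀ c : ℕ → Polynomial K,
      ∑ i ∈ Finset.range n, Polynomial.aeval x (c i) * y ^ i = 0 → ∀ i < n, c i = 0) :
    (minpoly (IntermediateField.adjoin K ({x} : Set F)) y).natDegree = n := by
  classical
  set L := IntermediateField.adjoin K ({x} : Set F)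
  obtain ⟨p, hp, hpd, hp0⟩ := exists_monic hrel
  refine le_antisymm (hpd ▸ Polynomial.natDegree_le_of_dvd (minpoly.dvd _ _ hp0) hp.ne_zero) ?_
  by_contra hlt
  push Not at hlt
  set P := minpoly L y
  have hP : Polynomial.aeval y P = 0 := minpoly.aeval _ _
  have hmonic : P.Monic := minpoly.monic ⟨p, hp, hp0⟩
  rw [Polynomial.aeval_eq_sum_range' hlt] at hP
  choose r s hrs using fun i => (IntermediateField.mem_adjoin_simple_iff K _).mp (P.coeff i).2
  let s' : ℕ → Polynomial K := fun i => if Polynomial.aeval x (s i) = 0 then 1 else s i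
  let r' : ℕ → Polynomial K := fun i => if Polynomial.aeval x (s i) = 0 then 0 else r i
  have hs' : ∀ i, Polynomial.aeval x (s' i) ≠ 0 := by
    intro i; simp only [s']; split_ifs with h <;> simp [h]
  have hr' : ∀ i, (P.coeff i : F) * Polynomial.aeval x (s' i) = Polynomial.aeval x (r' i) := by
    intro i; simp only [s', r']
    split_ifs with h
    · rw [hrs, h, div_zero]; simp
    · rw [hrs, div_mul_cancel₀ _ h]
  let C : ℕ → Polynomial K := fun i => r' i * ∏ l ∈ (Finset.range n).erase i, s' l
  have hC : ∑ i ∈ Finset.range n, Polynomial.aeval x (C i) * y ^ i = 0 := by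
    have := congrArg (fun z => z * ∏ l ∈ Finset.range n, Polynomial.aeval x (s' l)) hP
    simp only [zero_mul, Finset.sum_mul] at this
    refine Eq.trans (Finset.sum_congr rfl fun i hi => ?_) this
    rw [← Finset.mul_prod_erase _ _ hi]
    simp only [C, map_mul, map_prod, ← hr', Algebra.smul_def, IntermediateField.algebraMap_apply]
    ring
  have h1 := hind C hC P.natDegree hlt
  rw [mul_eq_zero] at h1
  rcases h1 with h1 | h1
  · have := hr' P.natDegree
    rw [h1, map_zero, Polynomial.coeff_natDegree, hmonic.leadingCoeff, OneMemClass.coe_one,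
      one_mul] at this
    exact hs' _ this
  · obtain ⟨l, -, hl⟩ := Finset.prod_eq_zero_iff.mp h1
    exact hs' l (by rw [hl, map_zero])

theorem ndeg_eq (hn : 0 < n) (hgen : IntermediateField.adjoin K ({x, y} : Set F) = ⊤)
    (hind : ∀ c : ℕ → Polynomial K,
      ∑ i ∈ Finset.range n, Polynomial.aeval x (c i) * y ^ i = 0 → ∀ i < n, c i = 0)
    (hrel : ∃ c : ℕ → Polynomial K, c 0 = 1 ∧
      ∑ m ∈ Finset.range (n + 1), Polynomial.aeval x (c m) * y ^ (n - m) = 0) :
    RR.ndeg K x = n := by
  have htop : IntermediateField.adjoin (IntermediateField.adjoin K ({x} : Set F)) ({y} : Set F) = ⊤ := by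
    refine IntermediateField.restrictScalars_injective K ?_
    rw [IntermediateField.restrictScalars_top, IntermediateField.adjoin_simple_adjoin_simple, hgen]
  obtain ⟨p, hp, -, hp0⟩ := exists_monic hrel
  rw [RR.ndeg, ← IntermediateField.finrank_top', ← htop,
    IntermediateField.adjoin.finrank ⟨p, hp, hp0⟩, minpoly_natDegree hrel hind]

theorem finite_of_relation (hn : 0 < n) (hgen : IntermediateField.adjoin K ({x, y} : Set F) = ⊤)
    (hind : ∀ c : ℕ → Polynomial K,
      ∑ i ∈ Finset.range n, Polynomial.aeval x (c i) * y ^ i = 0 → ∀ i < n, c i = 0)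
    (hrel : ∃ c : ℕ → Polynomial K, c 0 = 1 ∧
      ∑ m ∈ Finset.range (n + 1), Polynomial.aeval x (c m) * y ^ (n - m) = 0) :
    FiniteDimensional (IntermediateField.adjoin K ({x} : Set F)) F :=
  Module.finite_of_finrank_pos
    (show 0 < RR.ndeg K x from (ndeg_eq hn hgen hind hrel).symm ▸ hn)

end FLTAgent.ModFun.FieldAux
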