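import Fermat.Agent.ModFun.Generation
import Fermat.Agent.RR.Defs
import Fermat.Agent.ModFun.FieldAux

/-!
The function field of X₀(N) over an algebraic closure of ℚ has degree ψ over the j-line.
-/

set_option autoImplicit false

noncomputable section

open UpperHalfPlane CongruenceSubgroup ModularCurve Filter
open scoped MatrixGroups Manifold Topology Real ModularForm

namespace FLTAgent.ModFun

variable {N : ℕ} [NeZero N]

theorem jConj_injective : Function.Injective (jConj N) := by
  intro q r h
  have hiff := jFun_scale_conj_eq_iff N q.out⁻¹ r.out⁻¹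
  have hm := hiff.mp fun τ => by
    rw [← jConj_apply, ← jConj_apply, h]
  rw [← QuotientGroup.out_eq' q, ← QuotientGroup.out_eq' r, QuotientGroup.eq]
  simpa using hm

theorem coeff_zero_of_aeval {c : ℕ → Polynomial ℂ}
    (h : ∑ i ∈ Finset.range (idx N), Polynomial.aeval jM (c i) * jdM N ^ i = (0 : M1)) :
    ∀ i < idx N, c i = 0 := by
  classical
  have hpt : ∀ (q : Cosets N) (τ : ℍ),
      ∑ i ∈ Finset.range (idx N), (c i).eval (jFun τ) * jConj N q τ ^ i = 0 := by
    intro q τ
    have h' := congrArg (evalM (q.out⁻¹ • τ)) h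
    rw [map_sum, map_zero] at h'
    refine Eq.trans (Finset.sum_congr rfl fun i _ => ?_) h'
    rw [map_mul, map_pow, evalM_apply, evalM_apply, aeval_jM_apply, jFun_smul, jdM_apply,
      ← jConj_sep]
  let G : ℍ → ℂ := ∏ p ∈ (Finset.univ : Finset (Cosets N)).offDiag, (jConj N p.1 - jConj N p.2)
  have hGm : MDiff G := mdiff_prod _ fun p _ => (mdiff_jConj N p.1).sub (mdiff_jConj N p.2)
  have hG : G ≠ 0 := by
    intro h0
    rw [UpperHalfPlane.prod_eq_zero_iff (fun p _ => (mdiff_jConj N p.1).sub (mdiff_jConj N p.2))] at h0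
    obtain ⟨p, hp, hp0⟩ := h0
    exact (Finset.mem_offDiag.mp hp).2.2 (jConj_injective (sub_eq_zero.mp hp0))
  intro i hi
  have hprod : (fun τ => (c i).eval (jFun τ)) * G = 0 := by
    funext τ
    by_cases hτ : G τ = 0
    · simp [hτ]
    have hinj : Function.Injective (fun q : Cosets N => jConj N q τ) := by
      intro q r hqr
      by_contra hne
      apply hτ
      simp only [G, Finset.prod_apply]
      exact Finset.prod_eq_zero (i := (q, r)) (Finset.mem_offDiag.mpr
        ⟨Finset.mem_univ _, Finset.mem_univ _, hne⟩) (by simpa [sub_eq_zero] using hqr)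
    let p : Polynomial ℂ := ∑ l ∈ Finset.range (idx N),
      Polynomial.C ((c l).eval (jFun τ)) * Polynomial.X ^ l
    have hp : p = 0 := by
      refine Polynomial.eq_zero_of_degree_lt_of_eval_finset_eq_zero
        (Finset.univ.image fun q : Cosets N => jConj N q τ) ?_ ?_
      · rw [Finset.card_image_of_injective _ hinj, Finset.card_univ]
        refine (Polynomial.degree_sum_le _ _).trans_lt ?_
        refine (Finset.sup_lt_iff (WithBot.bot_lt_coe _)).mpr fun l hl => ?_
        refine (Polynomial.degree_C_mul_X_pow_le _ _).trans_lt ?_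
        exact Nat.cast_lt.mpr (Finset.mem_range.mp hl)
      · intro x hx
        obtain ⟨q, -, rfl⟩ := Finset.mem_image.mp hx
        simpa [p, Polynomial.eval_finset_sum] using hpt q τ
    have := congrArg (fun P : Polynomial ℂ => P.coeff i) hp
    simp [p, Polynomial.finset_sum_coeff, hi] at this
    simp [this]
  have hcm : MDiff (fun τ => (c i).eval (jFun τ)) := by
    have := (Polynomial.aeval jM (c i)).2.holo
    rwa [show ((Polynomial.aeval jM (c i) : M1) : ℍ → ℂ) = fun τ => (c i).eval (jFun τ) from
      funext (aeval_jM_apply _)] at this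
  have hz := ((UpperHalfPlane.mul_eq_zero_iff hcm hGm).mp hprod).resolve_right hG
  refine Polynomial.zero_of_eval_zero _ fun a => ?_
  obtain ⟨τ, rfl⟩ := jFun_surjective a
  exact congrFun hz τ

theorem coeffMap_aeval {K : Type*} [Field K] (e : K →+* ℂ) (P : Polynomial K)
    (X : LaurentSeries K) :
    coeffMap e (Polynomial.aeval X P) = Polynomial.aeval (coeffMap e X) (P.map e) := by
  induction P using Polynomial.induction_on' with
  | add p q hp hq => simp [hp, hq]
  | monomial n a =>
    rw [Polynomial.map_monomial, Polynomial.aeval_monomial, Polynomial.aeval_monomial, map_mul,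
      map_pow, algebraMap_laurentSeries_eq_single, algebraMap_laurentSeries_eq_single,
      coeffMap_single]

theorem phiL_aeval (φ : ℂ →ₗ[ℚ] ℚ) (P : Polynomial ℂ) :
    ∃ Q : Polynomial ℚ, ∀ Y : LaurentSeries ℚ,
      phiL φ (Polynomial.aeval (coeffEmb ℂ jq) P * coeffEmb ℂ Y) = Polynomial.aeval jq Q * Y := by
  induction P using Polynomial.induction_on' with
  | add p q hp hq =>
    obtain ⟨a, ha⟩ := hp
    obtain ⟨b, hb⟩ := hq
    exact ⟨a + b, fun Y => by simp only [map_add, add_mul, phiL_add, ha, hb]⟩
  | monomial n c =>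
    refine ⟨Polynomial.monomial n ((φ.comp (LinearMap.mulLeft ℚ c)) 1), fun Y => ?_⟩
    rw [Polynomial.aeval_monomial, Polynomial.aeval_monomial, ← map_pow, mul_assoc, ← map_mul,
      phiL_smul, phiL_coeffEmb, mul_assoc]

/-- the monic relation over ℚ -/
theorem exists_rat_relation (N : ℕ) [NeZero N] :
    ∃ c : ℕ → Polynomial ℚ, c 0 = 1 ∧
      ∑ m ∈ Finset.range (idx N + 1),
        Polynomial.aeval jq (c m) * qExpand ℚ N jq ^ (idx N - m) = 0 := by
  obtain ⟨c, hc0, hc⟩ := exists_modEq N
  have hM : ∑ m ∈ Finset.range (idx N + 1), Polynomial.aeval jM (c m) * jdM N ^ (idx N - m) = 0 := by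
    refine Subtype.ext (funext fun τ => ?_)
    simp only [AddSubmonoidClass.coe_finsetSum, Finset.sum_apply, Subalgebra.coe_mul,
      Subalgebra.coe_pow, Pi.mul_apply, Pi.pow_apply, aeval_jM_apply, jdM_apply]
    rw [← hc τ (jN N τ)]
    exact Finset.prod_eq_zero (Finset.mem_univ (q₁ N)) (by rw [jConj_q₁, sub_self])
  have hL := congrArg lx hM
  rw [map_sum, map_zero] at hL
  obtain ⟨φ, hφ⟩ := exists_proj
  choose Q hQ using fun m => phiL_aeval φ (c m)
  refine ⟨fun m => if m = 0 then 1 else Q m, by simp, ?_⟩
  have h2 := congrArg (phiL φ) hL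
  rw [phiL_zero] at h2
  have hsum : ∀ (s : Finset ℕ) (F : ℕ → LaurentSeries ℂ),
      phiL φ (∑ m ∈ s, F m) = ∑ m ∈ s, phiL φ (F m) := by
    intro s F; ext n; simp [phiL_coeff]
  rw [hsum] at h2
  refine Eq.trans (Finset.sum_congr rfl fun m _ => ?_) h2
  rw [map_mul, map_pow lx (jdM N), lx_jdM, lx_aeval_jM, ← map_pow (coeffEmb ℂ), hQ]
  by_cases hm : m = 0
  · subst hm
    have h := hQ 0 1
    rw [hc0, map_one, map_one, one_mul, mul_one, ← map_one (coeffEmb ℂ), phiL_coeffEmb, hφ,
      map_one, mul_one] at h
    simp only [if_pos]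
    rw [map_one, ← h]
  · simp only [if_neg hm]

theorem coeffEmb_aeval {K : Type*} [Field K] [Algebra ℚ K] (P : Polynomial ℚ) :
    coeffEmb K (Polynomial.aeval jq P) =
      Polynomial.aeval (coeffEmb K jq) (P.map (algebraMap ℚ K)) := by
  induction P using Polynomial.induction_on' with
  | add p q hp hq => simp [hp, hq]
  | monomial n a =>
    rw [Polynomial.map_monomial, Polynomial.aeval_monomial, Polynomial.aeval_monomial, map_mul,
      map_pow, algebraMap_laurentSeries_eq_single, algebraMap_laurentSeries_eq_single]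
    congr 1
    ext k
    simp only [coeffEmb_coeff, HahnSeries.coeff_single]
    split_ifs <;> simp

/-- an embedding of the algebraic closure in ℂ -/
def embC : AlgebraicClosure ℚ →+* ℂ :=
  haveI : Algebra.IsAlgebraic ℚ (AlgebraicClosure ℚ) := AlgebraicClosure.isAlgebraic ℚ
  (IsAlgClosed.lift (R := ℚ) : AlgebraicClosure ℚ →ₐ[ℚ] ℂ).toRingHom

variable (N)

/-- jq as an element of the function field over the algebraic closure -/
def jBar : modularFunctionFieldBar N :=
  ⟨coeffEmb (AlgebraicClosure ℚ) jq,
    coeffEmb_mem_laurentBaseChange _ (modularFunctionField_le_full N (jq_mem N))⟩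

/-- jqN as an element of the function field over the algebraic closure -/
def jNBar : modularFunctionFieldBar N :=
  ⟨coeffEmb (AlgebraicClosure ℚ) (qExpand ℚ N jq),
    coeffEmb_mem_laurentBaseChange _ (modularFunctionField_le_full N (jqN_mem N))⟩

local notation "Kb" => AlgebraicClosure ℚ

theorem coe_aeval_bar (P : Polynomial Kb) :
    ((Polynomial.aeval (jBar N) P : modularFunctionFieldBar N) : LaurentSeries Kb) =
      Polynomial.aeval (coeffEmb Kb jq) P :=
  (Polynomial.aeval_algHom_apply (modularFunctionFieldBar N).val (jBar N) P).symm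

theorem indep_bar {c : ℕ → Polynomial Kb}
    (h : ∑ i ∈ Finset.range (idx N), Polynomial.aeval (jBar N) (c i) * jNBar N ^ i = 0) :
    ∀ i < idx N, c i = 0 := by
  intro i hi
  apply Polynomial.map_injective embC embC.injective
  rw [Polynomial.map_zero]
  refine coeff_zero_of_aeval (N := N) (c := fun i => (c i).map embC) ?_ i hi
  apply lx_injective
  rw [map_sum, map_zero]
  have h1 := congrArg (fun z : modularFunctionFieldBar N => coeffMap embC (z : LaurentSeries Kb)) h
  simp only [AddSubmonoidClass.coe_finsetSum, MulMemClass.coe_mul, SubmonoidClass.coe_pow,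
    ZeroMemClass.coe_zero, map_sum, map_mul, map_pow, map_zero, coe_aeval_bar] at h1
  refine Eq.trans (Finset.sum_congr rfl fun i _ => ?_) h1
  rw [map_mul, map_pow lx (jdM N), lx_jdM, lx_aeval_jM]
  simp only [jNBar]
  rw [← coeffMap_coeffEmb_comp embC jq, ← coeffMap_coeffEmb_comp embC (qExpand ℚ N jq)]
  congr 1
  rw [← coeffMap_aeval]

theorem relation_bar : ∃ c : ℕ → Polynomial Kb, c 0 = 1 ∧
    ∑ m ∈ Finset.range (idx N + 1),
      Polynomial.aeval (jBar N) (c m) * jNBar N ^ (idx N - m) = 0 := by
  obtain ⟨c, hc0, hc⟩ := exists_rat_relation N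
  refine ⟨fun m => (c m).map (algebraMap ℚ Kb), by simp [hc0], Subtype.ext ?_⟩
  have h1 := congrArg (coeffEmb Kb) hc
  rw [map_sum, map_zero] at h1
  rw [ZeroMemClass.coe_zero, AddSubmonoidClass.coe_finsetSum]
  refine Eq.trans (Finset.sum_congr rfl fun m _ => ?_) h1
  rw [MulMemClass.coe_mul, SubmonoidClass.coe_pow, map_mul, map_pow, coeffEmb_aeval, coe_aeval_bar]
  rfl

theorem generated_bar :
    IntermediateField.adjoin Kb ({jBar N, jNBar N} : Set (modularFunctionFieldBar N)) = ⊤ := by
  refine IntermediateField.map_injective (modularFunctionFieldBar N).val ?_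
  rw [IntermediateField.adjoin_map, Set.image_pair, ← AlgHom.fieldRange_eq_map,
    IntermediateField.fieldRange_val]
  refine le_antisymm (IntermediateField.adjoin_le_iff.mpr ?_) ?_
  · rintro x (rfl | rfl)
    · exact (jBar N).2
    · exact (jNBar N).2
  · show laurentBaseChange Kb (modularFunctionFieldFull N) ≤ _
    rw [laurentBaseChange, IntermediateField.adjoin_le_iff, modularFunctionFieldFull_eq]
    rintro _ ⟨z, hz, rfl⟩
    rw [SetLike.mem_coe, modularFunctionField] at hz
    induction hz using IntermediateField.adjoin_induction with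
    | mem y hy =>
      refine IntermediateField.subset_adjoin _ _ ?_
      rcases hy with rfl | rfl
      · exact Or.inl rfl
      · exact Or.inr rfl
    | algebraMap a =>
      rw [algebraMap_laurentSeries_eq_single]
      have : coeffEmb Kb (HahnSeries.single 0 a) =
          algebraMap Kb (LaurentSeries Kb) (algebraMap ℚ Kb a) := by
        rw [algebraMap_laurentSeries_eq_single]
        ext k
        simp only [coeffEmb_coeff, HahnSeries.coeff_single]
        split_ifs <;> simp
      rw [this]
      exact IntermediateField.algebraMap_mem _ _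
    | add x y _ _ hx hy => rw [map_add]; exact add_mem hx hy
    | inv x _ hx => rw [map_inv₀]; exact inv_mem hx
    | mul x y _ _ hx hy => rw [map_mul]; exact mul_mem hx hy

theorem transcendental_jBar : Transcendental Kb (jBar N) :=
  FieldAux.transcendental_of_indep (idx_pos N) (fun _ h => indep_bar N h)

theorem ndeg_jBar : RR.ndeg Kb (jBar N) = Nat.card (SL(2, ℤ) ⧸ Gamma0 N) := by
  rw [FieldAux.ndeg_eq (idx_pos N) (generated_bar N) (fun _ h => indep_bar N h) (relation_bar N),
    idx, Nat.card_eq_fintype_card]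

instance fnFieldBar : RR.FnField Kb (modularFunctionFieldBar N) where
  exists_transcendental := ⟨jBar N, transcendental_jBar N,
    FieldAux.finite_of_relation (idx_pos N) (generated_bar N) (fun _ h => indep_bar N h) (relation_bar N)⟩

end FLTAgent.ModFun
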