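import Fermat.Agent.ModFun.JOrder
import Fermat.Agent.ModFun.FunctionField
import Fermat.Prelude.Def_ModularCurve_JqCoeff

/-!
The dictionary for `X₀(N)`: the j-function, transfer between q-series and functions, and the
modular function field over `ℚ̄` (re-export module).
-/
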