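import Mathlib
import Fermat.Prelude.Def_FLTPrelim_Modularity
import Fermat.Prelude.Thm_CongruenceSubgroup_one_mem_strictPeriods_Gamma0

/-!
Functions on the upper half plane with good q-expansions; modular forms for Γ₀(N) as predicates.
-/

set_option autoImplicit false

noncomputable section

open UpperHalfPlane CongruenceSubgroup ModularForm Filter
open scoped MatrixGroups Manifold Topology

namespace FLTAgent.ModFun

/-- holomorphic, 1-periodic and bounded at infinity -/
structure Good (f : ℍ → ℂ) : Prop where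
  per : Function.Periodic (f ∘ ofComplex) 1
  holo : MDiff f
  bdd : IsBoundedAtImInfty f

abbrev qx (f : ℍ → ℂ) : PowerSeries ℂ := qExpansion 1 f

namespace Good

variable {f g : ℍ → ℂ}

theorem analytic (hf : Good f) : AnalyticAt ℂ (cuspFunction 1 f) 0 :=
  analyticAt_cuspFunction_zero one_pos (by simpa using hf.per) hf.holo hf.bdd

theorem add (hf : Good f) (hg : Good g) : Good (f + g) where
  per := hf.per.add hg.per
  holo := hf.holo.add hg.holo
  bdd := hf.bdd.add hg.bdd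

theorem mul (hf : Good f) (hg : Good g) : Good (f * g) where
  per := hf.per.mul hg.per
  holo := hf.holo.mul hg.holo
  bdd := hf.bdd.mul hg.bdd

theorem const (c : ℂ) : Good (fun _ => c) where
  per := fun _ => rfl
  holo := mdifferentiable_const
  bdd := Filter.const_boundedAtFilter _ c

theorem zero : Good 0 := const 0

theorem one : Good 1 := const 1

theorem smul (c : ℂ) (hf : Good f) : Good (c • f) := (const c).mul hf

theorem neg (hf : Good f) : Good (-f) := by simpa using hf.smul (-1)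

theorem sub (hf : Good f) (hg : Good g) : Good (f - g) := by simpa [sub_eq_add_neg] using hf.add hg.neg

theorem sum {ι : Type*} (s : Finset ι) {F : ι → ℍ → ℂ} (h : ∀ i ∈ s, Good (F i)) :
    Good (∑ i ∈ s, F i) :=
  Finset.sum_induction F Good (fun _ _ => Good.add) Good.zero h

theorem pow (hf : Good f) (n : ℕ) : Good (f ^ n) := by
  induction n with
  | zero => simpa using Good.one
  | succ n ih => simpa [pow_succ] using ih.mul hf

theorem qx_add (hf : Good f) (hg : Good g) : qx (f + g) = qx f + qx g :=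
  qExpansion_add hf.analytic hg.analytic

theorem qx_mul (hf : Good f) (hg : Good g) : qx (f * g) = qx f * qx g :=
  qExpansion_mul hf.analytic hg.analytic

theorem qx_smul (c : ℂ) (hf : Good f) : qx (c • f) = c • qx f := qExpansion_smul hf.analytic c

theorem qx_neg (hf : Good f) : qx (-f) = -qx f := qExpansion_neg hf.analytic

theorem qx_sub (hf : Good f) (hg : Good g) : qx (f - g) = qx f - qx g :=
  qExpansion_sub hf.analytic hg.analytic

theorem qx_sum {ι : Type*} (s : Finset ι) {F : ι → ℍ → ℂ} (h : ∀ i ∈ s, Good (F i)) :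
    qx (∑ i ∈ s, F i) = ∑ i ∈ s, qx (F i) := by
  classical
  induction s using Finset.induction_on with
  | empty => simp [qExpansion_zero]
  | insert a s ha ih =>
    rw [Finset.sum_insert ha, Finset.sum_insert ha,
      qx_add (h a (Finset.mem_insert_self _ _)) (Good.sum s fun i hi => h i (Finset.mem_insert_of_mem hi)),
      ih fun i hi => h i (Finset.mem_insert_of_mem hi)]

theorem qx_pow (hf : Good f) (n : ℕ) : qx (f ^ n) = qx f ^ n := by
  induction n with
  | zero => simpa using qExpansion_one 1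
  | succ n ih => rw [pow_succ, pow_succ, qx_mul (hf.pow n) hf, ih]

theorem qx_inj (hf : Good f) (hg : Good g) (h : qx f = qx g) : f = g := by
  have := hf.sub hg
  refine sub_eq_zero.mp ((qExpansion_eq_zero_iff one_pos (by simpa using this.per) this.holo this.bdd).mp ?_)
  show qx (f - g) = 0
  rw [qx_sub hf hg, h, sub_self]

end Good

/-- `f` is a modular form of weight `w` for Γ₀(N) -/
structure IsMF (N : ℕ) (w : ℤ) (f : ℍ → ℂ) : Prop where
  holo : MDiff f
  inv : ∀ γ : SL(2, ℤ), γ ∈ Gamma0 N → f ∣[w] γ = f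
  bdd : ∀ γ : SL(2, ℤ), IsBoundedAtImInfty (f ∣[w] γ)

/-- `f` is a cusp form of weight `w` for Γ₀(N) -/
structure IsCF (N : ℕ) (w : ℤ) (f : ℍ → ℂ) : Prop where
  holo : MDiff f
  inv : ∀ γ : SL(2, ℤ), γ ∈ Gamma0 N → f ∣[w] γ = f
  zero : ∀ γ : SL(2, ℤ), IsZeroAtImInfty (f ∣[w] γ)

theorem IsCF.isMF {N : ℕ} {w : ℤ} {f : ℍ → ℂ} (h : IsCF N w f) : IsMF N w f :=
  ⟨h.holo, h.inv, fun γ => (h.zero γ).boundedAtFilter⟩

theorem mem_Gamma0_one (γ : SL(2, ℤ)) : γ ∈ Gamma0 1 := by
  rw [Gamma0_mem]; exact Subsingleton.elim _ _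

theorem T_mem_Gamma0 (N : ℕ) : ModularGroup.T ∈ Gamma0 N := by
  rw [Gamma0_mem]; simp [ModularGroup.T]

theorem mdiff_slash {f : ℍ → ℂ} (hf : MDiff f) (k : ℤ) (γ : SL(2, ℤ)) : MDiff (f ∣[k] γ) :=
  hf.slash k _

namespace IsMF

variable {N M : ℕ} {w w' : ℤ} {f g : ℍ → ℂ}

theorem slash_neg_one (hf : IsMF N w f) : f ∣[w] (-1 : SL(2, ℤ)) = f :=
  hf.inv _ (by rw [Gamma0_mem]; simp)

theorem good (hf : IsMF N w f) : Good f where
  per := by
    intro z
    by_cases hz : 0 < z.im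
    · have hz' : 0 < (z + 1).im := by simpa
      simp only [Function.comp_apply, ofComplex_apply_of_im_pos hz, ofComplex_apply_of_im_pos hz']
      have e : (⟨z + 1, hz'⟩ : ℍ) = ModularGroup.T • (⟨z, hz⟩ : ℍ) := by
        ext
        rw [UpperHalfPlane.modular_T_smul]
        simp [add_comm]
      have := congrFun (hf.inv _ (T_mem_Gamma0 N)) ⟨z, hz⟩
      rw [SL_slash_apply, ← e] at this
      have hd : denom (ModularGroup.T : GL (Fin 2) ℝ) ((⟨z, hz⟩ : ℍ) : ℂ) = 1 := by
        rw [ModularGroup.denom_apply]; simp [ModularGroup.T]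
      rw [hd, one_zpow, mul_one] at this
      exact this
    · have hz' : (z + 1).im ≤ 0 := by simpa using hz
      simp only [Function.comp_apply]
      rw [ofComplex_apply_of_im_nonpos (not_lt.mp hz), ofComplex_apply_of_im_nonpos hz']
  holo := hf.holo
  bdd := by simpa using hf.bdd 1

theorem mono (h : M ∣ N) (hf : IsMF M w f) : IsMF N w f :=
  ⟨hf.holo, fun γ hγ => hf.inv γ (by
    rw [Gamma0_mem, ZMod.intCast_zmod_eq_zero_iff_dvd] at hγ ⊢
    exact (Int.natCast_dvd_natCast.mpr h).trans hγ), hf.bdd⟩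

theorem levelOne (hf : IsMF 1 w f) : IsMF N w f := hf.mono (one_dvd N)

theorem mul (hf : IsMF N w f) (hg : IsMF N w' g) : IsMF N (w + w') (f * g) where
  holo := hf.holo.mul hg.holo
  inv γ hγ := by rw [mul_slash_SL2, hf.inv γ hγ, hg.inv γ hγ]
  bdd γ := by rw [mul_slash_SL2]; exact (hf.bdd γ).mul (hg.bdd γ)

theorem cast (h : w = w') (hf : IsMF N w f) : IsMF N w' f := h ▸ hf

theorem one : IsMF N 0 (1 : ℍ → ℂ) where
  holo := mdifferentiable_const
  inv γ _ := is_invariant_one γ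
  bdd γ := by rw [is_invariant_one]; exact Filter.const_boundedAtFilter _ (1 : ℂ)

theorem pow (hf : IsMF N w f) (n : ℕ) : IsMF N (n * w) (f ^ n) := by
  induction n with
  | zero => simpa using IsMF.one
  | succ n ih => rw [pow_succ]; exact (ih.mul hf).cast (by push_cast; ring)

end IsMF

/-- modular forms as a submodule of all functions -/
def MF (N : ℕ) (w : ℤ) : Submodule ℂ (ℍ → ℂ) where
  carrier := {f | IsMF N w f}
  add_mem' {f g} hf hg := ⟨hf.holo.add hg.holo,
    fun γ hγ => by rw [SlashAction.add_slash, hf.inv γ hγ, hg.inv γ hγ],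
    fun γ => by rw [SlashAction.add_slash]; exact (hf.bdd γ).add (hg.bdd γ)⟩
  zero_mem' := ⟨mdifferentiable_const, fun γ _ => SlashAction.zero_slash _ _,
    fun γ => by rw [SlashAction.zero_slash]; exact zero_form_isBoundedAtImInfty⟩
  smul_mem' c f hf := ⟨hf.holo.const_smul c,
    fun γ hγ => by rw [SL_smul_slash, hf.inv γ hγ],
    fun γ => by rw [SL_smul_slash]; exact (hf.bdd γ).const_smul_left c⟩

theorem mem_MF {N : ℕ} {w : ℤ} {f : ℍ → ℂ} : f ∈ MF N w ↔ IsMF N w f := Iff.rfl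

theorem isCusp_SL_of {N : ℕ} [NeZero N] {c : OnePoint ℝ}
    (hc : IsCusp c (Gamma0 N : Subgroup (GL (Fin 2) ℝ))) : IsCusp c 𝒮ℒ := by
  rwa [Subgroup.IsArithmetic.isCusp_iff_isCusp_SL2Z] at hc

theorem isCusp_SL_smul (γ : SL(2, ℤ)) (N : ℕ) [NeZero N] :
    IsCusp ((γ : GL (Fin 2) ℝ) • OnePoint.infty) (Gamma0 N : Subgroup (GL (Fin 2) ℝ)) := by
  rw [Subgroup.IsArithmetic.isCusp_iff_isCusp_SL2Z, isCusp_SL2Z_iff']
  exact ⟨γ, rfl⟩

variable {N : ℕ} [NeZero N] {k : ℤ}

theorem slash_mem_eq {f : ℍ → ℂ} (hf : ∀ γ : SL(2, ℤ), γ ∈ Gamma0 N → f ∣[k] γ = f)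
    (g : GL (Fin 2) ℝ) (hg : g ∈ (Gamma0 N : Subgroup (GL (Fin 2) ℝ))) : f ∣[k] g = f := by
  obtain ⟨γ, hγ, rfl⟩ := hg
  exact hf γ hγ

theorem isMF_of_form {F : Type*} [FunLike F ℍ ℂ]
    [ModularFormClass F (Gamma0 N : Subgroup (GL (Fin 2) ℝ)) k] (f : F) : IsMF N k f where
  holo := ModularFormClass.holo f
  inv γ hγ := SlashInvariantFormClass.slash_action_eq f _ (Subgroup.mem_map_of_mem _ hγ)
  bdd γ := ModularFormClass.bdd_at_cusps f (isCusp_SL_smul γ N) _ rfl

theorem isCF_of_form (f : CuspForm (Gamma0 N) k) : IsCF N k f where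
  holo := CuspFormClass.holo f
  inv γ hγ := SlashInvariantFormClass.slash_action_eq f _ (Subgroup.mem_map_of_mem _ hγ)
  zero γ := CuspFormClass.zero_at_cusps f (isCusp_SL_smul γ N) _ rfl

def IsMF.toForm {f : ℍ → ℂ} (hf : IsMF N k f) : ModularForm (Gamma0 N) k where
  toFun := f
  slash_action_eq' := slash_mem_eq hf.inv
  holo' := hf.holo
  bdd_at_cusps' hc := (OnePoint.isBoundedAt_iff_forall_SL2Z (isCusp_SL_of hc)).mpr fun γ _ => hf.bdd γ

def IsCF.toForm {f : ℍ → ℂ} (hf : IsCF N k f) : CuspForm (Gamma0 N) k where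
  toFun := f
  slash_action_eq' := slash_mem_eq hf.inv
  holo' := hf.holo
  zero_at_cusps' hc := (OnePoint.isZeroAt_iff_forall_SL2Z (isCusp_SL_of hc)).mpr fun γ _ => hf.zero γ

@[simp] theorem IsMF.coe_toForm {f : ℍ → ℂ} (hf : IsMF N k f) : ⇑hf.toForm = f := rfl

@[simp] theorem IsCF.coe_toForm {f : ℍ → ℂ} (hf : IsCF N k f) : ⇑hf.toForm = f := rfl

theorem isMF_levelOne {F : Type*} [FunLike F ℍ ℂ] [ModularFormClass F 𝒮ℒ k] (f : F) :
    IsMF 1 k f where
  holo := ModularFormClass.holo f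
  inv γ _ := SlashInvariantFormClass.slash_action_eq f (Matrix.SpecialLinearGroup.mapGL ℝ γ) ⟨γ, rfl⟩
  bdd γ := by
    have h : (⇑f) ∣[k] γ = ⇑f :=
      SlashInvariantFormClass.slash_action_eq f (Matrix.SpecialLinearGroup.mapGL ℝ γ) ⟨γ, rfl⟩
    rw [h]
    exact ModularFormClass.bdd_at_infty f

def IsMF.toLevelOne {f : ℍ → ℂ} (hf : IsMF 1 k f) : ModularForm 𝒮ℒ k where
  toFun := f
  slash_action_eq' g hg := by obtain ⟨γ, rfl⟩ := hg; exact hf.inv γ (mem_Gamma0_one γ)
  holo' := hf.holo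
  bdd_at_cusps' hc := (OnePoint.isBoundedAt_iff_forall_SL2Z hc).mpr fun γ _ => hf.bdd γ

@[simp] theorem IsMF.coe_toLevelOne {f : ℍ → ℂ} (hf : IsMF 1 k f) : ⇑hf.toLevelOne = f := rfl

end FLTAgent.ModFun
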