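import Fermat.Agent.ModFun.JFibre

/-!
Special values and local orders of j.
-/

set_option autoImplicit false

noncomputable section

open UpperHalfPlane CongruenceSubgroup ModularCurve Filter
open scoped MatrixGroups Manifold Topology Real ModularForm

namespace FLTAgent.ModFun

theorem isMF_E6 : IsMF 1 6 (ModularForm.E₆ : ℍ → ℂ) := isMF_levelOne ModularForm.E₆

theorem jFun_sub_1728 (τ : ℍ) :
    jFun τ - 1728 = ModularForm.E₆ τ ^ 2 / ModularForm.discriminant τ := by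
  have h := ModularForm.discriminant_eq_E₄_cube_sub_E₆_sq τ
  have hd := ModularForm.discriminant_ne_zero τ
  rw [jFun]
  field_simp
  linear_combination (-1728 : ℂ) * h

theorem levelOne_zero_of_fix {w : ℤ} {F : ℍ → ℂ} (hF : IsMF 1 w F) {γ : SL(2, ℤ)} {z : ℍ}
    (hz : γ • z = z) (hd : denom (γ : GL (Fin 2) ℝ) z ^ w ≠ 1) : F z = 0 := by
  have h := apply_smul_of_levelOne hF γ z
  rw [hz] at h
  by_contra h0
  exact hd (mul_right_cancel₀ h0 (by rw [one_mul]; exact h.symm))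

theorem E6_I : ModularForm.E₆ UpperHalfPlane.I = 0 := by
  refine levelOne_zero_of_fix isMF_E6 (γ := ModularGroup.S)
    (ModularGroup.stabilizer_I.mpr (by simp)) ?_
  have h1 : denom (ModularGroup.S : GL (Fin 2) ℝ) (UpperHalfPlane.I : ℂ) = Complex.I := by
    rw [denom_SL]; simp [ModularGroup.S]
  rw [h1, zpow_ofNat, show (6 : ℕ) = 4 + 2 from rfl, pow_add, Complex.I_pow_four, Complex.I_sq]
  norm_num

theorem rho_quad : (UpperHalfPlane.ρ : ℂ) ^ 2 + (UpperHalfPlane.ρ : ℂ) + 1 = 0 := by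
  apply Complex.ext
  · simp [UpperHalfPlane.ρ, sq]
    ring_nf
    rw [Real.sq_sqrt (by norm_num : (0 : ℝ) ≤ 3)]
    ring
  · simp [UpperHalfPlane.ρ, sq]
    ring

theorem E4_rho : ModularForm.E₄ UpperHalfPlane.ρ = 0 := by
  refine levelOne_zero_of_fix isMF_E4 (γ := ModularGroup.S * ModularGroup.T)
    (ModularGroup.stabilizer_ρ.mpr (by simp)) ?_
  set r := (UpperHalfPlane.ρ : ℂ) with hr
  have h1 : denom ((ModularGroup.S * ModularGroup.T : SL(2, ℤ)) : GL (Fin 2) ℝ) r = r + 1 := by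
    rw [denom_SL, Matrix.SpecialLinearGroup.coe_mul, ModularGroup.coe_S, ModularGroup.coe_T,
      Matrix.mul_fin_two]
    simp
  rw [h1, zpow_ofNat]
  intro h
  have h2 : r + 2 = 0 := by linear_combination -h + (r ^ 2 + 3 * r + 2) * rho_quad
  have him : r.im = 0 := by simpa using congrArg Complex.im h2
  exact (ne_of_gt UpperHalfPlane.ρ.im_pos) him

theorem jFun_I : jFun UpperHalfPlane.I = 1728 := by
  refine sub_eq_zero.mp ?_
  rw [jFun_sub_1728, E6_I]
  simp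

theorem jFun_rho : jFun UpperHalfPlane.ρ = 0 := by
  rw [jFun, E4_rho]
  simp

theorem analyticAt_levelOne {w : ℤ} {F : ℍ → ℂ} (hF : IsMF 1 w F) (τ : ℍ) :
    AnalyticAt ℂ (F ∘ ofComplex) (τ : ℂ) :=
  (UpperHalfPlane.mdifferentiable_iff.mp hF.holo).analyticAt
    (isOpen_upperHalfPlaneSet.mem_nhds τ.im_pos)

theorem analyticAt_jC (τ : ℍ) : AnalyticAt ℂ (jFun ∘ ofComplex) (τ : ℂ) :=
  differentiableOn_jC.analyticAt (isOpen_upperHalfPlaneSet.mem_nhds τ.im_pos)

theorem order_jFun_sub_ne_top (τ : ℍ) (a : ℂ) :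
    analyticOrderAt (fun z => jFun (ofComplex z) - a) (τ : ℂ) ≠ ⊤ := by
  intro h
  rw [analyticOrderAt_eq_top] at h
  have han : AnalyticOnNhd ℂ (fun z => jFun (ofComplex z) - a) upperHalfPlaneSet := fun z hz =>
    (analyticAt_jC ⟨z, hz⟩).sub analyticAt_const
  refine jFun_not_constant ⟨a, fun σ => ?_⟩
  have := han.eqOn_zero_of_preconnected_of_eventuallyEq_zero
    (Convex.isPreconnected (convex_halfSpace_im_gt 0)) τ.im_pos h σ.im_pos
  simpa [UpperHalfPlane.ofComplex_apply, sub_eq_zero] using this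

/-- An upper bound for the local order of j from the stabiliser. -/
theorem order_le_card (τ₀ : ℍ) (S : Finset SL(2, ℤ))
    (hS : ∀ g : SL(2, ℤ), g • τ₀ = τ₀ → ∃ s ∈ S, ∀ z : ℍ, g • z = s • z) :
    analyticOrderAt (fun z => jFun (ofComplex z) - jFun τ₀) (τ₀ : ℂ) ≤ S.card := by
  obtain ⟨k, hk⟩ := ENat.ne_top_iff_exists.mp (order_jFun_sub_ne_top τ₀ (jFun τ₀))
  rw [← hk, Nat.cast_le]
  rcases Nat.eq_zero_or_pos k with rfl | hk0
  · exact Nat.zero_le _
  set z₀ : ℂ := (τ₀ : ℂ) with hz₀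
  have hana : AnalyticAt ℂ (fun z => jFun (ofComplex z) - jFun τ₀) z₀ :=
    (analyticAt_jC τ₀).sub analyticAt_const
  obtain ⟨h, hh, hh0, hfh⟩ := (hana.analyticOrderAt_eq_natCast).mp hk.symm
  obtain ⟨c, hc⟩ := IsAlgClosed.exists_pow_nat_eq (h z₀) hk0
  have hc0 : c ≠ 0 := by
    rintro rfl; rw [zero_pow (by omega)] at hc; exact hh0 hc.symm
  let φ : ℂ → ℂ := fun z => (z - z₀) * (c * (h z / h z₀) ^ ((k : ℂ)⁻¹))
  have hu : AnalyticAt ℂ (fun z => c * (h z / h z₀) ^ ((k : ℂ)⁻¹)) z₀ := by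
    refine analyticAt_const.mul ((hh.div_const).cpow analyticAt_const ?_)
    rw [div_self hh0]; exact Complex.one_mem_slitPlane
  have hφ : AnalyticAt ℂ φ z₀ := (analyticAt_id.sub analyticAt_const).mul hu
  have hd : deriv φ z₀ = c := by
    have h1 := (((hasDerivAt_id z₀).sub_const z₀).mul hu.differentiableAt.hasDerivAt).deriv
    simp [div_self hh0] at h1
    exact h1
  have hs : HasStrictDerivAt φ c z₀ := hd ▸ hφ.hasStrictDerivAt
  have hφ0 : φ z₀ = 0 := by simp [φ]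
  have hφk : ∀ᶠ z in 𝓝 z₀, jFun (ofComplex z) - jFun τ₀ = φ z ^ k := by
    filter_upwards [hfh] with z hz
    rw [hz, smul_eq_mul, mul_pow, mul_pow, Complex.cpow_nat_inv_pow _ (by omega), hc,
      mul_div_cancel₀ _ hh0]
  obtain ⟨K, hK, hKn⟩ := exists_compact_mem_nhds τ₀
  have hfin := finite_smul_meets hK hK
  have hsep : ∀ g ∈ hfin.toFinset, g • τ₀ ≠ τ₀ →
      ∀ᶠ p : ℍ × ℍ in 𝓝 τ₀ ×ˢ 𝓝 τ₀, g • p.1 ≠ p.2 := by
    intro g _ hg
    have ht : Tendsto (fun p : ℍ × ℍ => (g • p.1, p.2)) (𝓝 τ₀ ×ˢ 𝓝 τ₀) (𝓝 (g • τ₀, τ₀)) := by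
      rw [nhds_prod_eq]
      exact (((continuous_SL_smul g).tendsto τ₀).comp tendsto_fst).prodMk tendsto_snd
    exact ht.eventually ((isClosed_eq continuous_fst continuous_snd).isOpen_compl.mem_nhds hg)
  have hev : ∀ᶠ p : ℍ × ℍ in 𝓝 τ₀ ×ˢ 𝓝 τ₀, p.1 ∈ K ∧ p.2 ∈ K ∧
      ∀ g ∈ hfin.toFinset, g • τ₀ ≠ τ₀ → g • p.1 ≠ p.2 := by
    refine (tendsto_fst.eventually hKn).and ((tendsto_snd.eventually hKn).and ?_)
    rw [Filter.eventually_all_finset]
    exact fun g hg => eventually_imp_distrib_left.mpr (hsep g hg)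
  rw [← nhds_prod_eq] at hev
  obtain ⟨U, V, hU, hτU, hV, hτV, hUV⟩ := mem_nhds_prod_iff'.mp hev
  have hev2 : ∀ᶠ z in 𝓝 z₀, (0 < z.im ∧ ofComplex z ∈ U ∩ V) ∧
      jFun (ofComplex z) - jFun τ₀ = φ z ^ k := by
    refine ((isOpen_upperHalfPlaneSet.eventually_mem τ₀.im_pos).and ?_).and hφk
    exact (UpperHalfPlane.contMDiffAt_ofComplex (n := 1) τ₀.im_pos).continuousAt.preimage_mem_nhds
      ((hU.inter hV).mem_nhds (by rw [UpperHalfPlane.ofComplex_apply]; exact ⟨hτU, hτV⟩))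
  have himg : φ '' {z | (0 < z.im ∧ ofComplex z ∈ U ∩ V) ∧
      jFun (ofComplex z) - jFun τ₀ = φ z ^ k} ∈ 𝓝 (0 : ℂ) := by
    rw [← hφ0, ← hs.map_nhds_eq hc0]
    exact image_mem_map hev2
  obtain ⟨δ, hδ, hball⟩ := Metric.mem_nhds_iff.mp himg
  have hprim := Complex.isPrimitiveRoot_exp k (by omega)
  set ξ := Complex.exp (2 * π * Complex.I / k)
  have hξ : ∀ i : Fin k, ((δ / 2 : ℝ) : ℂ) * ξ ^ (i : ℕ) ∈ Metric.ball (0 : ℂ) δ := by
    intro i
    have hn : ‖ξ‖ = 1 := Complex.norm_eq_one_of_pow_eq_one hprim.pow_eq_one (by omega)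
    rw [mem_ball_zero_iff, norm_mul, norm_pow, hn, one_pow, mul_one, Complex.norm_real,
      Real.norm_of_nonneg (by positivity)]
    linarith
  have hpts : ∀ i : Fin k, ∃ w : ℍ, (w ∈ U ∧ w ∈ V) ∧ jFun w - jFun τ₀ = φ w ^ k ∧
      φ w = ((δ / 2 : ℝ) : ℂ) * ξ ^ (i : ℕ) := by
    intro i
    obtain ⟨z, ⟨⟨hz, hzU⟩, hzk⟩, hzφ⟩ := hball (hξ i)
    rw [ofComplex_apply_of_im_pos hz] at hzU hzk
    exact ⟨⟨z, hz⟩, hzU, hzk, hzφ⟩
  choose w hw hwk hwφ using hpts
  classical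
  let i₀ : Fin k := ⟨0, hk0⟩
  have hsub : Finset.univ.image w ⊆ S.image (fun s => s • w i₀) := by
    intro x hx
    obtain ⟨i, -, rfl⟩ := Finset.mem_image.mp hx
    have he : jFun (w i₀) = jFun (w i) := by
      have : φ (w i₀) ^ k = φ (w i) ^ k := by
        rw [hwφ, hwφ, mul_pow, mul_pow, ← pow_mul, ← pow_mul, mul_comm ((i₀ : ℕ)),
          mul_comm ((i : ℕ)), pow_mul, pow_mul, hprim.pow_eq_one, one_pow, one_pow]
      linear_combination (hwk i₀) - (hwk i) + this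
    obtain ⟨g, hg⟩ := jFun_eq_iff.mp he
    obtain ⟨h1, h2, h3⟩ := hUV (show (w i₀, w i) ∈ U ×ˢ V from ⟨(hw i₀).1, (hw i).2⟩)
    have hgτ : g • τ₀ = τ₀ := by
      by_contra hne
      exact h3 g (hfin.mem_toFinset.mpr ⟨w i₀, h1, by rw [hg]; exact h2⟩) hne hg
    obtain ⟨s, hs, hgs⟩ := hS g hgτ
    exact Finset.mem_image.mpr ⟨s, hs, by rw [← hgs, hg]⟩
  have hinj : Function.Injective w := by
    intro i j hij
    have h1 := hwφ i
    rw [hij, hwφ j] at h1
    have h2 : ξ ^ (j : ℕ) = ξ ^ (i : ℕ) :=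
      mul_left_cancel₀ (by exact_mod_cast (by positivity : (δ / 2 : ℝ) ≠ 0)) h1
    exact (Fin.ext (hprim.pow_inj j.isLt i.isLt h2)).symm
  calc k = (Finset.univ.image w).card := by
        rw [Finset.card_image_of_injective _ hinj, Finset.card_univ, Fintype.card_fin]
    _ ≤ (S.image (fun s => s • w i₀)).card := Finset.card_le_card hsub
    _ ≤ S.card := Finset.card_image_le

theorem neg_smul' (g : SL(2, ℤ)) (z : ℍ) : (-g) • z = g • z := ModularGroup.SL_neg_smul g z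

theorem stab_conj {γ g : SL(2, ℤ)} {z : ℍ} (h : g • γ • z = γ • z) : (γ⁻¹ * g * γ) • z = z := by
  rw [mul_smul, mul_smul, h, inv_smul_smul]

theorem order_of_square {τ : ℍ} {a : ℂ} {w : ℤ} {F : ℍ → ℂ} (hF : IsMF 1 w F) {n : ℕ}
    (he : ∀ z : ℍ, jFun z - a = F z ^ n / ModularForm.discriminant z) (h0 : F τ = 0)
    (hle : analyticOrderAt (fun z => jFun (ofComplex z) - a) (τ : ℂ) ≤ n) :
    analyticOrderAt (fun z => jFun (ofComplex z) - a) (τ : ℂ) = n := by
  have hfa := analyticAt_levelOne hF τ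
  have hda : AnalyticAt ℂ (fun z => (ModularForm.discriminant (ofComplex z))⁻¹) (τ : ℂ) :=
    (analyticAt_levelOne isMF_delta τ).inv (ModularForm.discriminant_ne_zero _)
  have hfun : (fun z => jFun (ofComplex z) - a) =
      (F ∘ ofComplex) ^ n * fun z => (ModularForm.discriminant (ofComplex z))⁻¹ := by
    funext z
    simp [he, div_eq_mul_inv]
  rw [hfun, analyticOrderAt_mul (hfa.pow n) hda, analyticOrderAt_pow hfa,
    show analyticOrderAt (fun z => (ModularForm.discriminant (ofComplex z))⁻¹) (τ : ℂ) = 0 from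
      analyticOrderAt_eq_zero.mpr (Or.inr (inv_ne_zero (ModularForm.discriminant_ne_zero _))),
    add_zero] at hle ⊢
  have hne : analyticOrderAt (F ∘ ofComplex) (τ : ℂ) ≠ 0 :=
    analyticOrderAt_ne_zero.mpr ⟨hfa, by simp [h0, UpperHalfPlane.ofComplex_apply]⟩
  rcases Nat.eq_zero_or_pos n with rfl | hn
  · simp
  cases h : analyticOrderAt (F ∘ ofComplex) (τ : ℂ) with
  | top => rw [h] at hle; simp [nsmul_eq_mul, hn.ne'] at hle
  | coe m =>
    rw [h] at hle hne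
    rw [nsmul_eq_mul, ← ENat.natCast_mul, Nat.cast_le] at hle
    have hm : m ≠ 0 := fun h0 => hne (by rw [h0]; rfl)
    have : m = 1 := by nlinarith [Nat.one_le_iff_ne_zero.mpr hm]
    subst this
    simp

theorem analyticOrderAt_jFun_sub_I (γ : SL(2, ℤ)) :
    analyticOrderAt (fun z => jFun (ofComplex z) - 1728) (γ • UpperHalfPlane.I : ℍ) = 2 := by
  classical
  set τ := γ • UpperHalfPlane.I with hτ
  have hle := order_le_card τ ({1, γ * ModularGroup.S * γ⁻¹} : Finset SL(2, ℤ)) fun g hg => by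
    have hm := ModularGroup.stabilizer_I.mp (stab_conj hg)
    simp only [Finset.mem_insert, Finset.mem_singleton] at hm
    have hg' : ∀ z : ℍ, g • z = (γ * (γ⁻¹ * g * γ) * γ⁻¹) • z := fun z => by group
    rcases hm with h | h | h | h
    · exact ⟨1, by simp, fun z => by rw [hg', h]; simp⟩
    · exact ⟨1, by simp, fun z => by rw [hg', h]; simp [neg_smul']⟩
    · exact ⟨γ * ModularGroup.S * γ⁻¹, by simp, fun z => by rw [hg', h]⟩
    · exact ⟨γ * ModularGroup.S * γ⁻¹, by simp, fun z => by rw [hg', h]; simp [neg_smul']⟩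
  rw [show jFun τ = 1728 by rw [hτ, jFun_smul, jFun_I]] at hle
  refine order_of_square isMF_E6 (n := 2) (fun z => jFun_sub_1728 z) ?_
    (hle.trans (Nat.cast_le.mpr Finset.card_le_two))
  rw [hτ, apply_smul_of_levelOne isMF_E6, E6_I, mul_zero]

theorem analyticOrderAt_jFun_sub_rho (γ : SL(2, ℤ)) :
    analyticOrderAt (fun z => jFun (ofComplex z)) (γ • UpperHalfPlane.ρ : ℍ) = 3 := by
  classical
  set τ := γ • UpperHalfPlane.ρ with hτ
  set u := γ * (ModularGroup.S * ModularGroup.T) * γ⁻¹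
  set v := γ * (ModularGroup.T⁻¹ * ModularGroup.S) * γ⁻¹
  have hle := order_le_card τ ({1, u, v} : Finset SL(2, ℤ)) fun g hg => by
    have hm := ModularGroup.stabilizer_ρ.mp (stab_conj hg)
    simp only [Finset.mem_insert, Finset.mem_singleton] at hm
    have hg' : ∀ z : ℍ, g • z = (γ * (γ⁻¹ * g * γ) * γ⁻¹) • z := fun z => by group
    rcases hm with h | h | h | h | h | h
    · exact ⟨1, by simp, fun z => by rw [hg', h]; simp⟩
    · exact ⟨1, by simp, fun z => by rw [hg', h]; simp [neg_smul']⟩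
    · exact ⟨u, by simp, fun z => by rw [hg', h]⟩
    · exact ⟨u, by simp, fun z => by rw [hg', h]; simp [u, neg_smul']⟩
    · exact ⟨v, by simp, fun z => by rw [hg', h]⟩
    · exact ⟨v, by simp, fun z => by rw [hg', h]; simp [v, neg_smul']⟩
  rw [show jFun τ = 0 by rw [hτ, jFun_smul, jFun_rho]] at hle
  have := order_of_square (a := 0) isMF_E4 (n := 3) (fun z => by rw [sub_zero]; rfl)
    (show ModularForm.E₄ τ = 0 by rw [hτ, apply_smul_of_levelOne isMF_E4, E4_rho, mul_zero])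
    (hle.trans (Nat.cast_le.mpr Finset.card_le_three))
  simpa using this

theorem analyticOrderAt_jFun_sub_generic {τ : ℍ} (h0 : jFun τ ≠ 0) (h1 : jFun τ ≠ 1728) :
    analyticOrderAt (fun z => jFun (ofComplex z) - jFun τ) τ = 1 := by
  classical
  obtain ⟨σ, hσ⟩ := ModularGroup.exists_smul_mem_fd τ
  have hle := order_le_card τ ({1} : Finset SL(2, ℤ)) fun g hg => by
    have hfix : (σ * g * σ⁻¹) • σ • τ = σ • τ := by
      rw [mul_smul, mul_smul, inv_smul_smul, hg]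
    have hI : σ • τ ≠ UpperHalfPlane.I := fun h => h1 (by rw [← jFun_smul σ, h, jFun_I])
    have hρ : σ • τ ≠ UpperHalfPlane.ρ := fun h => h0 (by rw [← jFun_smul σ, h, jFun_rho])
    have hρ' : σ • τ ≠ (1 : ℝ) +ᵥ UpperHalfPlane.ρ := fun h => h0 (by
      rw [← jFun_smul σ, h, ← UpperHalfPlane.modular_T_smul, jFun_smul, jFun_rho])
    have hg' : ∀ z : ℍ, g • z = (σ⁻¹ * (σ * g * σ⁻¹) * σ) • z := fun z => by group
    rcases ModularGroup.stabilizer_of_ne hσ hfix hI hρ hρ' with h | h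
    · exact ⟨1, by simp, fun z => by rw [hg', h]; simp⟩
    · exact ⟨1, by simp, fun z => by rw [hg', h]; simp [neg_smul']⟩
  have hne : analyticOrderAt (fun z => jFun (ofComplex z) - jFun τ) (τ : ℂ) ≠ 0 :=
    analyticOrderAt_ne_zero.mpr ⟨(analyticAt_jC τ).sub analyticAt_const,
      by simp [UpperHalfPlane.ofComplex_apply]⟩
  exact le_antisymm (hle.trans (le_of_eq (by simp))) (ENat.one_le_iff_ne_zero.mpr hne)

end FLTAgent.ModFun
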