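import Fermat.Agent.ModFun.Rat

/-!
Dilations F(Nτ) of level one forms, and the conjugates of Δ(Nτ).
-/

set_option autoImplicit false

noncomputable section

open UpperHalfPlane CongruenceSubgroup ModularForm Filter
open scoped MatrixGroups Manifold Topology Real

namespace FLTAgent.ModFun

/-- τ ↦ (A τ + B) / D -/
def aff (A : ℕ) (B : ℤ) (D : ℕ) [NeZero A] [NeZero D] (τ : ℍ) : ℍ :=
  ⟨((A : ℂ) * τ + B) / D, by
    rw [Complex.div_natCast_im]
    have hA : (0 : ℝ) < A := by exact_mod_cast Nat.pos_of_ne_zero (NeZero.ne A)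
    have hD : (0 : ℝ) < D := by exact_mod_cast Nat.pos_of_ne_zero (NeZero.ne D)
    simp [Complex.add_im, Complex.mul_im, hA, hD, τ.im_pos]⟩

theorem coe_aff (A : ℕ) (B : ℤ) (D : ℕ) [NeZero A] [NeZero D] (τ : ℍ) :
    (aff A B D τ : ℂ) = ((A : ℂ) * τ + B) / D := rfl

theorem im_aff (A : ℕ) (B : ℤ) (D : ℕ) [NeZero A] [NeZero D] (τ : ℍ) :
    (aff A B D τ).im = (A : ℝ) * τ.im / D := by
  show (((A : ℂ) * τ + B) / D).im = _
  rw [Complex.div_natCast_im]
  simp [Complex.add_im, Complex.mul_im]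

theorem tendsto_aff (A : ℕ) (B : ℤ) (D : ℕ) [NeZero A] [NeZero D] :
    Tendsto (aff A B D) atImInfty atImInfty := by
  unfold atImInfty
  rw [tendsto_comap_iff]
  have hA : (0 : ℝ) < A := by exact_mod_cast Nat.pos_of_ne_zero (NeZero.ne A)
  have hD : (0 : ℝ) < D := by exact_mod_cast Nat.pos_of_ne_zero (NeZero.ne D)
  refine Tendsto.congr (fun τ => (im_aff A B D τ).symm) ?_
  exact ((tendsto_comap (f := UpperHalfPlane.im)).const_mul_atTop hA).atTop_div_const hD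

/-- multiplication by N on the upper half plane -/
def scale (N : ℕ) [NeZero N] (τ : ℍ) : ℍ := aff N 0 1 τ

theorem coe_scale (N : ℕ) [NeZero N] (τ : ℍ) : (scale N τ : ℂ) = (N : ℂ) * τ := by
  simp [scale, coe_aff]

theorem im_scale (N : ℕ) [NeZero N] (τ : ℍ) : (scale N τ).im = (N : ℝ) * τ.im := by
  simp [scale, im_aff]

/-- F(Nτ) -/
def dil (N : ℕ) [NeZero N] (F : ℍ → ℂ) : ℍ → ℂ := fun τ => F (scale N τ)

theorem denom_SL (γ : SL(2, ℤ)) (z : ℂ) :
    denom (γ : GL (Fin 2) ℝ) z = (γ 1 0 : ℂ) * z + (γ 1 1 : ℂ) := by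
  simp [denom]

/-- The key identity: N γ τ = γ' ((A τ + B) / D). -/
theorem scale_smul_eq (N : ℕ) [NeZero N] (γ γ' : SL(2, ℤ)) (A : ℕ) (B : ℤ) (D : ℕ) [NeZero A]
    [NeZero D] (h00 : (N : ℤ) * γ 0 0 = γ' 0 0 * A)
    (h01 : (N : ℤ) * γ 0 1 = γ' 0 0 * B + γ' 0 1 * D) (h10 : γ 1 0 = γ' 1 0 * A)
    (h11 : γ 1 1 = γ' 1 0 * B + γ' 1 1 * D) (τ : ℍ) :
    scale N (γ • τ) = γ' • aff A B D τ ∧
      denom (γ : GL (Fin 2) ℝ) τ = denom (γ' : GL (Fin 2) ℝ) (aff A B D τ) * D := by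
  have hD : (D : ℂ) ≠ 0 := by exact_mod_cast NeZero.ne D
  have h00' : (N : ℂ) * (γ 0 0 : ℂ) = (γ' 0 0 : ℂ) * A := by exact_mod_cast h00
  have h01' : (N : ℂ) * (γ 0 1 : ℂ) = (γ' 0 0 : ℂ) * B + (γ' 0 1 : ℂ) * D := by exact_mod_cast h01
  have h10' : (γ 1 0 : ℂ) = (γ' 1 0 : ℂ) * A := by exact_mod_cast h10
  have h11' : (γ 1 1 : ℂ) = (γ' 1 0 : ℂ) * B + (γ' 1 1 : ℂ) * D := by exact_mod_cast h11
  have e2 : (γ 1 0 : ℂ) * τ + (γ 1 1 : ℂ) =
      ((γ' 1 0 : ℂ) * (((A : ℂ) * τ + B) / D) + (γ' 1 1 : ℂ)) * D := by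
    rw [h10', h11']; field_simp; ring
  have e1 : (N : ℂ) * ((γ 0 0 : ℂ) * τ + (γ 0 1 : ℂ)) =
      ((γ' 0 0 : ℂ) * (((A : ℂ) * τ + B) / D) + (γ' 0 1 : ℂ)) * D := by
    rw [mul_add, ← mul_assoc, h00', h01']; field_simp; ring
  refine ⟨?_, by rw [denom_SL, denom_SL, coe_aff]; exact e2⟩
  ext
  rw [coe_scale, coe_specialLinearGroup_apply, coe_specialLinearGroup_apply, coe_aff]
  simp only [algebraMap_int_eq, eq_intCast, Complex.ofReal_intCast]
  rw [← mul_div_assoc, e1, e2, mul_div_mul_right _ _ hD]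

variable {w : ℤ} {F : ℍ → ℂ}

theorem apply_smul_of_levelOne (hF : IsMF 1 w F) (γ : SL(2, ℤ)) (z : ℍ) :
    F (γ • z) = denom (γ : GL (Fin 2) ℝ) z ^ w * F z := by
  have h := congrFun (hF.inv γ (mem_Gamma0_one γ)) z
  rw [SL_slash_apply] at h
  have hd : denom (γ : GL (Fin 2) ℝ) z ≠ 0 := denom_ne_zero _ z
  rw [← h, zpow_neg]
  field_simp

theorem dil_slash_eq (hF : IsMF 1 w F) (N : ℕ) [NeZero N] (γ γ' : SL(2, ℤ)) (A : ℕ) (B : ℤ)
    (D : ℕ) [NeZero A] [NeZero D] (h00 : (N : ℤ) * γ 0 0 = γ' 0 0 * A)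
    (h01 : (N : ℤ) * γ 0 1 = γ' 0 0 * B + γ' 0 1 * D) (h10 : γ 1 0 = γ' 1 0 * A)
    (h11 : γ 1 1 = γ' 1 0 * B + γ' 1 1 * D) (τ : ℍ) :
    (dil N F ∣[w] γ) τ = (D : ℂ) ^ (-w) * F (aff A B D τ) := by
  obtain ⟨e1, e2⟩ := scale_smul_eq N γ γ' A B D h00 h01 h10 h11 τ
  rw [SL_slash_apply, dil, e1, apply_smul_of_levelOne hF, e2, mul_zpow]
  have hd : denom (γ' : GL (Fin 2) ℝ) (aff A B D τ) ≠ 0 := denom_ne_zero _ (aff A B D τ)
  rw [zpow_neg, zpow_neg]
  field_simp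

theorem exists_hermite (N : ℕ) [NeZero N] (γ : SL(2, ℤ)) :
    ∃ (γ' : SL(2, ℤ)) (A : ℕ) (B : ℤ) (D : ℕ), NeZero A ∧ NeZero D ∧ A * D = N ∧
      (A : ℤ) ∣ γ 1 0 ∧
      (N : ℤ) * γ 0 0 = γ' 0 0 * A ∧
      (N : ℤ) * γ 0 1 = γ' 0 0 * B + γ' 0 1 * D ∧ γ 1 0 = γ' 1 0 * A ∧
      γ 1 1 = γ' 1 0 * B + γ' 1 1 * D := by
  set a := γ 0 0 with ha
  set b := γ 0 1
  set c := γ 1 0
  set d := γ 1 1
  have hdet : a * d - b * c = 1 := by
    have := γ.prop; rwa [Matrix.det_fin_two] at this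
  let e : ℕ := Int.gcd ((N : ℤ) * a) c
  have heN : (e : ℤ) ∣ (N : ℤ) := by
    have : ((N : ℤ) * a) * d - (N : ℤ) * b * c = N := by linear_combination (N : ℤ) * hdet
    rw [← this]
    exact dvd_sub (Dvd.dvd.mul_right (Int.gcd_dvd_left _ _) _)
      (Dvd.dvd.mul_left (Int.gcd_dvd_right _ _) _)
  obtain ⟨D, hD⟩ := Int.natCast_dvd_natCast.mp heN
  have he : e ≠ 0 := fun h => NeZero.ne N (by simp [hD, h])
  have hD0 : D ≠ 0 := fun h => NeZero.ne N (by simp [hD, h])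
  obtain ⟨p, hp⟩ := Int.gcd_dvd_left ((N : ℤ) * a) c
  obtain ⟨r, hr⟩ := Int.gcd_dvd_right ((N : ℤ) * a) c
  have hbez := Int.gcd_eq_gcd_ab ((N : ℤ) * a) c
  set u := Int.gcdA ((N : ℤ) * a) c
  set v := Int.gcdB ((N : ℤ) * a) c
  have he' : (e : ℤ) ≠ 0 := by exact_mod_cast he
  have hp' : (N : ℤ) * a = e * p := hp
  have hr' : c = e * r := hr
  have hbez' : (e : ℤ) = (N : ℤ) * a * u + c * v := hbez
  have hN' : (N : ℤ) = e * D := by exact_mod_cast hD
  have h1 : p * u + r * v = 1 := by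
    have : (e : ℤ) * (p * u + r * v) = e * 1 := by linear_combination -hbez' - u * hp' - v * hr'
    exact mul_left_cancel₀ he' this
  refine ⟨⟨!![p, -v; r, u], by simp [Matrix.det_fin_two]; linear_combination h1⟩, e,
    u * N * b + v * d, D, ⟨he⟩, ⟨hD0⟩, hD.symm, ⟨r, hr'⟩, ?_, ?_, ?_, ?_⟩
  · simpa [mul_comm] using hp'
  · show (N : ℤ) * b = p * (u * N * b + v * d) + -v * D
    apply mul_left_cancel₀ he'
    linear_combination (-(v * N) ) * hdet + (u * N * b + v * d) * hp' + (N : ℤ) * b * hbez' - v * hN'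
  · simpa [mul_comm] using hr'
  · show d = r * (u * N * b + v * d) + u * D
    apply mul_left_cancel₀ he'
    linear_combination (u * N) * hdet + (u * N * b + v * d) * hr' + d * hbez' + u * hN'

theorem dil_slash_cases (hF : IsMF 1 w F) (N : ℕ) [NeZero N] (γ : SL(2, ℤ)) :
    ∃ (A : ℕ) (B : ℤ) (D : ℕ) (_ : NeZero A) (_ : NeZero D), A * D = N ∧ (A : ℤ) ∣ γ 1 0 ∧
      dil N F ∣[w] γ = fun τ => (D : ℂ) ^ (-w) * F (aff A B D τ) := by
  obtain ⟨γ', A, B, D, hA, hD, hAD, hc, h00, h01, h10, h11⟩ := exists_hermite N γ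
  exact ⟨A, B, D, hA, hD, hAD, hc, funext fun τ => dil_slash_eq hF N γ γ' A B D h00 h01 h10 h11 τ⟩

theorem mdiff_dil (hF : MDiff F) (N : ℕ) [NeZero N] : MDiff (dil N F) := by
  rw [UpperHalfPlane.mdifferentiable_iff] at hF ⊢
  have h := hF.comp (f := fun z : ℂ => (N : ℂ) * z) (s := upperHalfPlaneSet)
    (by fun_prop) (fun z (hz : 0 < z.im) => by
      show 0 < ((N : ℂ) * z).im
      have hN : (0 : ℝ) < N := by exact_mod_cast Nat.pos_of_ne_zero (NeZero.ne N)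
      simp [Complex.mul_im]; positivity)
  refine h.congr fun z (hz : 0 < z.im) => ?_
  simp only [Function.comp_apply, dil, ofComplex_apply_of_im_pos hz]
  rw [← coe_scale N ⟨z, hz⟩, UpperHalfPlane.ofComplex_apply]

theorem isMF_dil (hF : IsMF 1 w F) (N : ℕ) [NeZero N] : IsMF N w (dil N F) where
  holo := mdiff_dil hF.holo N
  inv γ hγ := by
    rw [Gamma0_mem, ZMod.intCast_zmod_eq_zero_iff_dvd] at hγ
    obtain ⟨c', hc'⟩ := hγ
    have hdet : γ 0 0 * γ 1 1 - γ 0 1 * γ 1 0 = 1 := by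
      have := γ.prop; rwa [Matrix.det_fin_two] at this
    funext τ
    rw [dil_slash_eq hF N γ ⟨!![γ 0 0, (N : ℤ) * γ 0 1; c', γ 1 1], by
      simp [Matrix.det_fin_two]; rw [hc'] at hdet; linear_combination hdet⟩ N 0 1
      (by simp [mul_comm]) (by simp) (by simp [hc', mul_comm]) (by simp) τ]
    simp [dil, scale]
  bdd γ := by
    obtain ⟨A, B, D, hA, hD, -, -, h⟩ := dil_slash_cases hF N γ
    rw [h]
    exact Asymptotics.IsBigO.const_mul_left (hF.good.bdd.comp_tendsto (tendsto_aff A B D)) _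

theorem coeff_unique {f : ℍ → ℂ} (hf : Good f) {c : ℕ → ℂ}
    (h : ∀ τ : ℍ, HasSum (fun m ↦ c m • Function.Periodic.qParam 1 (τ : ℂ) ^ m) (f τ)) (m : ℕ) :
    (qx f).coeff m = c m := by
  have h1 := (UpperHalfPlane.hasFPowerSeriesOnBall_cuspFunction one_pos hf.analytic h).hasFPowerSeriesAt
  have h2 := hf.analytic.hasFPowerSeriesAt
  have e := congr_arg (FormalMultilinearSeries.coeff · m) (h1.eq_formalMultilinearSeries h2)
  simp at e
  rw [qx, qExpansion_coeff, e]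
  simp [div_eq_inv_mul]

theorem qx_dil (hF : IsMF 1 w F) (N : ℕ) [NeZero N] (m : ℕ) :
    (qx (dil N F)).coeff m = if N ∣ m then (qx F).coeff (m / N) else 0 := by
  refine coeff_unique (c := fun m => if N ∣ m then (qx F).coeff (m / N) else 0)
    (isMF_dil hF N).good (fun τ => ?_) m
  have h := UpperHalfPlane.hasSum_qExpansion (h := 1) one_pos (by simpa using hF.good.per) hF.holo
    hF.good.bdd (scale N τ)
  have hN : 0 < N := Nat.pos_of_ne_zero (NeZero.ne N)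
  rw [← Function.Injective.hasSum_iff (g := fun m : ℕ => N * m) (fun x y hxy => by
    exact Nat.eq_of_mul_eq_mul_left hN hxy) (fun x hx => by
      have : ¬ N ∣ x := fun ⟨y, hy⟩ => hx ⟨y, hy.symm⟩
      simp [this])]
  convert h using 1
  funext m
  have hq : Function.Periodic.qParam 1 (scale N τ : ℂ) = Function.Periodic.qParam 1 (τ : ℂ) ^ N := by
    rw [coe_scale, Function.Periodic.qParam, Function.Periodic.qParam, ← Complex.exp_nat_mul]
    congr 1
    ring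
  simp [Nat.mul_div_cancel_left _ hN, hq, pow_mul]
  rfl

theorem dil_mem (hF : F ∈ ratGen 1 w) (N : ℕ) [NeZero N] : dil N F ∈ RatMF N w := by
  obtain ⟨hM, Z, hZ⟩ := hF
  refine Submodule.subset_span (show IsMF N w (dil N F) ∧ IntQ (dil N F) from ⟨isMF_dil hM N,
    PowerSeries.mk (fun m => if N ∣ m then Z.coeff (m / N) else 0), PowerSeries.ext fun m => ?_⟩)
  rw [qx_dil hM, hZ]
  split_ifs with h <;> simp [h]

theorem dil_mem' (hF : F ∈ RatMF 1 w) (N : ℕ) [NeZero N] : dil N F ∈ RatMF N w := by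
  induction hF using Submodule.span_induction with
  | mem x hx => exact dil_mem hx N
  | zero => exact Submodule.zero_mem _
  | add x y _ _ hx hy => exact Submodule.add_mem _ hx hy
  | smul c x _ hx => exact Submodule.smul_mem _ c hx

/-- Δ(Nτ) -/
def gN (N : ℕ) [NeZero N] : ℍ → ℂ := dil N discriminant

theorem gN_mem (N : ℕ) [NeZero N] : gN N ∈ RatMF N 12 := dil_mem' delta_mem N

theorem isMF_gN (N : ℕ) [NeZero N] : IsMF N 12 (gN N) := RatMF.isMF (gN_mem N)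

theorem norm_delta (z : ℍ) :
    ‖discriminant z‖ = Real.exp (-2 * π * z.im) * ‖∏' n, (1 - eta_q n z) ^ 24‖ := by
  rw [discriminant_eq_q_prod, norm_mul]
  congr 1
  simp [Function.Periodic.qParam, Complex.norm_exp]

theorem eq_of_exp_eventually {s K : ℝ} (hK : K ≠ 0) {r : ℝ → ℝ}
    (hr : Tendsto r atTop (𝓝 1)) (h : ∀ᶠ y in atTop, Real.exp (s * y) * r y = K) : s = 0 := by
  rcases lt_trichotomy s 0 with hs | hs | hs
  · have he : Tendsto (fun y : ℝ => Real.exp (s * y)) atTop (𝓝 0) :=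
      Real.tendsto_exp_atBot.comp (tendsto_id.const_mul_atTop_of_neg hs)
    have := ((he.mul hr).congr' h)
    simp only [zero_mul] at this
    exact absurd (tendsto_nhds_unique this tendsto_const_nhds) (Ne.symm hK)
  · exact hs
  · have he : Tendsto (fun y : ℝ => Real.exp (s * y)) atTop atTop :=
      Real.tendsto_exp_atTop.comp (tendsto_id.const_mul_atTop hs)
    exact absurd (((he.atTop_mul_pos one_pos hr).congr' h)) (not_tendsto_const_atTop K atTop)

/-- The stabiliser of Δ(Nτ) in SL₂(ℤ) is Γ₀(N). -/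
theorem gN_stab (N : ℕ) [NeZero N] {γ : SL(2, ℤ)} (h : gN N ∣[(12 : ℤ)] γ = gN N) :
    γ ∈ Gamma0 N := by
  obtain ⟨A, B, D, hA, hD, hAD, hc, he⟩ := dil_slash_cases (RatMF.isMF delta_mem) N γ
  have hA0 : (0 : ℝ) < A := by exact_mod_cast Nat.pos_of_ne_zero hA.ne
  have hD0 : (0 : ℝ) < D := by exact_mod_cast Nat.pos_of_ne_zero hD.ne
  let P : ℍ → ℝ := fun z => ‖∏' n, (1 - eta_q n z) ^ 24‖
  have hP : Tendsto P atImInfty (𝓝 1) := by
    simpa [P] using tendsto_atImInfty_tprod_one_sub_eta_q_pow.norm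
  have hPN := hP.comp (tendsto_aff N 0 1)
  have hPA := hP.comp (tendsto_aff A B D)
  let it : ℝ → ℍ := fun y => if hy : 0 < y then ⟨Complex.I * y, by simpa⟩ else UpperHalfPlane.I
  have hit : ∀ᶠ y in atTop, (it y).im = y := by
    filter_upwards [eventually_gt_atTop 0] with y hy
    simp [it, hy, UpperHalfPlane.im]
  have hit' : Tendsto it atTop atImInfty := by
    unfold atImInfty
    rw [tendsto_comap_iff]
    exact tendsto_id.congr' (hit.mono fun y hy => hy.symm)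
  have hr : Tendsto (fun y => P (aff A B D (it y)) / P (aff N 0 1 (it y))) atTop (𝓝 1) := by
    have := (hPA.comp hit').div (hPN.comp hit') one_ne_zero
    simpa [Function.comp_def] using! this
  have hs := eq_of_exp_eventually (s := 2 * π * N - 2 * π * (A / D)) (K := (D : ℝ) ^ (12 : ℤ))
    (zpow_ne_zero _ hD0.ne') hr ?_
  · have hAD' : (A : ℝ) = N * D := by
      have : (N : ℝ) = A / D := by nlinarith [Real.pi_pos]
      rw [this]; field_simp
    have hAD'' : A = N * D := by exact_mod_cast hAD'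
    have hD1 : D = 1 := by
      have h2 : N * (D * D) = N * 1 := by rw [← mul_assoc, ← hAD'', hAD, mul_one]
      exact (mul_eq_one.mp (Nat.eq_of_mul_eq_mul_left (Nat.pos_of_ne_zero (NeZero.ne N)) h2)).1
    rw [Gamma0_mem, ZMod.intCast_zmod_eq_zero_iff_dvd]
    have : A = N := by rw [hAD'', hD1, mul_one]
    rwa [this] at hc
  filter_upwards [hit, hit'.eventually (hPN.eventually_ne one_ne_zero)] with y hy hne
  have e : ‖(gN N ∣[(12 : ℤ)] γ) (it y)‖ = ‖gN N (it y)‖ := by rw [h]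
  rw [gN, he, dil, norm_mul, norm_delta, norm_delta, im_aff, im_scale, hy, norm_zpow,
    Complex.norm_natCast, zpow_neg] at e
  have hne' : P (aff N 0 1 (it y)) ≠ 0 := hne
  have hexp : Real.exp ((2 * π * N - 2 * π * (A / D)) * y) =
      Real.exp (-2 * π * (A * y / D)) / Real.exp (-2 * π * (N * y)) := by
    rw [← Real.exp_sub]; congr 1; ring
  change ((D : ℝ) ^ (12 : ℤ))⁻¹ * (_ * P (aff A B D (it y))) = _ * P (aff N 0 1 (it y)) at e
  rw [hexp]
  have hE : Real.exp (-2 * π * (N * y)) ≠ 0 := (Real.exp_pos _).ne'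
  field_simp at e ⊢
  linear_combination e

end FLTAgent.ModFun
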