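import Fermat.Agent.ModFun.Dilate
import Fermat.Prelude.Def_ModularCurve_X0

/-!
The ring of holomorphic periodic functions of moderate growth at ∞, and Laurent expansions.
-/

set_option autoImplicit false

noncomputable section

open UpperHalfPlane ModularCurve Filter
open scoped Manifold Topology Real

namespace FLTAgent.ModFun

/-- the parameter q -/
def qp : ℍ → ℂ := fun τ => Function.Periodic.qParam 1 (τ : ℂ)

theorem qp_ne_zero (τ : ℍ) : qp τ ≠ 0 := Complex.exp_ne_zero _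

theorem norm_qp (τ : ℍ) : ‖qp τ‖ = Real.exp (-2 * π * τ.im) := by
  simp [qp, Function.Periodic.qParam, Complex.norm_exp]

theorem mdiff_qp : MDiff qp := by
  rw [UpperHalfPlane.mdifferentiable_iff]
  refine DifferentiableOn.congr (f := fun z : ℂ => Function.Periodic.qParam 1 z) ?_ ?_
  · intro z _
    exact (Function.Periodic.differentiable_qParam (h := 1)).differentiableAt.differentiableWithinAt
  · intro z (hz : 0 < z.im)
    simp [qp, ofComplex_apply_of_im_pos hz]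

theorem periodic_ofComplex_of {f : ℍ → ℂ}
    (h : ∀ (z : ℂ) (hz : 0 < z.im) (hz' : 0 < (z + 1).im), f ⟨z + 1, hz'⟩ = f ⟨z, hz⟩) :
    Function.Periodic (f ∘ ofComplex) 1 := by
  intro z
  simp only [Function.comp_apply]
  by_cases hz : 0 < z.im
  · have hz' : 0 < (z + 1).im := by simpa
    rw [ofComplex_apply_of_im_pos hz, ofComplex_apply_of_im_pos hz']
    exact h z hz hz'
  · have hz' : (z + 1).im ≤ 0 := by simpa using hz
    rw [ofComplex_apply_of_im_nonpos (not_lt.mp hz), ofComplex_apply_of_im_nonpos hz']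

theorem good_qp : Good qp where
  per := periodic_ofComplex_of fun z _ _ => by
    show Function.Periodic.qParam 1 (z + 1) = Function.Periodic.qParam 1 z
    simp only [Function.Periodic.qParam, Complex.ofReal_one, div_one]
    rw [show 2 * (π : ℂ) * Complex.I * (z + 1) = 2 * π * Complex.I * z + 2 * π * Complex.I by ring]
    exact Complex.exp_periodic _
  holo := mdiff_qp
  bdd := (qParam_tendsto_atImInfty one_pos).isBigO_one ℝ

theorem coeff_unique' {f : ℍ → ℂ} (hf : Good f) {c : ℕ → ℂ}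
    (h : ∀ τ : ℍ, HasSum (fun m ↦ c m * qp τ ^ m) (f τ)) : qx f = PowerSeries.mk c :=
  PowerSeries.ext fun m => by rw [coeff_unique hf h, PowerSeries.coeff_mk]

theorem qx_qp : qx qp = PowerSeries.X := by
  rw [coeff_unique' good_qp (c := fun m => if m = 1 then 1 else 0) ?_]
  · ext m; simp [PowerSeries.coeff_X]
  · intro τ
    convert hasSum_single (f := fun m : ℕ => (if m = 1 then (1 : ℂ) else 0) * qp τ ^ m) 1
      (fun m hm => by simp [hm]) using 1
    simp

theorem Good.qx_qp_pow (n : ℕ) : qx (qp ^ n) = PowerSeries.X ^ n := by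
  rw [Good.qx_pow good_qp, qx_qp]

theorem Good.hasSum {f : ℍ → ℂ} (hf : Good f) (τ : ℍ) :
    HasSum (fun m : ℕ => (qx f).coeff m * qp τ ^ m) (f τ) :=
  UpperHalfPlane.hasSum_qExpansion (h := 1) one_pos (by simpa using hf.per) hf.holo hf.bdd τ

/-- moderate growth at infinity -/
structure Mod1 (f : ℍ → ℂ) : Prop where
  per : Function.Periodic (f ∘ ofComplex) 1
  holo : MDiff f
  growth : ∃ n : ℕ, IsBoundedAtImInfty (f * qp ^ n)

theorem Mod1.good_mul {f : ℍ → ℂ} (hf : Mod1 f) {n : ℕ} (hn : IsBoundedAtImInfty (f * qp ^ n)) :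
    Good (f * qp ^ n) :=
  ⟨hf.per.mul (good_qp.pow n).per, hf.holo.mul (mdiff_qp.pow n), hn⟩

theorem Mod1.bdd_mono {f : ℍ → ℂ} {n m : ℕ} (hn : IsBoundedAtImInfty (f * qp ^ n)) (h : n ≤ m) :
    IsBoundedAtImInfty (f * qp ^ m) := by
  obtain ⟨j, rfl⟩ := Nat.exists_eq_add_of_le h
  rw [pow_add, ← mul_assoc]
  exact hn.mul (good_qp.pow j).bdd

theorem Good.mod1 {f : ℍ → ℂ} (hf : Good f) : Mod1 f :=
  ⟨hf.per, hf.holo, 0, by simpa using hf.bdd⟩

theorem Mod1.mul {f g : ℍ → ℂ} (hf : Mod1 f) (hg : Mod1 g) : Mod1 (f * g) := by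
  refine ⟨hf.per.mul hg.per, hf.holo.mul hg.holo, ?_⟩
  obtain ⟨n, hn⟩ := hf.growth
  obtain ⟨m, hm⟩ := hg.growth
  refine ⟨n + m, ?_⟩
  rw [show f * g * qp ^ (n + m) = (f * qp ^ n) * (g * qp ^ m) by rw [pow_add]; ring]
  exact hn.mul hm

theorem Mod1.add {f g : ℍ → ℂ} (hf : Mod1 f) (hg : Mod1 g) : Mod1 (f + g) := by
  refine ⟨hf.per.add hg.per, hf.holo.add hg.holo, ?_⟩
  obtain ⟨n, hn⟩ := hf.growth
  obtain ⟨m, hm⟩ := hg.growth
  refine ⟨n + m, ?_⟩
  rw [add_mul]
  exact (Mod1.bdd_mono hn (by omega)).add (Mod1.bdd_mono hm (by omega))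

/-- the algebra of such functions -/
def M1 : Subalgebra ℂ (ℍ → ℂ) where
  carrier := {f | Mod1 f}
  mul_mem' := Mod1.mul
  one_mem' := Good.one.mod1
  add_mem' := Mod1.add
  zero_mem' := Good.zero.mod1
  algebraMap_mem' c := (Good.const c).mod1

theorem mem_M1 {f : ℍ → ℂ} : f ∈ M1 ↔ Mod1 f := Iff.rfl

instance M1.isDomain : IsDomain M1 := by
  haveI : Nontrivial M1 := ⟨⟨0, 1, fun h => by
    have := congrFun (congrArg Subtype.val h) UpperHalfPlane.I
    simp at this⟩⟩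
  haveI : NoZeroDivisors M1 := ⟨fun {a b} h => by
    have h' : (a : ℍ → ℂ) * (b : ℍ → ℂ) = 0 := congrArg Subtype.val h
    rcases (UpperHalfPlane.mul_eq_zero_iff a.2.holo b.2.holo).mp h' with h | h
    · exact Or.inl (Subtype.ext h)
    · exact Or.inr (Subtype.ext h)⟩
  exact NoZeroDivisors.to_isDomain _

/-- Laurent expansion, computed from a choice of pole bound -/
def lxAux (n : ℕ) (f : ℍ → ℂ) : LaurentSeries ℂ :=
  HahnSeries.single (-(n : ℤ)) 1 * HahnSeries.ofPowerSeries ℤ ℂ (qx (f * qp ^ n))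

theorem ofPowerSeries_X_pow' (j : ℕ) :
    HahnSeries.ofPowerSeries ℤ ℂ (PowerSeries.X ^ j) = HahnSeries.single (j : ℤ) 1 := by
  simp [map_pow]

theorem lxAux_add {f : ℍ → ℂ} (hf : Mod1 f) {n : ℕ} (hn : IsBoundedAtImInfty (f * qp ^ n)) (j : ℕ) :
    lxAux (n + j) f = lxAux n f := by
  rw [lxAux, lxAux, pow_add, ← mul_assoc f, Good.qx_mul (hf.good_mul hn) (good_qp.pow j),
    Good.qx_qp_pow, map_mul, ofPowerSeries_X_pow', mul_comm (HahnSeries.ofPowerSeries ℤ ℂ _),
    ← mul_assoc, HahnSeries.single_mul_single, mul_one]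
  congr 2
  push_cast; ring_nf

theorem lxAux_eq {f : ℍ → ℂ} (hf : Mod1 f) {n m : ℕ} (hn : IsBoundedAtImInfty (f * qp ^ n))
    (hm : IsBoundedAtImInfty (f * qp ^ m)) : lxAux n f = lxAux m f := by
  rw [← lxAux_add hf hn m, add_comm, lxAux_add hf hm n]

/-- the Laurent expansion at ∞ -/
def Lx (f : M1) : LaurentSeries ℂ := lxAux f.2.growth.choose (f : ℍ → ℂ)

theorem Lx_eq (f : M1) {n : ℕ} (hn : IsBoundedAtImInfty ((f : ℍ → ℂ) * qp ^ n)) :
    Lx f = lxAux n (f : ℍ → ℂ) :=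
  lxAux_eq f.2 f.2.growth.choose_spec hn

theorem Lx_of_good {f : ℍ → ℂ} (hf : Good f) :
    Lx ⟨f, hf.mod1⟩ = HahnSeries.ofPowerSeries ℤ ℂ (qx f) := by
  rw [Lx_eq _ (n := 0) (by simpa using hf.bdd)]
  simp [lxAux]

theorem Lx_add (f g : M1) : Lx (f + g) = Lx f + Lx g := by
  obtain ⟨n, hn⟩ := f.2.growth
  obtain ⟨m, hm⟩ := g.2.growth
  have hn' : IsBoundedAtImInfty ((f : ℍ → ℂ) * qp ^ (n + m)) := Mod1.bdd_mono hn (by omega)
  have hm' : IsBoundedAtImInfty ((g : ℍ → ℂ) * qp ^ (n + m)) := Mod1.bdd_mono hm (by omega)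
  have hs : IsBoundedAtImInfty (((f + g : M1) : ℍ → ℂ) * qp ^ (n + m)) := by
    rw [Subalgebra.coe_add, add_mul]; exact hn'.add hm'
  rw [Lx_eq _ hs, Lx_eq _ hn', Lx_eq _ hm', lxAux, lxAux, lxAux, Subalgebra.coe_add, add_mul,
    Good.qx_add (f.2.good_mul hn') (g.2.good_mul hm'), map_add, mul_add]

theorem Lx_mul (f g : M1) : Lx (f * g) = Lx f * Lx g := by
  obtain ⟨n, hn⟩ := f.2.growth
  obtain ⟨m, hm⟩ := g.2.growth
  have e : ((f * g : M1) : ℍ → ℂ) * qp ^ (n + m) =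
      ((f : ℍ → ℂ) * qp ^ n) * ((g : ℍ → ℂ) * qp ^ m) := by
    rw [Subalgebra.coe_mul, pow_add]; ring
  have hs : IsBoundedAtImInfty (((f * g : M1) : ℍ → ℂ) * qp ^ (n + m)) := by
    rw [e]; exact hn.mul hm
  rw [Lx_eq _ hs, Lx_eq _ hn, Lx_eq _ hm, lxAux, e,
    Good.qx_mul (f.2.good_mul hn) (g.2.good_mul hm), map_mul, lxAux, lxAux,
    Nat.cast_add, neg_add,
    show HahnSeries.single (-(n : ℤ) + -(m : ℤ)) (1 : ℂ) =
      HahnSeries.single (-(n : ℤ)) 1 * HahnSeries.single (-(m : ℤ)) 1 by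
      rw [HahnSeries.single_mul_single, mul_one]]
  ring

theorem algebraMap_eq_ofPowerSeries_C (c : ℂ) :
    algebraMap ℂ (LaurentSeries ℂ) c = HahnSeries.ofPowerSeries ℤ ℂ (PowerSeries.C c) := by
  rw [HahnSeries.algebraMap_apply']
  simp

theorem qx_const (c : ℂ) : qx (fun _ : ℍ => c) = PowerSeries.C c := by
  rw [coeff_unique' (Good.const c) (c := fun m => if m = 0 then c else 0) ?_]
  · ext m; simp [PowerSeries.coeff_C]
  · intro τ
    convert hasSum_single (f := fun m : ℕ => (if m = 0 then c else 0) * qp τ ^ m) 0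
      (fun m hm => by simp [hm]) using 1
    simp

/-- the Laurent expansion as an algebra map -/
def lx : M1 →ₐ[ℂ] LaurentSeries ℂ where
  toFun := Lx
  map_one' := by
    have h := Lx_of_good Good.one
    rw [show qx (1 : ℍ → ℂ) = 1 from UpperHalfPlane.qExpansion_one 1, map_one] at h
    exact h
  map_mul' := Lx_mul
  map_zero' := by
    have h := Lx_of_good Good.zero
    rw [show qx (0 : ℍ → ℂ) = 0 from UpperHalfPlane.qExpansion_zero 1, map_zero] at h
    exact h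
  map_add' := Lx_add
  commutes' c := by
    rw [algebraMap_eq_ofPowerSeries_C, ← qx_const]
    exact Lx_of_good (Good.const c)

theorem lx_apply (f : M1) : lx f = Lx f := rfl

theorem lx_injective : Function.Injective lx := by
  refine (injective_iff_map_eq_zero _).mpr fun f h => ?_
  obtain ⟨n, hn⟩ := f.2.growth
  rw [lx_apply, Lx_eq f hn, lxAux, mul_eq_zero] at h
  have h' := h.resolve_left (HahnSeries.single_ne_zero one_ne_zero)
  rw [map_eq_zero_iff _ HahnSeries.ofPowerSeries_injective] at h'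
  have h0 : ((f : ℍ → ℂ) * qp ^ n) = 0 :=
    Good.qx_inj (f.2.good_mul hn) Good.zero (h'.trans (UpperHalfPlane.qExpansion_zero 1).symm)
  refine Subtype.ext (funext fun τ => ?_)
  have := congrFun h0 τ
  simpa [pow_ne_zero _ (qp_ne_zero τ)] using this

theorem scale_add_nat (N : ℕ) [NeZero N] (z : ℂ) (hz : 0 < z.im) (hz' : 0 < (z + 1).im)
    {f : ℍ → ℂ} (hf : Function.Periodic (f ∘ ofComplex) 1) :
    f (scale N ⟨z + 1, hz'⟩) = f (scale N ⟨z, hz⟩) := by
  have h := hf.nat_mul N ((scale N ⟨z, hz⟩ : ℍ) : ℂ)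
  simp only [Function.comp_apply, UpperHalfPlane.ofComplex_apply] at h
  rw [← h, mul_one]
  congr 1
  have hpos : 0 < (((scale N ⟨z, hz⟩ : ℍ) : ℂ) + (N : ℂ)).im := by
    simpa using (scale N ⟨z, hz⟩).im_pos
  rw [ofComplex_apply_of_im_pos hpos]
  ext
  show ((scale N ⟨z + 1, hz'⟩ : ℍ) : ℂ) = (scale N ⟨z, hz⟩ : ℂ) + N
  rw [coe_scale, coe_scale]
  show (N : ℂ) * (z + 1) = N * z + N
  ring

theorem good_dil {f : ℍ → ℂ} (hf : Good f) (N : ℕ) [NeZero N] : Good (dil N f) where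
  per := periodic_ofComplex_of fun z hz hz' => scale_add_nat N z hz hz' hf.per
  holo := mdiff_dil hf.holo N
  bdd := hf.bdd.comp_tendsto (tendsto_aff N 0 1)

theorem qp_scale (N : ℕ) [NeZero N] (τ : ℍ) : qp (scale N τ) = qp τ ^ N := by
  simp only [qp]
  rw [coe_scale, Function.Periodic.qParam, Function.Periodic.qParam, ← Complex.exp_nat_mul]
  congr 1
  ring

theorem qx_dil' {f : ℍ → ℂ} (hf : Good f) (N : ℕ) [NeZero N] :
    qx (dil N f) = PowerSeries.mk (fun m => if N ∣ m then (qx f).coeff (m / N) else 0) := by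
  refine coeff_unique' (good_dil hf N) fun τ => ?_
  have hN : 0 < N := Nat.pos_of_ne_zero (NeZero.ne N)
  rw [← Function.Injective.hasSum_iff (g := fun m : ℕ => N * m) (fun x y hxy => by
    exact Nat.eq_of_mul_eq_mul_left hN hxy) (fun x hx => by
      have : ¬ N ∣ x := fun ⟨y, hy⟩ => hx ⟨y, hy.symm⟩
      simp [this])]
  convert hf.hasSum (scale N τ) using 1
  · funext m
    simp [Nat.mul_div_cancel_left _ hN, qp_scale, pow_mul]
  · rfl

theorem qExpand_ofPowerSeries (N : ℕ) [NeZero N] (P : PowerSeries ℂ) :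
    qExpand ℂ N (HahnSeries.ofPowerSeries ℤ ℂ P) = HahnSeries.ofPowerSeries ℤ ℂ
      (PowerSeries.mk (fun m => if N ∣ m then P.coeff (m / N) else 0)) := by
  ext k
  rcases lt_or_ge k 0 with hk | hk
  · rw [ofPowerSeries_coeff_of_neg _ hk]
    by_cases hd : (N : ℤ) ∣ k
    · obtain ⟨j, rfl⟩ := hd
      rw [qExpand_coeff_mul, ofPowerSeries_coeff_of_neg _ (by
        rcases lt_or_ge j 0 with h | h
        · exact h
        · exact absurd hk (not_lt.mpr (by positivity)))]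
    · rw [qExpand_coeff_of_not_dvd _ _ hd]
  lift k to ℕ using hk
  rw [HahnSeries.ofPowerSeries_apply_coeff, PowerSeries.coeff_mk]
  split_ifs with h
  · obtain ⟨j, rfl⟩ := h
    rw [Nat.mul_div_cancel_left _ (Nat.pos_of_ne_zero (NeZero.ne N)), Nat.cast_mul,
      qExpand_coeff_mul, HahnSeries.ofPowerSeries_apply_coeff]
  · rw [qExpand_coeff_of_not_dvd _ _ (by exact_mod_cast h)]

theorem mod1_dil {f : ℍ → ℂ} (hf : Mod1 f) (N : ℕ) [NeZero N] : Mod1 (dil N f) := by
  obtain ⟨n, hn⟩ := hf.growth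
  refine ⟨periodic_ofComplex_of fun z hz hz' => scale_add_nat N z hz hz' hf.per,
    mdiff_dil hf.holo N, N * n, ?_⟩
  have : dil N f * qp ^ (N * n) = dil N (f * qp ^ n) := by
    funext τ; simp [dil, qp_scale, pow_mul]
  rw [this]
  exact (good_dil (hf.good_mul hn) N).bdd

theorem lx_dil (f : M1) (N : ℕ) [NeZero N] :
    lx ⟨dil N (f : ℍ → ℂ), mod1_dil f.2 N⟩ = qExpand ℂ N (lx f) := by
  obtain ⟨n, hn⟩ := f.2.growth
  have e : dil N (f : ℍ → ℂ) * qp ^ (N * n) = dil N ((f : ℍ → ℂ) * qp ^ n) := by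
    funext τ; simp [dil, qp_scale, pow_mul]
  rw [lx_apply, lx_apply, Lx_eq f hn, Lx_eq _ (n := N * n) (by
    rw [e]; exact (good_dil (f.2.good_mul hn) N).bdd), lxAux, lxAux]
  rw [map_mul, qExpand_single, qExpand_ofPowerSeries, ← qx_dil' (f.2.good_mul hn) N, ← e,
    Nat.cast_mul, mul_neg]

end FLTAgent.ModFun
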