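import Fermat.Agent.ModFun.Conj

/-!
Γ₀(N)-invariant functions are rational in j(τ), j(Nτ); descent to ℚ.
-/

set_option autoImplicit false

noncomputable section

open UpperHalfPlane CongruenceSubgroup ModularCurve Filter
open scoped MatrixGroups Manifold Topology Real ModularForm

namespace FLTAgent.ModFun

theorem mod1_zero_slash {f : ℍ → ℂ} (hf : MDiff f) (hinv : ∀ (γ : SL(2, ℤ)) τ, f (γ • τ) = f τ)
    {m : ℕ} (hm : IsBoundedAtImInfty (f * qp ^ m)) : Mod1 f :=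
  ⟨per_of_SL hinv, hf, m, hm⟩

theorem lx_aeval_jM (P : Polynomial ℂ) :
    lx (Polynomial.aeval jM P) = Polynomial.aeval (coeffEmb ℂ jq) P := by
  rw [← Polynomial.aeval_algHom_apply, lx_jM]

theorem algebraMap_mul_coeff {L : Type*} [Field L] (c : L) (x : LaurentSeries L) (n : ℤ) :
    (algebraMap L (LaurentSeries L) c * x).coeff n = c * x.coeff n := by
  rw [algebraMap_laurentSeries_eq_single, HahnSeries.coeff_single_mul, sub_zero]

theorem aeval_jM_apply (P : Polynomial ℂ) (τ : ℍ) :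
    ((Polynomial.aeval jM P : M1) : ℍ → ℂ) τ = P.eval (jFun τ) := by
  rw [← evalM_apply, ← Polynomial.aeval_algHom_apply, evalM_apply, Polynomial.coe_aeval_eq_eval]
  rfl

variable (N : ℕ) [NeZero N]

theorem jdM_apply (τ : ℍ) : ((jdM N : M1) : ℍ → ℂ) τ = jN N τ := rfl

/-- the Laurent series of j(τ), j(Nτ) over ℂ -/
def genC : Set (LaurentSeries ℂ) := {coeffEmb ℂ jq, coeffEmb ℂ (qExpand ℚ N jq)}

/-- polynomial expressions in j(τ), j(Nτ) -/
def polyC : Subalgebra ℂ (LaurentSeries ℂ) := Algebra.adjoin ℂ (genC N)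

variable {N}

theorem jConj_sep {τ : ℍ} (q : Cosets N) : jConj N q τ = jN N (q.out⁻¹ • τ) := jConj_apply N q τ

/-- the interpolation coefficient in weight zero -/
def weakA (N : ℕ) [NeZero N] (f : ℍ → ℂ) (m : ℕ) : ℍ → ℂ :=
  ∑ q : Cosets N, conjF 0 f q * esum (jConj N) (Finset.univ.erase q) m

/-- the denominator -/
def weakD (N : ℕ) [NeZero N] : ℍ → ℂ :=
  ∏ r ∈ Finset.univ.erase (q₁ N), (jN N - jConj N r)

theorem weakA_poly {f : ℍ → ℂ} (hf : MDiff f) (hinv : ∀ γ ∈ Gamma0 N, f ∣[(0 : ℤ)] γ = f) {M : ℕ}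
    (hb : ∀ γ : SL(2, ℤ), IsBoundedAtImInfty ((f ∣[(0 : ℤ)] γ) * qp ^ M)) (m : ℕ) :
    ∃ P : Polynomial ℂ, ∀ τ, weakA N f m τ = P.eval (jFun τ) := by
  classical
  suffices h : MDiff (weakA N f m) ∧ (∀ (γ : SL(2, ℤ)) τ, weakA N f m (γ • τ) = weakA N f m τ) ∧
      IsBoundedAtImInfty (weakA N f m * qp ^ (M + N * m)) by
    obtain ⟨P, -, hP⟩ := exists_poly_jFun h.1 h.2.1 h.2.2
    exact ⟨P, hP⟩
  refine ⟨?_, ?_, ?_⟩
  · exact mdiff_sum _ fun q _ => (mdiff_slash hf 0 _).mul (esum_mdiff _ _ _ (mdiff_jConj N))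
  · intro γ τ
    have h : weakA N f m ∣[(0 : ℤ)] γ = weakA N f m := by
      rw [weakA, SlashAction.sum_slash]
      refine Finset.sum_equiv (cperm N γ) (by simp) fun q _ => ?_
      have e := esum_slash (jConj N) (cperm N γ) 0 γ (conjF_slash (jN_inv N) γ)
        (Finset.univ.erase q) m
      rw [mul_zero, Finset.map_erase, Finset.map_univ_equiv] at e
      have e2 := ModularForm.mul_slash_SL2 0 0 γ (conjF 0 f q) (esum (jConj N) (Finset.univ.erase q) m)
      rw [add_zero] at e2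
      rw [e2, conjF_slash hinv, e]
      rfl
    rw [slash_zero_eq] at h
    exact congrFun h τ
  · rw [weakA, Finset.sum_mul]
    refine bdd_sum _ fun q _ => ?_
    have e : IsBoundedAtImInfty (esum (jConj N) (Finset.univ.erase q) m * qp ^ (N * m)) := by
      rw [esum, Finset.sum_mul]
      refine bdd_sum _ fun S hS => ?_
      rw [pow_mul, ← (Finset.mem_powersetCard.mp hS).2, ← Finset.prod_const,
        ← Finset.prod_mul_distrib]
      exact bdd_prod S fun r _ => jConj_bdd N r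
    rw [pow_add, mul_mul_mul_comm]
    exact (hb _).mul e

theorem mdiff_weakD : MDiff (weakD N) :=
  mdiff_prod _ fun r _ => (mdiff_jN N).sub (mdiff_jConj N r)

theorem weak_interp {f : ℍ → ℂ} (hf : MDiff f) (hinv : ∀ γ ∈ Gamma0 N, f ∣[(0 : ℤ)] γ = f) {M : ℕ}
    (hb : ∀ γ : SL(2, ℤ), IsBoundedAtImInfty ((f ∣[(0 : ℤ)] γ) * qp ^ M)) :
    ∃ R : M1, lx R ∈ polyC N ∧ (R : ℍ → ℂ) = f * weakD N := by
  classical
  choose P hP using weakA_poly hf hinv hb
  refine ⟨∑ m ∈ Finset.range (idx N),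
    algebraMap ℂ M1 ((-1 : ℂ) ^ m) * ((jdM N) ^ (idx N - 1 - m) * Polynomial.aeval jM (P m)), ?_, ?_⟩
  · have e1 : coeffEmb ℂ (qExpand ℚ N jq) ∈ polyC N :=
      Algebra.subset_adjoin (Set.mem_insert_of_mem _ rfl)
    have e2 : coeffEmb ℂ jq ∈ polyC N := Algebra.subset_adjoin (Set.mem_insert _ _)
    rw [map_sum]
    refine Subalgebra.sum_mem _ fun m _ => ?_
    rw [map_mul, AlgHom.commutes, map_mul, map_pow lx (jdM N), lx_jdM, lx_aeval_jM]
    exact Subalgebra.mul_mem _ (Subalgebra.algebraMap_mem _ _) (Subalgebra.mul_mem _ (Subalgebra.pow_mem _ e1 _)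
      ((Algebra.adjoin_mono (Set.singleton_subset_iff.mpr (Set.mem_insert _ _)))
        (Polynomial.aeval_mem_adjoin_singleton _ _)))
  · have h1 : f * weakD N = ∑ q : Cosets N,
        conjF 0 f q * ∏ r ∈ Finset.univ.erase q, (jN N - jConj N r) := by
      rw [Finset.sum_eq_single_of_mem (q₁ N) (Finset.mem_univ _), conjF_q₁ hinv]
      · rfl
      · intro q _ hq
        rw [Finset.prod_eq_zero (i := q₁ N) (Finset.mem_erase.mpr ⟨Ne.symm hq, Finset.mem_univ _⟩),
          mul_zero]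
        rw [jConj_q₁, sub_self]
    rw [h1]
    simp only [prod_sub_eq, card_erase_cosets, Finset.mul_sum]
    rw [Nat.sub_add_cancel (idx_pos N), Finset.sum_comm]
    funext τ
    simp only [AddSubmonoidClass.coe_finsetSum, Finset.sum_apply]
    refine Finset.sum_congr rfl fun m _ => ?_
    rw [← Algebra.smul_def, Subalgebra.coe_smul, Subalgebra.coe_mul, Subalgebra.coe_pow, Pi.smul_apply, Pi.mul_apply,
      Pi.pow_apply, aeval_jM_apply, ← hP, weakA, Finset.sum_apply, Finset.mul_sum, Finset.smul_sum]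
    refine Finset.sum_congr rfl fun q _ => ?_
    simp only [Pi.mul_apply, Pi.smul_apply, Pi.pow_apply, smul_eq_mul, jdM_apply]
    ring

theorem gamma0_of_jN {γ : SL(2, ℤ)} (h : ∀ τ, jN N (γ • τ) = jN N τ) : γ ∈ Gamma0 N := by
  obtain ⟨A, B, D, hA, hD, hAD, hc, he⟩ := exists_aff N γ
  have hA0 : (0 : ℝ) < A := by exact_mod_cast Nat.pos_of_ne_zero hA.ne
  have hD0 : (0 : ℝ) < D := by exact_mod_cast Nat.pos_of_ne_zero hD.ne
  let P : ℍ → ℝ := fun z => ‖jFun z * qp z‖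
  have hP : Tendsto P atImInfty (𝓝 1) := by simpa [P] using tendsto_jFun_mul_qp.norm
  have hPN := hP.comp (tendsto_aff N 0 1)
  have hPA := hP.comp (tendsto_aff A B D)
  let it : ℝ → ℍ := fun y => if hy : 0 < y then ⟨Complex.I * y, by simpa⟩ else UpperHalfPlane.I
  have hit : ∀ᶠ y in atTop, (it y).im = y := by
    filter_upwards [eventually_gt_atTop 0] with y hy
    simp [it, hy, UpperHalfPlane.im]
  have hit' : Tendsto it atTop atImInfty := by
    unfold atImInfty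
    rw [tendsto_comap_iff]
    exact tendsto_id.congr' (hit.mono fun y hy => hy.symm)
  have hr : Tendsto (fun y => P (aff N 0 1 (it y)) / P (aff A B D (it y))) atTop (𝓝 1) := by
    have := (hPN.comp hit').div (hPA.comp hit') one_ne_zero
    simpa [Function.comp_def] using! this
  have hs := eq_of_exp_eventually (s := 2 * π * N - 2 * π * (A / D)) (K := 1) one_ne_zero hr ?_
  · have hAD' : (A : ℝ) = N * D := by
      have : (N : ℝ) = A / D := by nlinarith [Real.pi_pos]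
      rw [this]; field_simp
    have hAD'' : A = N * D := by exact_mod_cast hAD'
    have hD1 : D = 1 := by
      have h2 : N * (D * D) = N * 1 := by rw [← mul_assoc, ← hAD'', hAD, mul_one]
      exact (mul_eq_one.mp (Nat.eq_of_mul_eq_mul_left (Nat.pos_of_ne_zero (NeZero.ne N)) h2)).1
    rw [Gamma0_mem, ZMod.intCast_zmod_eq_zero_iff_dvd]
    have : A = N := by rw [hAD'', hD1, mul_one]
    rwa [this] at hc
  filter_upwards [hit, hit'.eventually (hPA.eventually_ne one_ne_zero)] with y hy hne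
  have e : jFun (aff A B D (it y)) = jFun (aff N 0 1 (it y)) := by
    rw [← he]; exact h (it y)
  have hne' : ‖jFun (aff A B D (it y)) * qp (aff A B D (it y))‖ ≠ 0 := hne
  show _ * (‖jFun (aff N 0 1 (it y)) * qp (aff N 0 1 (it y))‖ /
    ‖jFun (aff A B D (it y)) * qp (aff A B D (it y))‖) = 1
  rw [← e, mul_div_assoc', div_eq_one_iff_eq hne', norm_mul, norm_mul, norm_qp, norm_qp, im_aff,
    im_aff, hy, mul_left_comm, ← Real.exp_add]
  ring_nf

theorem weakD_ne_zero : weakD N ≠ 0 := by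
  classical
  intro h
  rw [weakD, UpperHalfPlane.prod_eq_zero_iff] at h
  · obtain ⟨r, hr, hr0⟩ := h
    have hfun : jN N = jConj N r := sub_eq_zero.mp hr0
    have : (r.out)⁻¹ ∈ Gamma0 N := gamma0_of_jN fun τ => by
      rw [← jConj_sep, ← hfun]
    refine Finset.ne_of_mem_erase hr ?_
    rw [← QuotientGroup.out_eq' r, q₁, QuotientGroup.eq]
    simpa using this
  · exact fun r _ => (mdiff_jN N).sub (mdiff_jConj N r)

theorem weakD_mem : ∃ D : M1, lx D ∈ polyC N ∧ D ≠ 0 ∧ (D : ℍ → ℂ) = weakD N := by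
  obtain ⟨D, hD, hDe⟩ := weak_interp (N := N) (f := 1) mdifferentiable_const
    (fun γ _ => ModularForm.is_invariant_one γ) (M := 0) (fun γ => by
      rw [ModularForm.is_invariant_one, pow_zero, mul_one]; exact Good.one.bdd)
  rw [one_mul] at hDe
  exact ⟨D, hD, fun h => weakD_ne_zero (by rw [← hDe, h]; rfl), hDe⟩

/-- An invariant function of moderate growth at all cusps is a quotient of polynomials in j, jN. -/
theorem exists_mul_polyC {f : ℍ → ℂ} (hf : MDiff f) (hinv : ∀ γ ∈ Gamma0 N, f ∣[(0 : ℤ)] γ = f)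
    {M : ℕ} (hb : ∀ γ : SL(2, ℤ), IsBoundedAtImInfty ((f ∣[(0 : ℤ)] γ) * qp ^ M))
    (hf1 : Mod1 f) :
    ∃ D ∈ polyC N, D ≠ 0 ∧ lx ⟨f, hf1⟩ * D ∈ polyC N := by
  obtain ⟨D, hD, hD0, hDe⟩ := weakD_mem (N := N)
  obtain ⟨R, hR, hRe⟩ := weak_interp hf hinv hb
  refine ⟨lx D, hD, fun h => hD0 ((map_eq_zero_iff _ lx_injective).mp h), ?_⟩
  rw [← map_mul, show (⟨f, hf1⟩ : M1) * D = R from Subtype.ext (by
    rw [Subalgebra.coe_mul, hRe, hDe])]
  exact hR

/-- coefficientwise functional on Laurent series -/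
def phiL (φ : ℂ →ₗ[ℚ] ℚ) (x : LaurentSeries ℂ) : LaurentSeries ℚ := x.map φ

theorem phiL_coeff (φ : ℂ →ₗ[ℚ] ℚ) (x : LaurentSeries ℂ) (n : ℤ) :
    (phiL φ x).coeff n = φ (x.coeff n) := rfl

theorem phiL_add (φ : ℂ →ₗ[ℚ] ℚ) (x y : LaurentSeries ℂ) :
    phiL φ (x + y) = phiL φ x + phiL φ y := by
  ext n; simp [phiL_coeff]

theorem phiL_zero (φ : ℂ →ₗ[ℚ] ℚ) : phiL φ 0 = 0 := by
  ext n; simp [phiL_coeff]

theorem phiL_coeffEmb (φ : ℂ →ₗ[ℚ] ℚ) (Y : LaurentSeries ℚ) :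
    phiL φ (coeffEmb ℂ Y) = algebraMap ℚ (LaurentSeries ℚ) (φ 1) * Y := by
  ext n
  rw [phiL_coeff, coeffEmb_coeff, algebraMap_mul_coeff, Algebra.algebraMap_eq_smul_one,
    LinearMap.map_smul, smul_eq_mul, mul_comm]

theorem phiL_smul (φ : ℂ →ₗ[ℚ] ℚ) (c : ℂ) (x : LaurentSeries ℂ) :
    phiL φ (algebraMap ℂ (LaurentSeries ℂ) c * x) = phiL (φ.comp (LinearMap.mulLeft ℚ c)) x := by
  ext n; simp [phiL_coeff, algebraMap_mul_coeff]

/-- polynomial expressions over ℚ -/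
def polyQ (N : ℕ) [NeZero N] : Subalgebra ℚ (LaurentSeries ℚ) :=
  Algebra.adjoin ℚ {jq, qExpand ℚ N jq}

theorem polyC_descent {X : LaurentSeries ℂ} (hX : X ∈ polyC N) :
    ∀ φ : ℂ →ₗ[ℚ] ℚ, ∃ Z ∈ polyQ N, ∀ Y : LaurentSeries ℚ,
      phiL φ (X * coeffEmb ℂ Y) = Z * Y := by
  rw [polyC, ← Subalgebra.mem_toSubmodule, Algebra.adjoin_eq_span] at hX
  induction hX using Submodule.span_induction with
  | mem x hx =>
    have : ∃ z ∈ polyQ N, x = coeffEmb ℂ z := by
      induction hx using Submonoid.closure_induction with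
      | mem y hy =>
        rcases hy with h | h
        · exact ⟨jq, Algebra.subset_adjoin (Set.mem_insert _ _), h⟩
        · exact ⟨qExpand ℚ N jq, Algebra.subset_adjoin (Set.mem_insert_of_mem _ rfl),
            Set.mem_singleton_iff.mp h⟩
      | one => exact ⟨1, one_mem _, (map_one _).symm⟩
      | mul a b _ _ ha hb =>
        obtain ⟨za, hza, rfl⟩ := ha
        obtain ⟨zb, hzb, rfl⟩ := hb
        exact ⟨za * zb, mul_mem hza hzb, (map_mul _ _ _).symm⟩
    obtain ⟨z, hz, rfl⟩ := this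
    intro φ
    refine ⟨algebraMap ℚ _ (φ 1) * z, mul_mem (Subalgebra.algebraMap_mem _ _) hz, fun Y => ?_⟩
    rw [← map_mul, phiL_coeffEmb, mul_assoc]
  | zero => exact fun φ => ⟨0, zero_mem _, fun Y => by rw [zero_mul, zero_mul, phiL_zero]⟩
  | add x y _ _ hx hy =>
    intro φ
    obtain ⟨a, ha, hae⟩ := hx φ
    obtain ⟨b, hb, hbe⟩ := hy φ
    exact ⟨a + b, add_mem ha hb, fun Y => by rw [add_mul, phiL_add, hae, hbe, add_mul]⟩
  | smul c x _ hx =>
    intro φ
    obtain ⟨a, ha, hae⟩ := hx (φ.comp (LinearMap.mulLeft ℚ c))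
    exact ⟨a, ha, fun Y => by rw [Algebra.smul_def, mul_assoc, phiL_smul, hae]⟩

theorem functionFieldGeneration (N : ℕ) [NeZero N] : FunctionFieldGeneration N := by
  intro d hd _
  obtain ⟨k, rfl⟩ := hd
  have hinv : ∀ γ ∈ Gamma0 (d * k), dil d jFun ∣[(0 : ℤ)] γ = dil d jFun := fun γ hγ => by
    refine jN_inv d γ ?_
    rw [Gamma0_mem, ZMod.intCast_zmod_eq_zero_iff_dvd] at hγ ⊢
    exact (Int.natCast_dvd_natCast.mpr (dvd_mul_right d k)).trans hγ
  obtain ⟨D, hD, hD0, hR⟩ := exists_mul_polyC (N := d * k) (mdiff_dil mdiff_jFun d) hinv (M := d)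
    (fun γ => by
      have h := jConj_bdd d (QuotientGroup.mk γ⁻¹ : Cosets d)
      rwa [jConj, conjF_mk (jN_inv d), inv_inv] at h)
    (mod1_dil mod1_jFun d)
  rw [show (⟨dil d jFun, mod1_dil mod1_jFun d⟩ : M1) = jdM d from rfl, lx_jdM] at hR
  obtain ⟨φ, hφ⟩ := exists_proj
  obtain ⟨n₀, hn₀⟩ : ∃ n, D.coeff n ≠ 0 := by
    by_contra hc
    push Not at hc
    exact hD0 (HahnSeries.ext (funext hc))
  set ψ : ℂ →ₗ[ℚ] ℚ := φ.comp (LinearMap.mulLeft ℚ (D.coeff n₀)⁻¹) with hψ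
  obtain ⟨ZD, hZD, eD⟩ := polyC_descent hD ψ
  obtain ⟨ZR, hZR, eR⟩ := polyC_descent hR ψ
  have e1 := eD 1
  rw [map_one, mul_one, mul_one] at e1
  have hZD0 : ZD ≠ 0 := by
    intro h
    have h1 : (phiL ψ D).coeff n₀ = 0 := by rw [e1, h, HahnSeries.coeff_zero]
    rw [phiL_coeff, hψ, LinearMap.comp_apply, LinearMap.mulLeft_apply, inv_mul_cancel₀ hn₀, hφ] at h1
    exact one_ne_zero h1
  have e2 := eR 1
  rw [map_one, mul_one, mul_one, mul_comm, eD] at e2
  have hle : ∀ Z ∈ polyQ (d * k), Z ∈ IntermediateField.adjoin ℚ {jq, qExpand ℚ (d * k) jq} :=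
    fun Z hZ => IntermediateField.algebra_adjoin_le_adjoin ℚ _ hZ
  have e3 : qExpand ℚ d jq = ZR / ZD := by
    rw [eq_div_iff hZD0, mul_comm]; exact e2
  rw [e3]
  exact div_mem (hle _ hZR) (hle _ hZD)

theorem modularFunctionFieldFull_eq (N : ℕ) [NeZero N] :
    modularFunctionFieldFull N = modularFunctionField N := by
  refine le_antisymm ?_ (modularFunctionField_le_full N)
  rw [modularFunctionFieldFull, IntermediateField.adjoin_le_iff]
  rintro x ⟨d, hne, hdvd, rfl⟩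
  exact functionFieldGeneration N d hdvd hne

theorem jFun_scale_conj_eq_iff (N : ℕ) [NeZero N] (γ γ' : SL(2, ℤ)) :
    (∀ τ : ℍ, jFun (scale N (γ • τ)) = jFun (scale N (γ' • τ))) ↔ γ * γ'⁻¹ ∈ Gamma0 N := by
  constructor
  · intro h
    refine gamma0_of_jN fun τ => ?_
    have := h (γ'⁻¹ • τ)
    rwa [← mul_smul, smul_inv_smul] at this
  · intro h τ
    have := congrFun (jN_inv N _ h) (γ' • τ)
    rw [slash_zero_eq] at this
    simp only [← mul_smul, inv_mul_cancel_right] at this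
    exact this

/-- quotients of forms of equal weight are in the function field -/
theorem quot_mem_adjoin {N : ℕ} [NeZero N] {w : ℤ} {f g : ℍ → ℂ} (hf : IsMF N w f)
    (hg : IsMF N w g) :
    (HahnSeries.ofPowerSeries ℤ ℂ (qx f)) / (HahnSeries.ofPowerSeries ℤ ℂ (qx g)) ∈
      IntermediateField.adjoin ℂ {coeffEmb ℂ jq, coeffEmb ℂ (qExpand ℚ N jq)} := by
  by_cases hg0 : g = 0
  · rw [hg0, show qx (0 : ℍ → ℂ) = 0 from UpperHalfPlane.qExpansion_zero 1, map_zero, div_zero]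
    exact zero_mem _
  rcases Int.even_or_odd w with ⟨v, hv⟩ | hodd
  swap
  · exact absurd (congrArg (fun F : ModularForm (Gamma0 N) w => (⇑F : ℍ → ℂ))
      (ModularForm.eq_zero_of_neg_one_mem
        (Subgroup.mem_map.mpr ⟨-1, by rw [Gamma0_mem]; simp, by ext i j; simp⟩) hodd hg.toForm)) hg0
  obtain ⟨a, b, c, habc⟩ : ∃ a b c : ℕ, 4 * (a : ℤ) + 6 * b = 12 * c - w := by
    rcases Int.even_or_odd v with ⟨u, hu⟩ | ⟨u, hu⟩
    · exact ⟨(3 * (w.toNat : ℤ) - u).toNat, 0, w.toNat, by omega⟩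
    · exact ⟨(3 * ((w.toNat + 1 : ℕ) : ℤ) - u - 2).toNat, 1, w.toNat + 1, by omega⟩
  set E : ℍ → ℂ := (ModularForm.E₄ : ℍ → ℂ) ^ a * (ModularForm.E₆ : ℍ → ℂ) ^ b with hE'
  have hE : IsMF N ((a : ℤ) * 4 + (b : ℤ) * 6) E :=
    ((isMF_E4.pow a).mul ((isMF_levelOne ModularForm.E₆ : IsMF 1 6 _).pow b)).levelOne
  have hE0 : qx E ≠ 0 := by
    intro h
    have h' := congrArg (PowerSeries.constantCoeff (R := ℂ)) h
    rw [hE', Good.qx_mul (isMF_E4.good.pow a) ((isMF_levelOne ModularForm.E₆ : IsMF 1 6 _).good.pow b),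
      Good.qx_pow isMF_E4.good, Good.qx_pow (isMF_levelOne ModularForm.E₆ : IsMF 1 6 _).good,
      map_mul, map_pow, map_pow, ← PowerSeries.coeff_zero_eq_constantCoeff, qx, qx,
      EisensteinSeries.E_qExpansion_coeff_zero _ ⟨2, rfl⟩,
      EisensteinSeries.E_qExpansion_coeff_zero _ ⟨3, rfl⟩] at h'
    simp at h'
  have hd0 := ModularForm.discriminant_ne_zero
  have key : ∀ F : ℍ → ℂ, IsMF N w F → ∃ (h1 : Mod1 (fun τ => F τ * E τ / ModularForm.discriminant τ ^ c)),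
      lx ⟨_, h1⟩ * HahnSeries.ofPowerSeries ℤ ℂ (qx (ModularForm.discriminant ^ c)) =
        HahnSeries.ofPowerSeries ℤ ℂ (qx F) * HahnSeries.ofPowerSeries ℤ ℂ (qx E) ∧
      lx ⟨_, h1⟩ ∈ IntermediateField.adjoin ℂ {coeffEmb ℂ jq, coeffEmb ℂ (qExpand ℚ N jq)} := by
    intro F hF
    set G : ℍ → ℂ := fun τ => F τ * E τ / ModularForm.discriminant τ ^ c with hG
    have hFE : IsMF N ((c : ℤ) * 12) (F * E) := (hF.mul hE).cast (by omega)
    have hm : MDiff G := hFE.holo.div (isMF_delta.holo.pow c) (fun τ => pow_ne_zero _ (hd0 τ))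
    have hGm : G * ModularForm.discriminant ^ c = F * E := by
      funext τ; simp [hG, div_mul_cancel₀ _ (pow_ne_zero c (hd0 τ))]
    have hGγ : ∀ (γ : SL(2, ℤ)) (τ : ℍ), (G ∣[(0 : ℤ)] γ) τ * ModularForm.discriminant τ ^ c =
        ((F * E) ∣[(c : ℤ) * 12] γ) τ := fun γ τ => by
      rw [← hGm, show (c : ℤ) * 12 = 0 + (c : ℤ) * 12 by ring, ModularForm.mul_slash_SL2,
        (isMF_delta.pow c).inv γ (mem_Gamma0_one γ)]
      simp
    have hinv : ∀ γ ∈ Gamma0 N, G ∣[(0 : ℤ)] γ = G := fun γ hγ => funext fun τ => by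
      apply mul_right_cancel₀ (pow_ne_zero c (hd0 τ))
      rw [hGγ, hFE.inv γ hγ, ← hGm]
      rfl
    have hb : ∀ γ : SL(2, ℤ), IsBoundedAtImInfty ((G ∣[(0 : ℤ)] γ) * qp ^ c) := fun γ => by
      have h2 : IsBoundedAtImInfty (fun τ => ((etaFn τ ^ 24) ^ c)⁻¹) := by
        have := ((tendsto_etaFn.pow 24).pow c).inv₀ (by norm_num)
        exact this.isBigO_one ℝ
      refine ((hFE.bdd γ).mul h2).congr_left fun τ => ?_
      simp only [Pi.mul_apply, Pi.pow_apply]
      rw [← hGγ, discriminant_eq, Pi.mul_apply, Pi.pow_apply, mul_pow]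
      have : etaFn τ ≠ 0 := fun h0 => hd0 τ (by rw [discriminant_eq]; simp [h0])
      field_simp
    have h1 : Mod1 G := by
      refine ⟨periodic_ofComplex_of fun z hz hz' => ?_, hm, c, by simpa using hb 1⟩
      have e : (⟨z + 1, hz'⟩ : ℍ) = ModularGroup.T • (⟨z, hz⟩ : ℍ) := by
        ext
        rw [UpperHalfPlane.modular_T_smul]
        simp [add_comm]
      have := congrFun (hinv _ (T_mem_Gamma0 N)) ⟨z, hz⟩
      rw [slash_zero_eq] at this
      rw [e]; exact this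
    refine ⟨h1, ?_, ?_⟩
    · rw [← lx_good (isMF_delta.good.pow c), ← map_mul, ← map_mul, ← Good.qx_mul hF.good hE.good,
        ← lx_good hFE.good]
      exact congrArg lx (Subtype.ext hGm)
    · obtain ⟨D, hD, hD0, hR⟩ := exists_mul_polyC hm hinv hb h1
      have hle := IntermediateField.algebra_adjoin_le_adjoin ℂ (genC N)
      have e : lx ⟨G, h1⟩ = (lx ⟨G, h1⟩ * D) / D := by rw [mul_div_assoc, div_self hD0, mul_one]
      rw [e]
      exact div_mem (hle hR) (hle hD)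
  obtain ⟨hf1, ef, mf⟩ := key f hf
  obtain ⟨hg1, eg, mg⟩ := key g hg
  have hDc : HahnSeries.ofPowerSeries ℤ ℂ (qx (ModularForm.discriminant ^ c)) ≠ 0 := by
    rw [Good.qx_pow isMF_delta.good, qx_discriminant, map_pow]
    refine pow_ne_zero _ ((map_ne_zero_iff _ HahnSeries.ofPowerSeries_injective).mpr ?_)
    refine mul_ne_zero PowerSeries.X_ne_zero fun h => ?_
    have h' := congrArg (PowerSeries.constantCoeff (R := ℂ)) h
    rw [map_zero, ← PowerSeries.coeff_zero_eq_constantCoeff, PowerSeries.coeff_map,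
      PowerSeries.coeff_zero_eq_constantCoeff, constantCoeff_dedekindEtaUnit] at h'
    simp at h'
  have hEL : HahnSeries.ofPowerSeries ℤ ℂ (qx E) ≠ 0 :=
    (map_ne_zero_iff _ HahnSeries.ofPowerSeries_injective).mpr hE0
  rw [← mul_div_mul_right (HahnSeries.ofPowerSeries ℤ ℂ (qx f)) _ hEL, ← ef, ← eg,
    mul_div_mul_right _ _ hDc]
  exact div_mem mf mg

end FLTAgent.ModFun
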