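import Fermat.Agent.ModFun.Basic

/-!
Rational structures and level one.
-/

set_option autoImplicit false

noncomputable section

open UpperHalfPlane CongruenceSubgroup ModularForm Filter EisensteinSeries
open scoped MatrixGroups Manifold Topology ArithmeticFunction.sigma

namespace FLTAgent.ModFun

/-- the q-expansion has integer coefficients -/
def IntQ (f : ℍ → ℂ) : Prop := ∃ Z : PowerSeries ℤ, qx f = Z.map (Int.castRingHom ℂ)

theorem IntQ.mul {f g : ℍ → ℂ} (hf : Good f) (hg : Good g) (hf' : IntQ f) (hg' : IntQ g) :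
    IntQ (f * g) := by
  obtain ⟨a, ha⟩ := hf'; obtain ⟨b, hb⟩ := hg'
  exact ⟨a * b, by rw [Good.qx_mul hf hg, ha, hb, map_mul]⟩

theorem IntQ.one : IntQ 1 := ⟨1, by rw [qx, qExpansion_one, map_one]⟩

def ratGen (N : ℕ) (w : ℤ) : Set (ℍ → ℂ) := {f | IsMF N w f ∧ IntQ f}

/-- forms in the complex span of forms with integral q-expansion -/
def RatMF (N : ℕ) (w : ℤ) : Submodule ℂ (ℍ → ℂ) := Submodule.span ℂ (ratGen N w)

variable {N M : ℕ} {w w' : ℤ} {f g : ℍ → ℂ}

theorem RatMF.le_MF (N : ℕ) (w : ℤ) : RatMF N w ≤ MF N w :=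
  Submodule.span_le.mpr fun _ h => h.1

theorem RatMF.isMF (h : f ∈ RatMF N w) : IsMF N w f := RatMF.le_MF N w h

theorem RatMF.mul (hf : f ∈ RatMF N w) (hg : g ∈ RatMF N w') : f * g ∈ RatMF N (w + w') := by
  induction hf using Submodule.span_induction with
  | zero => simp
  | add x y _ _ hx hy => rw [add_mul]; exact Submodule.add_mem _ hx hy
  | smul c x _ hx => rw [smul_mul_assoc]; exact Submodule.smul_mem _ c hx
  | mem x hx =>
    induction hg using Submodule.span_induction with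
    | zero => simp
    | add y z _ _ hy hz => rw [mul_add]; exact Submodule.add_mem _ hy hz
    | smul c y _ hy => rw [mul_smul_comm]; exact Submodule.smul_mem _ c hy
    | mem y hy =>
      exact Submodule.subset_span (show x * y ∈ ratGen N (w + w') from
        ⟨hx.1.mul hy.1, IntQ.mul hx.1.good hy.1.good hx.2 hy.2⟩)

theorem RatMF.one : (1 : ℍ → ℂ) ∈ RatMF N 0 := Submodule.subset_span ⟨IsMF.one, IntQ.one⟩

theorem RatMF.cast (h : w = w') (hf : f ∈ RatMF N w) : f ∈ RatMF N w' := h ▸ hf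

theorem RatMF.mono (h : M ∣ N) (hf : f ∈ RatMF M w) : f ∈ RatMF N w :=
  Submodule.span_mono (fun x (hx : x ∈ ratGen M w) =>
    (show IsMF N w x ∧ IntQ x from ⟨hx.1.mono h, hx.2⟩)) hf

theorem RatMF.levelOne (hf : f ∈ RatMF 1 w) : f ∈ RatMF N w := RatMF.mono (one_dvd N) hf

theorem RatMF.pow (hf : f ∈ RatMF N w) (n : ℕ) : f ^ n ∈ RatMF N (n * w) := by
  induction n with
  | zero => simpa using RatMF.one
  | succ n ih => rw [pow_succ]; exact RatMF.cast (by push_cast; ring) (RatMF.mul ih hf)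

theorem intQ_E4 : IntQ (E₄ : ℍ → ℂ) := by
  refine ⟨PowerSeries.mk fun m => if m = 0 then 1 else 240 * (σ 3 m : ℤ), PowerSeries.ext fun m => ?_⟩
  rw [qx, PowerSeries.coeff_map, PowerSeries.coeff_mk, E₄,
    EisensteinSeries.E_qExpansion_coeff _ ⟨2, rfl⟩]
  have hb : bernoulli 4 = -1 / 30 := by
    rw [bernoulli_eq_bernoulli'_of_ne_one (by norm_num), bernoulli'_four]
  rcases eq_or_ne m 0 with rfl | hm
  · simp
  · simp [hm, hb]; norm_num

theorem bernoulli_six : bernoulli 6 = 1 / 42 := by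
  rw [bernoulli_eq_bernoulli'_of_ne_one (by norm_num), bernoulli'_def]
  norm_num [Finset.sum_range_succ, Nat.choose, bernoulli'_zero, bernoulli'_one, bernoulli'_two,
    bernoulli'_three, bernoulli'_four, bernoulli'_eq_zero_of_odd (by decide : Odd 5) (by norm_num)]

theorem intQ_E6 : IntQ (E₆ : ℍ → ℂ) := by
  refine ⟨PowerSeries.mk fun m => if m = 0 then 1 else -504 * (σ 5 m : ℤ), PowerSeries.ext fun m => ?_⟩
  rw [qx, PowerSeries.coeff_map, PowerSeries.coeff_mk, E₆,
    EisensteinSeries.E_qExpansion_coeff _ ⟨3, rfl⟩]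
  rcases eq_or_ne m 0 with rfl | hm
  · simp
  · simp [hm, bernoulli_six]; norm_num

theorem E4_mem : (E₄ : ℍ → ℂ) ∈ RatMF 1 4 :=
  Submodule.subset_span ⟨isMF_levelOne E₄, intQ_E4⟩

theorem E6_mem : (E₆ : ℍ → ℂ) ∈ RatMF 1 6 :=
  Submodule.subset_span ⟨isMF_levelOne E₆, intQ_E6⟩

theorem delta_mem : discriminant ∈ RatMF 1 12 := by
  have h : discriminant = (1 / 1728 : ℂ) • ((E₄ : ℍ → ℂ) ^ 3 - (E₆ : ℍ → ℂ) ^ 2) := by
    funext z
    rw [discriminant_eq_E₄_cube_sub_E₆_sq]
    simp only [Pi.smul_apply, Pi.sub_apply, Pi.pow_apply, smul_eq_mul]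
    ring
  rw [h]
  exact Submodule.smul_mem _ _ (Submodule.sub_mem _
    (RatMF.cast (by norm_num) (RatMF.pow E4_mem 3)) (RatMF.cast (by norm_num) (RatMF.pow E6_mem 2)))

theorem levelOne_rat_nat (n : ℕ) :
    ∀ (w : ℤ), w < n → ∀ F : ModularForm 𝒮ℒ w, (F : ℍ → ℂ) ∈ RatMF 1 w := by
  induction n with
  | zero =>
    intro w hw F
    rw [ModularFormClass.levelOne_neg_weight_eq_zero (by omega) F]; simp
  | succ n ih =>
    intro w hw F
    rcases lt_or_ge w 0 with hneg | hnn
    · rw [ModularFormClass.levelOne_neg_weight_eq_zero hneg F]; simp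
    lift w to ℕ using hnn
    rcases Nat.even_or_odd w with hev | hodd
    swap
    · rw [ModularForm.levelOne_odd_weight_eq_zero (by exact_mod_cast hodd) F]; simp
    by_cases h0 : w = 0
    · subst h0
      obtain ⟨c, hc⟩ := ModularForm.eq_const_of_weight_zero F
      have : (F : ℍ → ℂ) = c • (1 : ℍ → ℂ) := by rw [hc]; ext; simp
      rw [this]
      exact Submodule.smul_mem _ c RatMF.one
    by_cases h2 : w = 2
    · subst h2
      obtain ⟨a, ha, haF⟩ := (rank_eq_zero_iff.mp levelOne_weight_two_rank_zero) F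
      have : F = 0 := (smul_eq_zero.mp haF).resolve_left ha
      rw [this]; simp
    obtain ⟨v, hv⟩ := hev
    obtain ⟨a, b, hab⟩ : ∃ a b : ℕ, 4 * a + 6 * b = w := by
      rcases Nat.even_or_odd v with ⟨u, hu⟩ | ⟨u, hu⟩
      · exact ⟨u, 0, by omega⟩
      · exact ⟨u - 1, 1, by omega⟩
    let G : ℍ → ℂ := (E₄ : ℍ → ℂ) ^ a * (E₆ : ℍ → ℂ) ^ b
    have hG : G ∈ RatMF 1 (w : ℤ) :=
      RatMF.cast (by push_cast [← hab]; ring) (RatMF.mul (RatMF.pow E4_mem a) (RatMF.pow E6_mem b))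
    have hG0 : (qx G).coeff 0 = 1 := by
      have g4 := (isMF_levelOne E₄).good
      have g6 := (isMF_levelOne E₆).good
      rw [Good.qx_mul (g4.pow a) (g6.pow b), Good.qx_pow g4, Good.qx_pow g6,
        PowerSeries.coeff_zero_eq_constantCoeff, map_mul, map_pow, map_pow,
        ← PowerSeries.coeff_zero_eq_constantCoeff, qx, qx,
        EisensteinSeries.E_qExpansion_coeff_zero _ ⟨2, rfl⟩,
        EisensteinSeries.E_qExpansion_coeff_zero _ ⟨3, rfl⟩]
      simp
    let Gf : ModularForm 𝒮ℒ (w : ℤ) := (RatMF.isMF hG).toLevelOne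
    let c := (qx F).coeff 0
    have hH : (qExpansion 1 (F - c • Gf : ModularForm 𝒮ℒ (w : ℤ))).coeff 0 = 0 := by
      rw [FunLike.coe_sub, FunLike.coe_smul, IsMF.coe_toLevelOne]
      show (qx ((F : ℍ → ℂ) - c • G)).coeff 0 = 0
      rw [Good.qx_sub (isMF_levelOne F).good ((RatMF.isMF hG).good.smul c),
        Good.qx_smul c (RatMF.isMF hG).good, map_sub, PowerSeries.coeff_smul, hG0]
      simp [c]
    let K := CuspForm.discriminantEquiv (toCuspForm (F - c • Gf) hH)
    have hK : (K : ℍ → ℂ) ∈ RatMF 1 ((w : ℤ) - 12) := ih _ (by omega) K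
    have : (F : ℍ → ℂ) = c • G + discriminant * (K : ℍ → ℂ) := by
      funext z
      simp only [Pi.add_apply, Pi.mul_apply, Pi.smul_apply, smul_eq_mul]
      rw [discriminant_mul_discriminantEquiv_apply]
      show F z = c * G z + (F z - c * G z)
      ring
    rw [this]
    exact Submodule.add_mem _ (Submodule.smul_mem _ c hG)
      (RatMF.cast (by ring) (RatMF.mul delta_mem hK))

/-- level one forms are spanned by forms with integral q-expansions -/
theorem levelOne_rat {w : ℤ} {f : ℍ → ℂ} (hf : IsMF 1 w f) : f ∈ RatMF 1 w :=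
  levelOne_rat_nat (w.toNat + 1) w (by omega) hf.toLevelOne

end FLTAgent.ModFun
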