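import Fermat.Agent.ModFun.JCusp

/-!
The conjugates j(Nγτ) and the modular equation over ℂ.
-/

set_option autoImplicit false

noncomputable section

open UpperHalfPlane CongruenceSubgroup ModularCurve Filter
open scoped MatrixGroups Manifold Topology Real ModularForm

namespace FLTAgent.ModFun

variable (N : ℕ) [NeZero N]

/-- j(Nτ) -/
def jN : ℍ → ℂ := dil N jFun

theorem scale_smul_Gamma0 {γ : SL(2, ℤ)} (hγ : γ ∈ Gamma0 N) (τ : ℍ) :
    ∃ γ' : SL(2, ℤ), scale N (γ • τ) = γ' • scale N τ := by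
  rw [Gamma0_mem, ZMod.intCast_zmod_eq_zero_iff_dvd] at hγ
  obtain ⟨c', hc'⟩ := hγ
  have hdet : γ 0 0 * γ 1 1 - γ 0 1 * γ 1 0 = 1 := by
    have := γ.prop; rwa [Matrix.det_fin_two] at this
  refine ⟨⟨!![γ 0 0, (N : ℤ) * γ 0 1; c', γ 1 1], by
    simp [Matrix.det_fin_two]; rw [hc'] at hdet; linear_combination hdet⟩, ?_⟩
  exact (scale_smul_eq N γ _ N 0 1 (by simp [mul_comm]) (by simp) (by simp [hc', mul_comm])
    (by simp) τ).1

theorem jN_inv : ∀ γ : SL(2, ℤ), γ ∈ Gamma0 N → jN N ∣[(0 : ℤ)] γ = jN N := by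
  intro γ hγ
  rw [slash_zero_eq]
  funext τ
  obtain ⟨γ', h⟩ := scale_smul_Gamma0 N hγ τ
  show jFun (scale N (γ • τ)) = jFun (scale N τ)
  rw [h, jFun_smul]

/-- conjugates of j(Nτ) -/
def jConj (q : Cosets N) : ℍ → ℂ := conjF 0 (jN N) q

theorem jConj_apply (q : Cosets N) (τ : ℍ) : jConj N q τ = jFun (scale N (q.out⁻¹ • τ)) := by
  rw [jConj, conjF, slash_zero_eq]; rfl

theorem mdiff_jN : MDiff (jN N) := mdiff_dil mdiff_jFun N

theorem mdiff_jConj (q : Cosets N) : MDiff (jConj N q) := mdiff_slash (mdiff_jN N) 0 _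

theorem exists_aff (γ : SL(2, ℤ)) :
    ∃ (A : ℕ) (B : ℤ) (D : ℕ) (_ : NeZero A) (_ : NeZero D), A * D = N ∧ (A : ℤ) ∣ γ 1 0 ∧
      ∀ τ, jFun (scale N (γ • τ)) = jFun (aff A B D τ) := by
  obtain ⟨γ', A, B, D, hA, hD, hAD, hc, h00, h01, h10, h11⟩ := exists_hermite N γ
  exact ⟨A, B, D, hA, hD, hAD, hc, fun τ => by
    rw [(scale_smul_eq N γ γ' A B D h00 h01 h10 h11 τ).1, jFun_smul]⟩

theorem jConj_bdd (q : Cosets N) : IsBoundedAtImInfty (jConj N q * qp ^ N) := by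
  obtain ⟨A, B, D, hA, hD, hAD, -, h⟩ := exists_aff N (q.out⁻¹)
  have h1 : IsBoundedAtImInfty (fun τ => jFun (aff A B D τ) * qp (aff A B D τ)) :=
    (tendsto_jFun_mul_qp.comp (tendsto_aff A B D)).isBigO_one ℝ
  have h2 : IsBoundedAtImInfty (fun τ => qp τ ^ N / qp (aff A B D τ)) := by
    rw [UpperHalfPlane.isBoundedAtImInfty_iff]
    refine ⟨1, 0, fun τ _ => ?_⟩
    rw [norm_div, norm_pow, norm_qp, norm_qp, im_aff, ← Real.exp_nat_mul, ← Real.exp_sub,
      Real.exp_le_one_iff, sub_nonpos]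
    have hD1 : (1 : ℝ) ≤ D := by exact_mod_cast Nat.one_le_iff_ne_zero.mpr hD.ne
    have hAD' : (A : ℝ) * D = N := by exact_mod_cast hAD
    have hle : (A : ℝ) * τ.im / D ≤ N * τ.im := by
      rw [div_le_iff₀ (by linarith), ← hAD']
      nlinarith [mul_nonneg (Nat.cast_nonneg (α := ℝ) A) τ.im_pos.le, mul_le_mul_of_nonneg_left
        (mul_le_mul hD1 hD1 zero_le_one (by linarith)) (mul_nonneg (Nat.cast_nonneg (α := ℝ) A) τ.im_pos.le)]
    nlinarith [Real.pi_pos]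
  refine (h1.mul h2).congr_left fun τ => ?_
  simp only [Pi.mul_apply, Pi.pow_apply, jConj_apply, h]
  have := qp_ne_zero (aff A B D τ)
  field_simp

theorem esum_jConj_bdd (m : ℕ) :
    IsBoundedAtImInfty (esum (jConj N) (Finset.univ : Finset (Cosets N)) m * qp ^ (N * m)) := by
  rw [esum, Finset.sum_mul]
  refine bdd_sum _ fun S hS => ?_
  rw [pow_mul, ← (Finset.mem_powersetCard.mp hS).2, ← Finset.prod_const, ← Finset.prod_mul_distrib]
  exact bdd_prod S fun q _ => jConj_bdd N q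

theorem esum_jConj_inv (m : ℕ) (γ : SL(2, ℤ)) (τ : ℍ) :
    esum (jConj N) (Finset.univ : Finset (Cosets N)) m (γ • τ) =
      esum (jConj N) (Finset.univ : Finset (Cosets N)) m τ := by
  have h := esum_slash (jConj N) (cperm N γ) 0 γ (conjF_slash (jN_inv N) γ)
    (Finset.univ : Finset (Cosets N)) m
  rw [mul_zero, Finset.map_univ_equiv, slash_zero_eq] at h
  exact congrFun h τ

theorem exists_modEq :
    ∃ c : ℕ → Polynomial ℂ, c 0 = 1 ∧ ∀ (τ : ℍ) (x : ℂ),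
      ∏ q : Cosets N, (x - jConj N q τ) =
        ∑ m ∈ Finset.range (idx N + 1), (c m).eval (jFun τ) * x ^ (idx N - m) := by
  have h : ∀ m : ℕ, ∃ P : Polynomial ℂ, P.natDegree ≤ N * m ∧
      ∀ τ, esum (jConj N) (Finset.univ : Finset (Cosets N)) m τ = P.eval (jFun τ) := fun m =>
    exists_poly_jFun (esum_mdiff _ _ _ (mdiff_jConj N)) (esum_jConj_inv N m) (esum_jConj_bdd N m)
  choose P hP1 hP2 using h
  refine ⟨fun m => if m = 0 then 1 else Polynomial.C ((-1 : ℂ) ^ m) * P m, by simp, fun τ x => ?_⟩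
  have e := congrFun (prod_sub_eq (jConj N) (fun _ => x) (Finset.univ : Finset (Cosets N))) τ
  simp only [Finset.prod_apply, Pi.sub_apply, Finset.sum_apply, Pi.smul_apply, Pi.mul_apply,
    Pi.pow_apply, smul_eq_mul, Finset.card_univ] at e
  rw [e]
  refine Finset.sum_congr rfl fun m _ => ?_
  by_cases hm : m = 0
  · subst hm; simp [esum, idx]
  · simp only []
    rw [if_neg hm, Polynomial.eval_mul, Polynomial.eval_C, ← hP2]
    show _ = _ * x ^ (Fintype.card (Cosets N) - m)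
    ring

theorem jConj_q₁ : jConj N (q₁ N) = jN N := conjF_q₁ (jN_inv N)

/-- the multiset of conjugate values depends only on j(τ) -/
theorem exists_conj_eq {τ₁ τ₂ : ℍ} (h : jFun τ₁ = jFun τ₂) :
    ∃ γ : SL(2, ℤ), jFun (scale N τ₂) = jFun (scale N (γ • τ₁)) := by
  obtain ⟨c, -, hc⟩ := exists_modEq N
  have h2 : ∏ q : Cosets N, (jN N τ₂ - jConj N q τ₂) = 0 :=
    Finset.prod_eq_zero (Finset.mem_univ (q₁ N)) (by rw [jConj_q₁, sub_self])
  rw [hc, ← h, ← hc τ₁] at h2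
  obtain ⟨q, -, hq⟩ := Finset.prod_eq_zero_iff.mp h2
  exact ⟨q.out⁻¹, (sub_eq_zero.mp hq).trans (jConj_apply N q τ₁)⟩

end FLTAgent.ModFun
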