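import Fermat.Agent.ModFun.Mero

/-!
The q-expansions of E₄ and Δ match the formal series of the prelude.
-/

set_option autoImplicit false

noncomputable section

open UpperHalfPlane ModularCurve Filter
open scoped Manifold Topology Real ArithmeticFunction.sigma PowerSeries.WithPiTopology

namespace FLTAgent.ModFun

theorem qx_E4 : qx (ModularForm.E₄ : ℍ → ℂ) = eisenstein4.map (Int.castRingHom ℂ) := by
  ext m
  rw [qx, PowerSeries.coeff_map, ModularForm.E₄, EisensteinSeries.E_qExpansion_coeff _ ⟨2, rfl⟩,
    eisenstein4, PowerSeries.coeff_mk]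
  have hb : bernoulli 4 = -1 / 30 := by
    rw [bernoulli_eq_bernoulli'_of_ne_one (by norm_num), bernoulli'_four]
  rcases eq_or_ne m 0 with rfl | hm
  · simp
  · rw [if_neg hm, if_neg hm, hb, ArithmeticFunction.sigma_apply]
    push_cast
    norm_num

/-- the product of (1 - q^(n+1)) as a function of q -/
def etaP (q : ℂ) : ℂ := ∏' n : ℕ, (1 - q ^ (n + 1))

/-- partial products -/
def etaPartial (M : ℕ) : Polynomial ℂ := ∏ i ∈ Finset.range M, (1 - Polynomial.X ^ (i + 1))

theorem tendsto_etaPartial :
    TendstoLocallyUniformlyOn (fun M q => (etaPartial M).eval q) etaP atTop (Metric.ball 0 1) := by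
  have h := ModularForm.multipliableLocallyUniformlyOn_one_sub_pow.hasProdLocallyUniformlyOn
  have h2 := HasProdLocallyUniformlyOn.tendstoLocallyUniformlyOn_finsetRange h
  convert h2 using 2 with M
  · funext q
    simp [etaPartial, Polynomial.eval_prod]
  · rfl

theorem iterDeriv_poly (p : Polynomial ℂ) (n : ℕ) :
    deriv^[n] (fun q => p.eval q) = fun q => (Polynomial.derivative^[n] p).eval q := by
  induction n with
  | zero => rfl
  | succ n ih =>
    rw [Function.iterate_succ_apply', ih, Function.iterate_succ_apply']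
    funext q
    exact Polynomial.deriv _

theorem iteratedDeriv_poly_zero (p : Polynomial ℂ) (n : ℕ) :
    iteratedDeriv n (fun q => p.eval q) 0 = n.factorial * p.coeff n := by
  rw [iteratedDeriv_eq_iterate, iterDeriv_poly]
  simp [← Polynomial.coeff_zero_eq_eval_zero, Polynomial.coeff_iterate_derivative,
    Nat.descFactorial_self]

theorem tendsto_iteratedDeriv (n : ℕ) :
    TendstoLocallyUniformlyOn (fun M => iteratedDeriv n (fun q => (etaPartial M).eval q))
      (iteratedDeriv n etaP) atTop (Metric.ball 0 1) := by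
  induction n with
  | zero => simpa using tendsto_etaPartial
  | succ n ih =>
    simp only [iteratedDeriv_succ]
    refine ih.deriv (Eventually.of_forall fun M => ?_) Metric.isOpen_ball
    rw [iteratedDeriv_eq_iterate, iterDeriv_poly]
    exact (Polynomial.differentiable _).differentiableOn

theorem etaPartial_coeff_eventually (n : ℕ) :
    ∀ᶠ M in atTop, (etaPartial M).coeff n = ((etaProd.coeff n : ℤ) : ℂ) := by
  have h := ((PowerSeries.WithPiTopology.multipliable_one_sub_X_pow ℤ).hasProd.tendsto_prod_nat)
  rw [PowerSeries.WithPiTopology.tendsto_iff_coeff_tendsto] at h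
  have h2 := h n
  rw [nhds_discrete, tendsto_pure] at h2
  filter_upwards [h2] with M hM
  have e : (etaPartial M : PowerSeries ℂ) =
      PowerSeries.map (Int.castRingHom ℂ) (∏ i ∈ Finset.range M, (1 - PowerSeries.X ^ (i + 1))) := by
    simp only [etaPartial, map_prod, map_sub, map_one, map_pow, PowerSeries.map_X]
    rw [← Polynomial.coeToPowerSeries.ringHom_apply, map_prod]
    simp
  rw [← Polynomial.coeff_coe, e, PowerSeries.coeff_map, hM]
  rfl

theorem iteratedDeriv_etaP (n : ℕ) :
    iteratedDeriv n etaP 0 = n.factorial * ((etaProd.coeff n : ℤ) : ℂ) := by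
  have h1 := (tendsto_iteratedDeriv n).tendsto_at (Metric.mem_ball_self one_pos)
  simp only [iteratedDeriv_poly_zero] at h1
  refine tendsto_nhds_unique h1 (Tendsto.congr' ?_ tendsto_const_nhds)
  filter_upwards [etaPartial_coeff_eventually n] with M hM
  rw [hM]

/-- τ ↦ ∏ (1 - q^(n+1)) -/
def etaFn : ℍ → ℂ := fun τ => etaP (qp τ)

theorem norm_qp_lt_one (τ : ℍ) : ‖qp τ‖ < 1 :=
  Function.Periodic.norm_qParam_lt_one one_pos τ.im_pos

theorem differentiableOn_etaP : DifferentiableOn ℂ etaP (Metric.ball 0 1) :=
  ModularForm.differentiableOn_tprod_one_sub_pow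

theorem good_etaFn : Good etaFn where
  per := by
    intro z
    simp only [Function.comp_apply, etaFn]
    congr 1
    exact good_qp.per z
  holo := by
    have h := mdiff_qp
    rw [UpperHalfPlane.mdifferentiable_iff] at h ⊢
    exact differentiableOn_etaP.comp h fun z _ => by simpa using norm_qp_lt_one _
  bdd := by
    have hc : ContinuousAt etaP 0 :=
      (differentiableOn_etaP.differentiableAt (Metric.ball_mem_nhds 0 one_pos)).continuousAt
    exact (hc.tendsto.comp (qParam_tendsto_atImInfty one_pos)).isBigO_one ℝ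

theorem qx_etaFn : qx etaFn = etaProd.map (Int.castRingHom ℂ) := by
  rw [coeff_unique' good_etaFn (c := fun n => ((etaProd.coeff n : ℤ) : ℂ)) ?_]
  · ext n; simp
  intro τ
  have h := Complex.hasSum_taylorSeries_on_ball differentiableOn_etaP
    (z := qp τ) (by simpa using norm_qp_lt_one τ)
  show HasSum _ (etaP (qp τ))
  refine HasSum.congr_fun h fun n => ?_
  rw [iteratedDeriv_etaP, sub_zero, smul_eq_mul, smul_eq_mul]
  have : (n.factorial : ℂ) ≠ 0 := by exact_mod_cast n.factorial_ne_zero
  field_simp

theorem discriminant_eq : ModularForm.discriminant = qp * etaFn ^ 24 := by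
  funext τ
  rw [ModularForm.discriminant_eq_q_prod, Pi.mul_apply, Pi.pow_apply, etaFn, etaP]
  congr 1
  exact (ModularForm.multipliable_one_sub_pow (norm_qp_lt_one τ)).tprod_pow 24

theorem qx_discriminant :
    qx ModularForm.discriminant = PowerSeries.X * dedekindEtaUnit.map (Int.castRingHom ℂ) := by
  rw [discriminant_eq, Good.qx_mul good_qp (good_etaFn.pow 24), qx_qp, Good.qx_pow good_etaFn,
    qx_etaFn, dedekindEtaUnit, map_pow]

theorem tendsto_etaFn : Tendsto etaFn atImInfty (𝓝 1) := by
  have hc : ContinuousAt etaP 0 :=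
    (differentiableOn_etaP.differentiableAt (Metric.ball_mem_nhds 0 one_pos)).continuousAt
  have h0 : etaP 0 = 1 := by simp [etaP]
  have := hc.tendsto.comp (qParam_tendsto_atImInfty one_pos)
  rwa [h0] at this

end FLTAgent.ModFun
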