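import Fermat.Agent.ModFun.Integral
import Fermat.Agent.ModFun.EtaProd
import Fermat.Prelude.Def_ModularCurve_ArithmeticGalois

/-!
The j-function: expansion, invariance, weakly holomorphic level one functions, transfer.
-/

set_option autoImplicit false

noncomputable section

open UpperHalfPlane CongruenceSubgroup ModularCurve Filter
open scoped MatrixGroups Manifold Topology Real ModularForm

namespace FLTAgent.ModFun

/-- the j-invariant -/
def jFun (τ : ℍ) : ℂ := (ModularForm.E₄ τ) ^ 3 / ModularForm.discriminant τ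

theorem isMF_E4 : IsMF 1 4 (ModularForm.E₄ : ℍ → ℂ) := isMF_levelOne ModularForm.E₄

theorem isMF_delta : IsMF 1 12 ModularForm.discriminant := RatMF.isMF delta_mem

theorem jFun_smul (γ : SL(2, ℤ)) (τ : ℍ) : jFun (γ • τ) = jFun τ := by
  have hd : denom (γ : GL (Fin 2) ℝ) τ ≠ 0 := denom_ne_zero _ τ
  rw [jFun, jFun, apply_smul_of_levelOne isMF_E4, apply_smul_of_levelOne isMF_delta, mul_pow,
    ← zpow_natCast (denom _ _ ^ (4 : ℤ)), ← zpow_mul,
    show (4 : ℤ) * ((3 : ℕ) : ℤ) = 12 by norm_num, mul_div_mul_left _ _ (zpow_ne_zero _ hd)]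

theorem mdiff_jFun : MDiff jFun :=
  (isMF_E4.holo.pow 3).div isMF_delta.holo ModularForm.discriminant_ne_zero

theorem jFun_mul_delta : jFun * ModularForm.discriminant = (ModularForm.E₄ : ℍ → ℂ) ^ 3 := by
  funext τ
  simp [jFun, div_mul_cancel₀ _ (ModularForm.discriminant_ne_zero τ)]

theorem tendsto_E4 : Tendsto (ModularForm.E₄ : ℍ → ℂ) atImInfty (𝓝 1) := by
  have := isMF_E4.good.tendsto_coeff_zero
  rwa [qx, EisensteinSeries.E_qExpansion_coeff_zero _ ⟨2, rfl⟩] at this

theorem tendsto_jFun_mul_qp : Tendsto (fun τ => jFun τ * qp τ) atImInfty (𝓝 1) := by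
  have e : (fun τ => jFun τ * qp τ) = fun τ => (ModularForm.E₄ τ) ^ 3 / etaFn τ ^ 24 := by
    funext τ
    have hq := qp_ne_zero τ
    rw [jFun, discriminant_eq, Pi.mul_apply, Pi.pow_apply]
    field_simp
  rw [e]
  simpa using! (tendsto_E4.pow 3).div (tendsto_etaFn.pow 24) (by norm_num)

theorem per_of_SL {f : ℍ → ℂ} (h : ∀ (γ : SL(2, ℤ)) τ, f (γ • τ) = f τ) :
    Function.Periodic (f ∘ ofComplex) 1 :=
  periodic_ofComplex_of fun z hz hz' => by
    have e : (⟨z + 1, hz'⟩ : ℍ) = ModularGroup.T • (⟨z, hz⟩ : ℍ) := by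
      ext
      rw [UpperHalfPlane.modular_T_smul]
      simp [add_comm]
    rw [e, h]

theorem mod1_jFun : Mod1 jFun := by
  refine ⟨per_of_SL jFun_smul, mdiff_jFun, 1, ?_⟩
  rw [pow_one]
  exact tendsto_jFun_mul_qp.isBigO_one ℝ

/-- j in the algebra M1 -/
def jM : M1 := ⟨jFun, mod1_jFun⟩

/-- j(dτ) in the algebra M1 -/
def jdM (d : ℕ) [NeZero d] : M1 := ⟨dil d jFun, mod1_dil mod1_jFun d⟩

theorem coeffMap_ofPowerSeries {R S : Type*} [CommRing R] [CommRing S] (f : R →+* S)
    (P : PowerSeries R) :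
    coeffMap f (HahnSeries.ofPowerSeries ℤ R P) = HahnSeries.ofPowerSeries ℤ S (P.map f) := by
  ext k
  rw [coeffMap_coeff]
  rcases lt_or_ge k 0 with hk | hk
  · rw [ofPowerSeries_coeff_of_neg _ hk, ofPowerSeries_coeff_of_neg _ hk, map_zero]
  lift k to ℕ using hk
  rw [HahnSeries.ofPowerSeries_apply_coeff, HahnSeries.ofPowerSeries_apply_coeff,
    PowerSeries.coeff_map]

theorem lx_good {f : ℍ → ℂ} (hf : Good f) :
    lx ⟨f, hf.mod1⟩ = HahnSeries.ofPowerSeries ℤ ℂ (qx f) := Lx_of_good hf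

theorem lx_jM : lx jM = coeffEmb ℂ jq := by
  have hD := isMF_delta.good
  have hE := isMF_E4.good
  have h : jM * (⟨_, hD.mod1⟩ : M1) = (⟨_, hE.mod1⟩ : M1) ^ 3 := Subtype.ext jFun_mul_delta
  have h1 := congrArg lx h
  rw [map_mul, map_pow, lx_good hD, lx_good hE, qx_discriminant, qx_E4, map_mul] at h1
  set φ := Int.castRingHom ℂ
  have hu : dedekindEtaUnit.map φ * dedekindEtaUnitInv.map φ = 1 := by
    rw [← map_mul, dedekindEtaUnit_mul_inv, map_one]
  have hjq : coeffEmb ℂ jq = HahnSeries.single (-1 : ℤ) 1 *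
      HahnSeries.ofPowerSeries ℤ ℂ (jNum.map φ) := by
    rw [coeffEmb, jq, map_mul, coeffMap_single, map_one, coeffMap_ofPowerSeries, jNumQ]
    congr 2
  rw [hjq, jNum, map_mul, map_pow, map_mul, map_pow, ← h1, HahnSeries.ofPowerSeries_X]
  calc lx jM = (HahnSeries.single (-1 : ℤ) (1 : ℂ) * HahnSeries.single (1 : ℤ) 1) *
        HahnSeries.ofPowerSeries ℤ ℂ (dedekindEtaUnit.map φ * dedekindEtaUnitInv.map φ) * lx jM := by
        rw [hu, HahnSeries.single_mul_single]
        simp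
    _ = _ := by rw [map_mul]; ring

theorem coeffMap_qExpand {R S : Type*} [CommRing R] [CommRing S] (f : R →+* S) (n : ℕ) [NeZero n]
    (x : LaurentSeries R) : coeffMap f (qExpand R n x) = qExpand S n (coeffMap f x) := by
  ext k
  rw [coeffMap_coeff]
  by_cases hk : (n : ℤ) ∣ k
  · obtain ⟨j, rfl⟩ := hk
    rw [qExpand_coeff_mul, qExpand_coeff_mul, coeffMap_coeff]
  · rw [qExpand_coeff_of_not_dvd _ _ hk, qExpand_coeff_of_not_dvd _ _ hk, map_zero]

theorem lx_jdM (d : ℕ) [NeZero d] : lx (jdM d) = coeffEmb ℂ (qExpand ℚ d jq) := by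
  have : jdM d = ⟨dil d (jM : ℍ → ℂ), mod1_dil jM.2 d⟩ := rfl
  rw [this, lx_dil, lx_jM, coeffEmb, ← coeffMap_qExpand]

/-- evaluation of elements of M1 at a point -/
def evalM (τ : ℍ) : M1 →ₐ[ℂ] ℂ :=
  (Pi.evalAlgHom ℂ (fun _ : ℍ => ℂ) τ).comp M1.val

theorem evalM_apply (τ : ℍ) (f : M1) : evalM τ f = (f : ℍ → ℂ) τ := rfl

/-- polynomial relations between the q-series are relations between functions -/
theorem transfer {ι : Type*} (d : ι → ℕ) [∀ i, NeZero (d i)] (P : MvPolynomial ι ℂ) :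
    MvPolynomial.aeval (fun i => coeffEmb ℂ (qExpand ℚ (d i) jq)) P = 0 ↔
      ∀ τ : ℍ, MvPolynomial.eval (fun i => jFun (scale (d i) τ)) P = 0 := by
  have h : MvPolynomial.aeval (fun i => coeffEmb ℂ (qExpand ℚ (d i) jq)) P =
      lx (MvPolynomial.aeval (fun i => jdM (d i)) P) := by
    simp only [← lx_jdM]
    exact (MvPolynomial.comp_aeval_apply _ lx P).symm
  rw [h, map_eq_zero_iff _ lx_injective]
  have hev : ∀ τ, evalM τ (MvPolynomial.aeval (fun i => jdM (d i)) P) =
      MvPolynomial.eval (fun i => jFun (scale (d i) τ)) P := fun τ => by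
    rw [MvPolynomial.comp_aeval_apply, MvPolynomial.aeval_eq_eval₂Hom]
    rfl
  constructor
  · intro h0 τ
    rw [← hev, h0, map_zero]
  · intro h0
    refine Subtype.ext (funext fun τ => ?_)
    rw [← evalM_apply, hev, h0]
    rfl

theorem coeffMap_coeffEmb_comp {L M : Type*} [Field L] [Algebra ℚ L] [Field M] [Algebra ℚ M]
    (e : L →+* M) (x : LaurentSeries ℚ) : coeffMap e (coeffEmb L x) = coeffEmb M x := by
  rw [coeffEmb, coeffEmb, coeffMap_coeffMap]
  exact coeffMap_congr (Subsingleton.elim _ _) x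

/-- the same over an algebraic closure of ℚ -/
theorem transferBar (e : AlgebraicClosure ℚ →+* ℂ) {ι : Type*} (d : ι → ℕ) [∀ i, NeZero (d i)]
    (P : MvPolynomial ι (AlgebraicClosure ℚ)) :
    MvPolynomial.aeval (fun i => coeffEmb (AlgebraicClosure ℚ) (qExpand ℚ (d i) jq)) P = 0 ↔
      ∀ τ : ℍ, MvPolynomial.eval (fun i => jFun (scale (d i) τ)) (MvPolynomial.map e P) = 0 := by
  rw [← transfer d (MvPolynomial.map e P),
    ← map_eq_zero_iff (coeffMap e) (fun a b hab => HahnSeries.ext (funext fun k => e.injective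
      (by simpa using congrArg (fun x : LaurentSeries ℂ => x.coeff k) hab)))]
  have : coeffMap e (MvPolynomial.aeval (fun i => coeffEmb (AlgebraicClosure ℚ) (qExpand ℚ (d i) jq)) P) =
      MvPolynomial.aeval (fun i => coeffEmb ℂ (qExpand ℚ (d i) jq)) (MvPolynomial.map e P) := by
    induction P using MvPolynomial.induction_on with
    | C a =>
      rw [MvPolynomial.map_C, MvPolynomial.aeval_C, MvPolynomial.aeval_C,
        algebraMap_laurentSeries_eq_single, algebraMap_laurentSeries_eq_single, coeffMap_single]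
    | add p q hp hq => simp only [map_add, hp, hq]
    | mul_X p i hp => simp only [map_mul, MvPolynomial.map_X, MvPolynomial.aeval_X, hp,
        coeffMap_coeffEmb_comp]
  rw [this]

theorem slash_zero_eq {f : ℍ → ℂ} (γ : SL(2, ℤ)) : f ∣[(0 : ℤ)] γ = fun τ => f (γ • τ) := by
  funext τ
  simp [ModularForm.SL_slash_apply]

theorem levelOne_polyJ (m : ℕ) :
    ∀ G : ℍ → ℂ, IsMF 1 (12 * m) G → ∃ P : Polynomial ℂ, P.natDegree ≤ m ∧
      ∀ τ, G τ = P.eval (jFun τ) * ModularForm.discriminant τ ^ m := by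
  induction m with
  | zero =>
    intro G hG
    obtain ⟨c, hc⟩ := ModularForm.eq_const_of_weight_zero ((hG.cast (by simp) : IsMF 1 0 G).toLevelOne)
    refine ⟨Polynomial.C c, by simp, fun τ => ?_⟩
    rw [IsMF.coe_toLevelOne] at hc
    simp [hc]
  | succ m ih =>
    intro G hG
    have hM : IsMF 1 (12 * ((m + 1 : ℕ) : ℤ)) ((ModularForm.E₄ : ℍ → ℂ) ^ (3 * (m + 1))) :=
      (isMF_E4.pow _).cast (by push_cast; ring)
    set c := (qx G).coeff 0
    have hH : IsMF 1 (12 * ((m + 1 : ℕ) : ℤ)) (G - c • (ModularForm.E₄ : ℍ → ℂ) ^ (3 * (m + 1))) :=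
      Submodule.sub_mem (MF 1 _) hG (Submodule.smul_mem (MF 1 _) c hM)
    have h0 : (UpperHalfPlane.qExpansion 1 hH.toLevelOne).coeff 0 = 0 := by
      rw [IsMF.coe_toLevelOne]
      show (qx (G - c • (ModularForm.E₄ : ℍ → ℂ) ^ (3 * (m + 1)))).coeff 0 = 0
      rw [Good.qx_sub hG.good (hM.good.smul c), Good.qx_smul c hM.good, Good.qx_pow isMF_E4.good,
        map_sub, PowerSeries.coeff_smul, PowerSeries.coeff_zero_eq_constantCoeff, map_pow,
        ← PowerSeries.coeff_zero_eq_constantCoeff, qx, qx,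
        EisensteinSeries.E_qExpansion_coeff_zero _ ⟨2, rfl⟩]
      simp [c]
    let K := CuspForm.discriminantEquiv (ModularForm.toCuspForm hH.toLevelOne h0)
    have hK : IsMF 1 (12 * (m : ℤ)) (K : ℍ → ℂ) :=
      (isMF_levelOne K).cast (by push_cast; ring)
    obtain ⟨P, hP, hPe⟩ := ih _ hK
    refine ⟨P + Polynomial.C c * Polynomial.X ^ (m + 1), ?_, fun τ => ?_⟩
    · refine (Polynomial.natDegree_add_le _ _).trans (max_le (hP.trans (by omega)) ?_)
      exact (Polynomial.natDegree_C_mul_X_pow_le _ _)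
    · have h1 : ModularForm.discriminant τ * K τ =
          G τ - c * (ModularForm.E₄ τ) ^ (3 * (m + 1)) :=
        (ModularForm.discriminant_mul_discriminantEquiv_apply _ τ).trans rfl
      rw [hPe] at h1
      rw [Polynomial.eval_add, Polynomial.eval_C_mul, Polynomial.eval_X_pow, add_mul, mul_assoc,
        ← mul_pow, show jFun τ * ModularForm.discriminant τ = ModularForm.E₄ τ ^ 3 from
          congrFun jFun_mul_delta τ, ← pow_mul, pow_succ]
      linear_combination (-1 : ℂ) * h1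

/-- A level one invariant holomorphic function of moderate growth is a polynomial in j. -/
theorem exists_poly_jFun {f : ℍ → ℂ} (hf : MDiff f) (hinv : ∀ (γ : SL(2, ℤ)) τ, f (γ • τ) = f τ)
    {m : ℕ} (hm : IsBoundedAtImInfty (f * qp ^ m)) :
    ∃ P : Polynomial ℂ, P.natDegree ≤ m ∧ ∀ τ, f τ = P.eval (jFun τ) := by
  have hb : IsBoundedAtImInfty (f * ModularForm.discriminant ^ m) := by
    rw [discriminant_eq, mul_pow, ← mul_assoc]
    exact hm.mul ((good_etaFn.pow 24).pow m).bdd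
  have hG : IsMF 1 (12 * (m : ℤ)) (f * ModularForm.discriminant ^ m) := by
    refine isMF_one_of (hf.mul (isMF_delta.holo.pow m)) (fun γ => ?_) hb
    rw [show (12 : ℤ) * (m : ℤ) = 0 + (m : ℤ) * 12 by ring, ModularForm.mul_slash_SL2, slash_zero_eq,
      (isMF_delta.pow m).inv γ (mem_Gamma0_one γ)]
    congr 1
    exact funext (hinv γ)
  obtain ⟨P, hP, hPe⟩ := levelOne_polyJ m _ hG
  refine ⟨P, hP, fun τ => ?_⟩
  have := hPe τ
  simp only [Pi.mul_apply, Pi.pow_apply] at this
  exact mul_right_cancel₀ (pow_ne_zero _ (ModularForm.discriminant_ne_zero τ)) this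

end FLTAgent.ModFun
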