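import Fermat.Agent.ModFun.Dilate

/-!
Symmetric functions of the conjugates over level one; Lagrange interpolation.
-/

set_option autoImplicit false

noncomputable section

open UpperHalfPlane CongruenceSubgroup ModularForm Filter
open scoped MatrixGroups Manifold Topology

namespace FLTAgent.ModFun

/-- the cosets of Γ₀(N) -/
abbrev Cosets (N : ℕ) : Type := SL(2, ℤ) ⧸ Gamma0 N

noncomputable instance (priority := high) cosetsDecEq (N : ℕ) : DecidableEq (Cosets N) :=
  Classical.decEq _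

noncomputable instance cosetsFintype (N : ℕ) [NeZero N] : Fintype (Cosets N) :=
  Fintype.ofFinite _

variable {N : ℕ}

/-- the identity coset -/
def q₁ (N : ℕ) : Cosets N := QuotientGroup.mk 1

/-- conjugates of a function -/
def conjF (k : ℤ) (f : ℍ → ℂ) (q : Cosets N) : ℍ → ℂ := f ∣[k] (q.out)⁻¹

variable {k w : ℤ} {f : ℍ → ℂ}

theorem conjF_mk (hf : ∀ γ ∈ Gamma0 N, f ∣[k] γ = f) (g : SL(2, ℤ)) :
    conjF k f (QuotientGroup.mk g : Cosets N) = f ∣[k] g⁻¹ := by
  obtain ⟨h, hh⟩ := QuotientGroup.mk_out_eq_mul (Gamma0 N) g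
  rw [conjF, hh, mul_inv_rev, SlashAction.slash_mul, hf _ (inv_mem h.2)]

theorem conjF_q₁ (hf : ∀ γ ∈ Gamma0 N, f ∣[k] γ = f) : conjF k f (q₁ N) = f := by
  rw [q₁, conjF_mk hf, inv_one, SlashAction.slash_one]

/-- the permutation by which γ acts on conjugates -/
def cperm (N : ℕ) (γ : SL(2, ℤ)) : Equiv.Perm (Cosets N) := MulAction.toPerm γ⁻¹

theorem conjF_slash (hf : ∀ γ ∈ Gamma0 N, f ∣[k] γ = f) (γ : SL(2, ℤ)) (q : Cosets N) :
    conjF k f q ∣[k] γ = conjF k f (cperm N γ q) := by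
  have : cperm N γ q = (QuotientGroup.mk (γ⁻¹ * q.out) : Cosets N) := by
    show γ⁻¹ • q = _
    conv_lhs => rw [← QuotientGroup.out_eq' q]
    rfl
  rw [this, conjF_mk hf, mul_inv_rev, inv_inv, conjF, SlashAction.slash_mul]

theorem prod_slash' {ι : Type*} (g : ι → ℍ → ℂ) (s : Finset ι) (k : ℤ) (γ : SL(2, ℤ)) :
    (∏ i ∈ s, g i) ∣[(s.card : ℤ) * k] γ = ∏ i ∈ s, (g i ∣[k] γ) := by
  classical
  induction s using Finset.induction_on with
  | empty => simp [is_invariant_one]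
  | insert a s ha ih =>
    rw [Finset.prod_insert ha, Finset.prod_insert ha, Finset.card_insert_of_notMem ha,
      show (((s.card + 1 : ℕ) : ℤ)) * k = k + (s.card : ℤ) * k by push_cast; ring, mul_slash_SL2, ih]

/-- sums over m-element subsets of products -/
def esum {ι : Type*} (g : ι → ℍ → ℂ) (s : Finset ι) (m : ℕ) : ℍ → ℂ :=
  ∑ S ∈ s.powersetCard m, ∏ i ∈ S, g i

theorem esum_slash {ι : Type*} (g : ι → ℍ → ℂ) (π : Equiv.Perm ι) (k : ℤ) (γ : SL(2, ℤ))
    (h : ∀ i, g i ∣[k] γ = g (π i)) (s : Finset ι) (m : ℕ) :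
    esum g s m ∣[(m : ℤ) * k] γ = esum g (s.map π.toEmbedding) m := by
  rw [esum, esum, SlashAction.sum_slash, Finset.powersetCard_map, Finset.sum_map]
  refine Finset.sum_congr rfl fun S hS => ?_
  rw [← (Finset.mem_powersetCard.mp hS).2, prod_slash' g S k γ]
  show _ = ∏ i ∈ S.map π.toEmbedding, g i
  rw [Finset.prod_map]
  exact Finset.prod_congr rfl fun i _ => h i

theorem prod_sub_eq {ι : Type*} (g : ι → ℍ → ℂ) (x : ℍ → ℂ) (s : Finset ι) :
    ∏ i ∈ s, (x - g i) =
      ∑ m ∈ Finset.range (s.card + 1), ((-1 : ℂ) ^ m) • (x ^ (s.card - m) * esum g s m) := by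
  classical
  rw [Finset.prod_sub, Finset.sum_powerset]
  refine Finset.sum_congr rfl fun m _ => ?_
  rw [esum, Finset.mul_sum, Finset.smul_sum]
  refine Finset.sum_congr rfl fun t ht => ?_
  obtain ⟨h1, h2⟩ := Finset.mem_powersetCard.mp ht
  rw [Finset.prod_const, Finset.card_sdiff_of_subset h1, h2]
  funext τ
  simp [mul_assoc]

theorem mdiff_sum {ι : Type*} (s : Finset ι) {F : ι → ℍ → ℂ} (h : ∀ i ∈ s, MDiff (F i)) :
    MDiff (∑ i ∈ s, F i) :=
  Finset.sum_induction F (fun f => MDiff f) (fun _ _ ha hb => ha.add hb)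
    mdifferentiable_const h

theorem mdiff_prod {ι : Type*} (s : Finset ι) {F : ι → ℍ → ℂ} (h : ∀ i ∈ s, MDiff (F i)) :
    MDiff (∏ i ∈ s, F i) :=
  Finset.prod_induction F (fun f => MDiff f) (fun _ _ ha hb => ha.mul hb)
    mdifferentiable_const h

theorem bdd_sum {ι : Type*} (s : Finset ι) {F : ι → ℍ → ℂ}
    (h : ∀ i ∈ s, IsBoundedAtImInfty (F i)) : IsBoundedAtImInfty (∑ i ∈ s, F i) :=
  Finset.sum_induction F IsBoundedAtImInfty (fun _ _ ha hb => ha.add hb)
    zero_form_isBoundedAtImInfty h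

theorem bdd_prod {ι : Type*} (s : Finset ι) {F : ι → ℍ → ℂ}
    (h : ∀ i ∈ s, IsBoundedAtImInfty (F i)) : IsBoundedAtImInfty (∏ i ∈ s, F i) :=
  Finset.prod_induction F IsBoundedAtImInfty (fun _ _ ha hb => ha.mul hb)
    (Filter.const_boundedAtFilter _ (1 : ℂ)) h

theorem esum_mdiff {ι : Type*} (g : ι → ℍ → ℂ) (s : Finset ι) (m : ℕ) (h : ∀ i, MDiff (g i)) :
    MDiff (esum g s m) := mdiff_sum _ fun S _ => mdiff_prod S fun i _ => h i

theorem esum_bdd {ι : Type*} (g : ι → ℍ → ℂ) (s : Finset ι) (m : ℕ)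
    (h : ∀ i, IsBoundedAtImInfty (g i)) : IsBoundedAtImInfty (esum g s m) :=
  bdd_sum _ fun S _ => bdd_prod S fun i _ => h i

theorem esum_zero {ι : Type*} (g : ι → ℍ → ℂ) (s : Finset ι) {m : ℕ} (hm : m ≠ 0)
    (h : ∀ i, IsZeroAtImInfty (g i)) : IsZeroAtImInfty (esum g s m) := by
  classical
  have hS : ∀ S ∈ s.powersetCard m, IsZeroAtImInfty (∏ i ∈ S, g i) := by
    intro S hS
    obtain ⟨i, hi⟩ : S.Nonempty := Finset.card_pos.mp (by
      rw [(Finset.mem_powersetCard.mp hS).2]; omega)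
    rw [← Finset.mul_prod_erase S g hi]
    exact (h i).mul_boundedAtFilter (bdd_prod _ fun j _ => (h j).boundedAtFilter)
  exact Finset.sum_induction _ IsZeroAtImInfty (fun _ _ ha hb => ha.add hb)
    (Filter.zero_zeroAtFilter atImInfty) hS

theorem isMF_one_of {f : ℍ → ℂ} (h1 : MDiff f) (h2 : ∀ γ : SL(2, ℤ), f ∣[w] γ = f)
    (h3 : IsBoundedAtImInfty f) : IsMF 1 w f :=
  ⟨h1, fun γ _ => h2 γ, fun γ => by rw [h2]; exact h3⟩

variable [NeZero N]

/-- the number of cosets -/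
def idx (N : ℕ) [NeZero N] : ℕ := Fintype.card (Cosets N)

theorem idx_pos (N : ℕ) [NeZero N] : 0 < idx N := Fintype.card_pos

theorem card_erase_cosets [DecidableEq (Cosets N)] (q : Cosets N) :
    (Finset.univ.erase q).card = idx N - 1 := by
  rw [Finset.card_erase_of_mem (Finset.mem_univ q), Finset.card_univ]; rfl

/-- the form of weight k + 12m appearing in interpolation -/
def interpA (N : ℕ) [NeZero N] (k : ℤ) (f : ℍ → ℂ) (m : ℕ) : ℍ → ℂ :=
  ∑ q : Cosets N, conjF k f q * esum (conjF 12 (gN N)) (Finset.univ.erase q) m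

theorem interpA_mem (hf : IsMF N k f) (m : ℕ) : interpA N k f m ∈ RatMF 1 (k + (m : ℤ) * 12) := by
  classical
  have hg := isMF_gN N
  refine levelOne_rat (isMF_one_of ?_ ?_ ?_)
  · exact mdiff_sum _ fun q _ => (mdiff_slash hf.holo k _).mul
      (esum_mdiff _ _ _ fun i => mdiff_slash hg.holo 12 _)
  · intro γ
    rw [interpA, SlashAction.sum_slash]
    refine Finset.sum_equiv (cperm N γ) (by simp) fun q _ => ?_
    rw [mul_slash_SL2, conjF_slash hf.inv, esum_slash _ (cperm N γ) 12 γ (conjF_slash hg.inv γ),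
      Finset.map_erase, Finset.map_univ_equiv]
    rfl
  · exact bdd_sum _ fun q _ => (hf.bdd _).mul (esum_bdd _ _ _ fun i => hg.bdd _)

/-- the denominator in interpolation -/
def interpD (N : ℕ) [NeZero N] : ℍ → ℂ :=
  ∏ r ∈ Finset.univ.erase (q₁ N), (gN N - conjF 12 (gN N) r)

theorem interpD_ne_zero (N : ℕ) [NeZero N] : interpD N ≠ 0 := by
  classical
  intro h
  have hg := isMF_gN N
  rw [interpD, UpperHalfPlane.prod_eq_zero_iff] at h
  · obtain ⟨r, hr, hr0⟩ := h
    have : (r.out)⁻¹ ∈ Gamma0 N := gN_stab N (sub_eq_zero.mp hr0).symm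
    refine Finset.ne_of_mem_erase hr ?_
    rw [← QuotientGroup.out_eq' r, q₁, QuotientGroup.eq]
    simpa using this
  · exact fun r _ => hg.holo.sub (mdiff_slash hg.holo 12 _)

theorem interp_eq (hf : IsMF N k f) :
    f * interpD N = ∑ m ∈ Finset.range (idx N),
      ((-1 : ℂ) ^ m) • (gN N ^ (idx N - 1 - m) * interpA N k f m) := by
  classical
  have hg := isMF_gN N
  have h1 : f * interpD N = ∑ q : Cosets N,
      conjF k f q * ∏ r ∈ Finset.univ.erase q, (gN N - conjF 12 (gN N) r) := by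
    rw [Finset.sum_eq_single_of_mem (q₁ N) (Finset.mem_univ _), conjF_q₁ hf.inv]
    · rfl
    · intro q _ hq
      rw [Finset.prod_eq_zero (i := q₁ N) (Finset.mem_erase.mpr ⟨Ne.symm hq, Finset.mem_univ _⟩),
        mul_zero]
      rw [conjF_q₁ hg.inv, sub_self]
  rw [h1]
  simp only [prod_sub_eq, card_erase_cosets, Finset.mul_sum]
  rw [Nat.sub_add_cancel (idx_pos N), Finset.sum_comm]
  refine Finset.sum_congr rfl fun m _ => ?_
  rw [interpA, Finset.mul_sum, Finset.smul_sum]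
  refine Finset.sum_congr (by congr 1) fun q _ => ?_
  rw [mul_smul_comm, mul_left_comm]

theorem interp_mem (hf : IsMF N k f) :
    f * interpD N ∈ RatMF N (k + ((idx N - 1 : ℕ) : ℤ) * 12) := by
  rw [interp_eq hf]
  refine Submodule.sum_mem _ fun m hm => Submodule.smul_mem _ _ ?_
  have hm' : m ≤ idx N - 1 := by have := Finset.mem_range.mp hm; omega
  refine RatMF.cast ?_ (RatMF.mul (RatMF.pow (gN_mem N) (idx N - 1 - m))
    (RatMF.levelOne (interpA_mem hf m)))
  rw [Nat.cast_sub hm']; ring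

theorem interpD_mem (N : ℕ) [NeZero N] : interpD N ∈ RatMF N (((idx N - 1 : ℕ) : ℤ) * 12) :=
  RatMF.cast (zero_add _) (by simpa using interp_mem (IsMF.one : IsMF N 0 1))

/-- coefficients of the characteristic polynomial -/
def charC (N : ℕ) [NeZero N] (k : ℤ) (f : ℍ → ℂ) (m : ℕ) : ℍ → ℂ :=
  ((-1 : ℂ) ^ m) • esum (conjF k f) (Finset.univ : Finset (Cosets N)) m

theorem charC_mem (hf : IsMF N k f) (m : ℕ) : charC N k f m ∈ RatMF 1 ((m : ℤ) * k) := by
  refine Submodule.smul_mem _ _ (levelOne_rat (isMF_one_of ?_ ?_ ?_))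
  · exact esum_mdiff _ _ _ fun i => mdiff_slash hf.holo k _
  · intro γ
    rw [esum_slash _ (cperm N γ) k γ (conjF_slash hf.inv γ), Finset.map_univ_equiv]
  · exact esum_bdd _ _ _ fun i => hf.bdd _

theorem charC_zero (hf : IsCF N k f) {m : ℕ} (hm : m ≠ 0) : IsZeroAtImInfty (charC N k f m) :=
  (esum_zero _ _ hm fun _ => hf.zero _).smul _

theorem charC_rel (hf : IsMF N k f) :
    ∑ m ∈ Finset.range (idx N + 1), charC N k f m * f ^ (idx N - m) = 0 := by
  classical
  have h : ∏ q : Cosets N, (f - conjF k f q) = 0 :=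
    Finset.prod_eq_zero (Finset.mem_univ (q₁ N)) (by rw [conjF_q₁ hf.inv, sub_self])
  rw [prod_sub_eq, Finset.card_univ] at h
  refine Eq.trans (Finset.sum_congr rfl fun m _ => ?_) h
  rw [charC, smul_mul_assoc, mul_comm]
  rfl

theorem charC_zero_eq : charC N k f 0 = 1 := by
  simp [charC, esum]

end FLTAgent.ModFun
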