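import Fermat.Agent.ModFun.Integral
import Fermat.Prelude.Def_CuspForm_HeckeAlgebra
import Fermat.Prelude.Thm_CuspForm_intLattice_fg
import Fermat.Prelude.Thm_CuspForm_mem_intLattice_of_mem_heckeAlgebra

/-!
The Hecke algebra is a finitely generated abelian group.
-/

set_option autoImplicit false

noncomputable section

open UpperHalfPlane CongruenceSubgroup
open scoped MatrixGroups

namespace FLTAgent.ModFun

theorem cuspForm_eq_zero_of_nonpos {N : ℕ} [NeZero N] {k : ℤ} (hk : k ≤ 0)
    (f : CuspForm (Gamma0 N) k) : f = 0 := by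
  refine truncC_injective N k ?_
  rw [map_zero]
  funext i
  have h0 : (k * ((Gamma0 N).index : ℤ)).toNat = 0 :=
    Int.toNat_eq_zero.mpr (mul_nonpos_of_nonpos_of_nonneg hk (by positivity))
  have hi : (i : ℕ) = 0 := by
    have h := i.isLt
    simp only [h0] at h
    omega
  show (qx f).coeff (i : ℕ) = 0
  rw [hi]
  have h := (isCF_of_form f)
  exact h.isMF.good.isZero_iff.mp (by simpa using h.zero 1)

theorem moduleFinite_heckeAlgebra (N : ℕ) [NeZero N] (k : ℤ) (S : Set ℕ) :
    Module.Finite ℤ (CuspForm.heckeAlgebra N k S) := by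
  rcases le_or_gt k 0 with hk | hk
  · haveI : Subsingleton (CuspForm.heckeAlgebra N k S) :=
      ⟨fun a b => Subtype.ext (LinearMap.ext fun f => by
        rw [cuspForm_eq_zero_of_nonpos hk f, map_zero, map_zero])⟩
    exact Module.Finite.of_finite
  set L := CuspForm.intLattice N k
  haveI : Module.Finite ℤ L := Module.Finite.iff_fg.mpr (CuspForm.intLattice_fg N k)
  obtain ⟨s, hs⟩ := (Module.Finite.iff_fg.mp (inferInstance : Module.Finite ℤ L))
  let Φ : CuspForm.heckeAlgebra N k S →ₗ[ℤ] (s → L) :=
    { toFun := fun t x => ⟨(t : Module.End ℂ (CuspForm (Gamma0 N) k)) x,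
        CuspForm.mem_intLattice_of_mem_heckeAlgebra (by omega) t.2
          (show (x : CuspForm (Gamma0 N) k) ∈ L by rw [← hs]; exact Submodule.subset_span x.2)⟩
      map_add' := fun a b => by funext x; exact Subtype.ext rfl
      map_smul' := fun c a => by
        funext x
        exact Subtype.ext rfl }
  refine Module.Finite.of_injective Φ fun a b h => ?_
  refine Subtype.ext ?_
  have hspan : Submodule.span ℂ ((L : Submodule ℤ _) : Set (CuspForm (Gamma0 N) k)) = ⊤ :=
    hasIntegralStructure N k
  refine LinearMap.ext_on hspan fun f hf => ?_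
  have hle : L ≤ LinearMap.eqLocus ((a : Module.End ℂ (CuspForm (Gamma0 N) k)).restrictScalars ℤ)
      ((b : Module.End ℂ (CuspForm (Gamma0 N) k)).restrictScalars ℤ) := by
    rw [← hs, Submodule.span_le]
    intro x hx
    exact congrArg Subtype.val (congrFun h ⟨x, hx⟩)
  exact hle hf

end FLTAgent.ModFun
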