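import Fermat.Agent.ModFun.J

/-!
Behaviour of j near the cusp; surjectivity.
-/

set_option autoImplicit false

noncomputable section

open UpperHalfPlane CongruenceSubgroup ModularCurve Filter
open scoped MatrixGroups Manifold Topology Real ModularForm

namespace FLTAgent.ModFun

/-- E₄ as a function of q -/
def E4q : ℂ → ℂ := cuspFunction 1 (ModularForm.E₄ : ℍ → ℂ)

theorem analyticAt_E4q : AnalyticAt ℂ E4q 0 := isMF_E4.good.analytic

theorem E4q_zero : E4q 0 = 1 := by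
  have h := EisensteinSeries.E_qExpansion_coeff_zero (k := 4) (by norm_num) ⟨2, rfl⟩
  rw [UpperHalfPlane.qExpansion_coeff] at h
  simpa [E4q] using h

theorem E4q_qp (τ : ℍ) : E4q (qp τ) = ModularForm.E₄ τ :=
  eq_cuspFunction τ one_ne_zero (by simpa using isMF_E4.good.per)

theorem analyticAt_etaP : AnalyticAt ℂ etaP 0 :=
  differentiableOn_etaP.analyticAt (Metric.ball_mem_nhds 0 one_pos)

theorem etaP_zero : etaP 0 = 1 := by simp [etaP]

theorem jFun_eq_u (τ : ℍ) : jFun τ = E4q (qp τ) ^ 3 / etaP (qp τ) ^ 24 / qp τ := by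
  rw [jFun, discriminant_eq, E4q_qp, div_div, Pi.mul_apply, Pi.pow_apply, mul_comm (qp τ)]
  rfl

/-- near ∞: j = u(q)/q, with u(0) = 1 -/
theorem jFun_atImInfty : ∃ u : ℂ → ℂ, AnalyticAt ℂ u 0 ∧ u 0 = 1 ∧
    ∀ᶠ τ : ℍ in atImInfty,
      jFun τ = u (Function.Periodic.qParam 1 (τ : ℂ)) / Function.Periodic.qParam 1 (τ : ℂ) := by
  refine ⟨fun q => E4q q ^ 3 / etaP q ^ 24, ?_, by simp [E4q_zero, etaP_zero],
    Eventually.of_forall jFun_eq_u⟩
  exact (analyticAt_E4q.pow 3).div (analyticAt_etaP.pow 24) (by simp [etaP_zero])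

/-- 1/j as a function of q -/
def invJ (q : ℂ) : ℂ := q * (etaP q ^ 24 / E4q q ^ 3)

theorem invJ_qp (τ : ℍ) : invJ (qp τ) = 1 / jFun τ := by
  rw [jFun_eq_u, invJ, one_div_div, mul_div_assoc', div_div_eq_mul_div]

theorem exists_injOn_invJ : ∃ δ > 0, Set.InjOn invJ (Metric.ball 0 δ) := by
  have hw : AnalyticAt ℂ (fun q => etaP q ^ 24 / E4q q ^ 3) 0 :=
    (analyticAt_etaP.pow 24).div (analyticAt_E4q.pow 3) (by simp [E4q_zero])
  have han : AnalyticAt ℂ invJ 0 := analyticAt_id.mul hw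
  have hd : deriv invJ 0 = 1 := by
    have h := (hasDerivAt_id (0 : ℂ)).mul hw.differentiableAt.hasDerivAt
    have h' := h.deriv
    simp [E4q_zero, etaP_zero] at h'
    exact h'
  have hs : HasStrictDerivAt invJ 1 0 := hd ▸ han.hasStrictDerivAt
  obtain ⟨δ, hδ, hball⟩ := Metric.eventually_nhds_iff_ball.mp (hs.eventually_left_inverse one_ne_zero)
  exact ⟨δ, hδ, fun a ha b hb h => by rw [← hball a ha, h, hball b hb]⟩

theorem eventually_injective : ∃ A : ℝ, ∀ z w : ℍ, A ≤ z.im → A ≤ w.im → jFun z = jFun w →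
    ∃ n : ℤ, (w : ℂ) = z + n := by
  obtain ⟨δ, hδ, hinj⟩ := exists_injOn_invJ
  have ht : ∀ᶠ τ : ℍ in atImInfty, qp τ ∈ Metric.ball (0 : ℂ) δ :=
    (qParam_tendsto_atImInfty one_pos) (Metric.ball_mem_nhds 0 hδ)
  obtain ⟨A, hA⟩ := (atImInfty_mem _).mp ht
  refine ⟨A, fun z w hz hw h => ?_⟩
  have e := hinj (hA z hz) (hA w hw) (by rw [invJ_qp, invJ_qp, h])
  obtain ⟨n, hn⟩ := Complex.exp_eq_exp_iff_exists_int.mp e
  refine ⟨-n, ?_⟩
  simp only [Complex.ofReal_one, div_one] at hn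
  have h2 : (2 * (π : ℂ) * Complex.I) ≠ 0 := by
    simp [Real.pi_ne_zero, Complex.I_ne_zero]
  apply mul_left_cancel₀ h2
  push_cast
  linear_combination (-1 : ℂ) * hn

theorem tendsto_norm_jFun : Tendsto (fun τ => ‖jFun τ‖) atImInfty atTop := by
  have h1 : Tendsto (fun τ : ℍ => Real.exp (2 * π * τ.im)) atImInfty atTop :=
    Real.tendsto_exp_atTop.comp ((tendsto_comap (f := UpperHalfPlane.im)).const_mul_atTop (by positivity))
  have h2 := tendsto_jFun_mul_qp.norm
  rw [norm_one] at h2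
  refine (h1.atTop_mul_pos one_pos h2).congr fun τ => ?_
  rw [norm_mul, norm_qp, mul_left_comm, ← Real.exp_add]
  ring_nf
  simp

theorem jFun_bounded_below (R : ℝ) : ∃ A : ℝ, ∀ τ : ℍ, A ≤ τ.im → R < ‖jFun τ‖ :=
  (atImInfty_mem _).mp (tendsto_norm_jFun.eventually_gt_atTop R)

theorem continuous_jFun : Continuous jFun := mdiff_jFun.continuous

theorem jFun_bounded_above (A : ℝ) :
    ∃ R : ℝ, ∀ τ : ℍ, τ ∈ ModularGroup.truncatedFundamentalDomain A → ‖jFun τ‖ ≤ R := by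
  obtain ⟨R, hR⟩ := (ModularGroup.isCompact_truncatedFundamentalDomain A).exists_bound_of_continuousOn
    continuous_jFun.continuousOn
  exact ⟨R, hR⟩

theorem differentiableOn_jC : DifferentiableOn ℂ (jFun ∘ ofComplex) upperHalfPlaneSet :=
  UpperHalfPlane.mdifferentiable_iff.mp mdiff_jFun

theorem jFun_not_constant : ¬ ∃ c, ∀ τ, jFun τ = c := by
  rintro ⟨c, hc⟩
  obtain ⟨A, hA⟩ := jFun_bounded_below ‖c‖
  obtain ⟨τ, hτ⟩ : ∃ τ : ℍ, A ≤ τ.im :=
    ⟨⟨Complex.I * (max A 1 : ℝ), by simp⟩, by simp [UpperHalfPlane.im]⟩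
  exact absurd (hA τ hτ) (by rw [hc]; exact lt_irrefl _)

theorem isOpen_image_jFun {s : Set ℂ} (hs : s ⊆ upperHalfPlaneSet) (ho : IsOpen s) :
    IsOpen ((jFun ∘ ofComplex) '' s) := by
  rcases (differentiableOn_jC.analyticOnNhd isOpen_upperHalfPlaneSet).is_constant_or_isOpen
    (Convex.isPreconnected (convex_halfSpace_im_gt 0)) with ⟨w, hw⟩ | h
  · exact absurd ⟨w, fun τ => by simpa [UpperHalfPlane.ofComplex_apply] using hw τ τ.im_pos⟩
      jFun_not_constant
  · exact h s hs ho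

theorem jFun_surjective : Function.Surjective jFun := by
  have hr : Set.range jFun = (jFun ∘ ofComplex) '' upperHalfPlaneSet := by
    ext a
    constructor
    · rintro ⟨τ, rfl⟩; exact ⟨τ, τ.im_pos, by simp [UpperHalfPlane.ofComplex_apply]⟩
    · rintro ⟨z, _, rfl⟩; exact ⟨_, rfl⟩
  have ho : IsOpen (Set.range jFun) := hr ▸ isOpen_image_jFun subset_rfl isOpen_upperHalfPlaneSet
  have hc : IsClosed (Set.range jFun) := by
    refine closure_subset_iff_isClosed.mp fun a ha => ?_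
    obtain ⟨A, hA⟩ := jFun_bounded_below (‖a‖ + 1)
    have hK : IsClosed (jFun '' ModularGroup.truncatedFundamentalDomain A) :=
      ((ModularGroup.isCompact_truncatedFundamentalDomain A).image continuous_jFun).isClosed
    refine Set.image_subset_range _ _ (hK.closure_subset (mem_closure_iff_nhds.mpr fun U hU => ?_))
    obtain ⟨b, ⟨hb1, hb2⟩, τ, rfl⟩ :=
      mem_closure_iff_nhds.mp ha (U ∩ Metric.ball a 1) (inter_mem hU (Metric.ball_mem_nhds a one_pos))
    obtain ⟨g, hg⟩ := ModularGroup.exists_smul_mem_fd τ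
    refine ⟨jFun τ, hb1, g • τ, ⟨hg, ?_⟩, jFun_smul g τ⟩
    by_contra hlt
    have h1 := hA (g • τ) (not_le.mp hlt).le
    rw [jFun_smul] at h1
    have h2 : dist (jFun τ) a < 1 := hb2
    rw [dist_eq_norm] at h2
    have h3 := norm_sub_norm_le (jFun τ) a
    linarith
  intro a
  rcases isClopen_iff.mp (⟨hc, ho⟩ : IsClopen (Set.range jFun)) with h | h
  · exact absurd h (Set.range_nonempty _).ne_empty
  · exact Set.eq_univ_iff_forall.mp h a

end FLTAgent.ModFun
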