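import Fermat.Agent.ModFun.Conj

/-!
Fibres of j are the orbits of SL₂(ℤ).
-/

set_option autoImplicit false

noncomputable section

open UpperHalfPlane CongruenceSubgroup ModularCurve Filter
open scoped MatrixGroups Manifold Topology Real ModularForm

namespace FLTAgent.ModFun

/-- no nontrivial rational quadratic relation -/
def Generic (z : ℂ) : Prop :=
  ∀ p r s : ℤ, (p : ℂ) * z ^ 2 + r * z + s = 0 → p = 0 ∧ r = 0 ∧ s = 0

theorem countable_not_generic : {z : ℂ | ¬ Generic z}.Countable := by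
  refine Set.Countable.mono ?_ (Algebraic.countable ℤ ℂ)
  intro z hz
  simp only [Set.mem_ofPred, Generic, not_forall] at hz
  obtain ⟨p, r, s, h0, hne⟩ := hz
  refine ⟨Polynomial.C p * Polynomial.X ^ 2 + Polynomial.C r * Polynomial.X + Polynomial.C s,
    fun hP => hne ⟨?_, ?_, ?_⟩, by simpa using h0⟩
  · simpa [-eq_intCast, Polynomial.coeff_C, Polynomial.coeff_X] using congrArg (fun Q : Polynomial ℤ => Q.coeff 2) hP
  · simpa [-eq_intCast, Polynomial.coeff_C, Polynomial.coeff_X] using congrArg (fun Q : Polynomial ℤ => Q.coeff 1) hP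
  · simpa [-eq_intCast, Polynomial.coeff_C, Polynomial.coeff_X] using congrArg (fun Q : Polynomial ℤ => Q.coeff 0) hP

theorem exists_rel {τ₁ τ₂ : ℍ} (h : jFun τ₁ = jFun τ₂) :
    ∃ N₀ : ℕ, ∀ N : ℕ, N₀ ≤ N → N ≠ 0 → ∃ a b c d : ℤ, a * d - b * c = N ∧
      ((c : ℂ) * τ₁ + d ≠ 0) ∧ (N : ℂ) * τ₂ * ((c : ℂ) * τ₁ + d) = (a : ℂ) * τ₁ + b := by
  obtain ⟨A, hA⟩ := eventually_injective
  obtain ⟨R, hR⟩ := jFun_bounded_above A
  obtain ⟨A', hA'⟩ := jFun_bounded_below R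
  refine ⟨⌈max A A' / τ₂.im⌉₊, fun N hN hN0 => ?_⟩
  haveI : NeZero N := ⟨hN0⟩
  obtain ⟨γ, hγ⟩ := exists_conj_eq N h
  have him : max A A' ≤ (scale N τ₂).im := by
    rw [im_scale, ← div_le_iff₀ τ₂.im_pos]
    exact (Nat.le_ceil _).trans (by exact_mod_cast hN)
  obtain ⟨σ, hσ⟩ := ModularGroup.exists_smul_mem_fd (scale N (γ • τ₁))
  have hbig : A ≤ (σ • scale N (γ • τ₁)).im := by
    by_contra hlt
    have h1 := hR _ (show σ • scale N (γ • τ₁) ∈ ModularGroup.truncatedFundamentalDomain A from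
      ⟨hσ, (not_le.mp hlt).le⟩)
    rw [jFun_smul, ← hγ] at h1
    exact absurd (hA' _ ((le_max_right _ _).trans him)) (not_lt.mpr h1)
  obtain ⟨n, hn⟩ := hA _ _ hbig ((le_max_left _ _).trans him)
    (show jFun (σ • scale N (γ • τ₁)) = jFun (scale N τ₂) by rw [jFun_smul, hγ])
  have hdet : γ 0 0 * γ 1 1 - γ 0 1 * γ 1 0 = 1 := by
    have := γ.prop; rwa [Matrix.det_fin_two] at this
  have hdetσ : σ 0 0 * σ 1 1 - σ 0 1 * σ 1 0 = 1 := by
    have := σ.prop; rwa [Matrix.det_fin_two] at this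
  rw [coe_scale, coe_specialLinearGroup_apply, coe_scale, coe_specialLinearGroup_apply] at hn
  simp only [algebraMap_int_eq, eq_intCast, Complex.ofReal_intCast] at hn
  set p := σ 0 0; set q := σ 0 1; set r := σ 1 0; set s := σ 1 1
  set a := γ 0 0; set b := γ 0 1; set c := γ 1 0; set d := γ 1 1
  have hden : (c : ℂ) * τ₁ + d ≠ 0 := by
    have := denom_ne_zero (γ : GL (Fin 2) ℝ) τ₁
    rwa [denom_SL] at this
  have hden' : (r : ℂ) * ((N : ℂ) * (((a : ℂ) * τ₁ + b) / ((c : ℂ) * τ₁ + d))) + s ≠ 0 := by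
    have := denom_ne_zero (σ : GL (Fin 2) ℝ) (scale N (γ • τ₁))
    rw [denom_SL, coe_scale, coe_specialLinearGroup_apply] at this
    simpa only [algebraMap_int_eq, eq_intCast, Complex.ofReal_intCast] using this
  refine ⟨(p + n * r) * (N * a) + (q + n * s) * c, (p + n * r) * (N * b) + (q + n * s) * d,
    r * (N * a) + s * c, r * (N * b) + s * d, ?_, ?_, ?_⟩
  · linear_combination (N : ℤ) * (p * s - q * r) * hdet + (N : ℤ) * hdetσ
  · intro h0
    apply hden'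
    rw [← mul_div_assoc, ← mul_div_assoc, div_add' _ _ _ hden, div_eq_zero_iff]
    left
    push_cast at h0
    linear_combination h0
  · have hden'' : (r : ℂ) * ((N : ℂ) * ((a : ℂ) * τ₁ + b)) + (s : ℂ) * ((c : ℂ) * τ₁ + d) ≠ 0 := by
      intro h0
      apply hden'
      rw [← mul_div_assoc, ← mul_div_assoc, div_add' _ _ _ hden, h0, zero_div]
    rw [hn]
    rw [← mul_div_assoc, ← mul_div_assoc (p : ℂ), ← mul_div_assoc (r : ℂ), div_add' _ _ _ hden,
      div_add' _ _ _ hden, div_div_div_cancel_right₀ hden, div_add' _ _ _ hden'', div_mul_eq_mul_div,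
      div_eq_iff hden'']
    push_cast
    ring

theorem scalar_of_fix {z : ℂ} (hz : Generic z) {p q r s : ℤ}
    (h : (p : ℂ) * z + q = z * ((r : ℂ) * z + s)) : r = 0 ∧ s = p ∧ q = 0 := by
  obtain ⟨h1, h2, h3⟩ := hz r (s - p) (-q) (by push_cast; linear_combination -h)
  exact ⟨h1, sub_eq_zero.mp h2, neg_eq_zero.mp h3⟩

/-- injectivity at generic points -/
theorem exists_smul_eq_of_generic {τ₁ τ₂ : ℍ} (hg : Generic τ₁) (h : jFun τ₁ = jFun τ₂) :
    ∃ γ : SL(2, ℤ), γ • τ₁ = τ₂ := by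
  obtain ⟨N₀, hN₀⟩ := exists_rel h
  obtain ⟨N, hN, hp⟩ := Nat.exists_infinite_primes (max N₀ 2)
  obtain ⟨N', hN', hp'⟩ := Nat.exists_infinite_primes (N + 1)
  obtain ⟨a, b, c, d, hd, hne, he⟩ := hN₀ N ((le_max_left _ _).trans hN) hp.ne_zero
  obtain ⟨a', b', c', d', hd', hne', he'⟩ :=
    hN₀ N' (by have := le_max_left N₀ 2; omega) hp'.ne_zero
  have hN0 : (N : ℤ) ≠ 0 := by exact_mod_cast hp.ne_zero
  have hN0' : (N' : ℤ) ≠ 0 := by exact_mod_cast hp'.ne_zero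
  -- M = adj(G') G fixes τ₁
  obtain ⟨m10, m11, m01⟩ := scalar_of_fix hg (p := N' * d' * a - b' * (N * c))
    (q := N' * d' * b - b' * (N * d)) (r := -(N' * c') * a + a' * (N * c))
    (s := -(N' * c') * b + a' * (N * d)) (by
      have key : (N' : ℂ) * ((c' : ℂ) * τ₁ + d') * ((a : ℂ) * τ₁ + b) =
          (N : ℂ) * ((c : ℂ) * τ₁ + d) * ((a' : ℂ) * τ₁ + b') := by
        rw [← he, ← he']; ring
      push_cast
      linear_combination key)
  set s₀ := (N' : ℤ) * d' * a - b' * (N * c) with hs₀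
  have hs2 : s₀ ^ 2 = ((N : ℤ) * N') ^ 2 := by
    have h1 : s₀ * (-(↑N' * c') * b + a' * (↑N * d)) -
        (↑N' * d' * b - b' * (↑N * d)) * (-(↑N' * c') * a + a' * (↑N * c)) = ((N : ℤ) * N') ^ 2 := by
      rw [hs₀]
      linear_combination ((N : ℤ) * N' * N') * hd + ((N : ℤ) * N' * (a * d - b * c)) * hd'
    rw [m11, m10, m01] at h1
    linear_combination h1
  -- G' M = det(G') G
  have ea : (N' : ℤ) ^ 2 * a = a' * s₀ := by
    linear_combination (-(N' : ℤ) * a) * hd' + a' * hs₀.symm + b' * m10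
  have eb : (N' : ℤ) ^ 2 * b = b' * s₀ := by
    linear_combination (-(N' : ℤ) * b) * hd' + a' * m01 + b' * m11
  have hsN : (N : ℤ) * N' ∣ s₀ := by
    rcases sq_eq_sq_iff_eq_or_eq_neg.mp hs2 with h | h <;> rw [h]
    exact dvd_neg.mpr dvd_rfl
  have hcop : IsCoprime (N : ℤ) ((N' : ℤ) ^ 2) := by
    refine IsCoprime.pow_right ?_
    rw [Int.isCoprime_iff_nat_coprime, Int.natAbs_natCast, Int.natAbs_natCast]
    exact (Nat.coprime_primes hp hp').mpr (by omega)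
  obtain ⟨t, ht⟩ := hsN
  have hNa : (N : ℤ) ∣ a := hcop.dvd_of_dvd_mul_left ⟨a' * (N' * t), by rw [ea, ht]; ring⟩
  have hNb : (N : ℤ) ∣ b := hcop.dvd_of_dvd_mul_left ⟨b' * (N' * t), by rw [eb, ht]; ring⟩
  obtain ⟨a₀, ha₀⟩ := hNa
  obtain ⟨b₀, hb₀⟩ := hNb
  have hdet : a₀ * d - b₀ * c = 1 := by
    apply mul_left_cancel₀ hN0
    rw [ha₀, hb₀] at hd
    linear_combination hd
  let γ : SL(2, ℤ) := ⟨!![a₀, b₀; c, d], by rw [Matrix.det_fin_two]; simpa using hdet⟩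
  refine ⟨γ, UpperHalfPlane.ext ?_⟩
  rw [coe_specialLinearGroup_apply, show γ 0 0 = a₀ from rfl, show γ 0 1 = b₀ from rfl,
    show γ 1 0 = c from rfl, show γ 1 1 = d from rfl]
  simp only [algebraMap_int_eq, eq_intCast, Complex.ofReal_intCast]
  rw [div_eq_iff hne]
  apply mul_left_cancel₀ (show (N : ℂ) ≠ 0 by exact_mod_cast hp.ne_zero)
  rw [ha₀, hb₀] at he
  push_cast at he
  linear_combination -he

theorem finite_smul_meets {K L : Set ℍ} (hK : IsCompact K) (hL : IsCompact L) :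
    {g : SL(2, ℤ) | ∃ x ∈ K, g • x ∈ L}.Finite := by
  let φ : SL(2, ℤ) → (𝒮ℒ : Subgroup (GL (Fin 2) ℝ)) := fun g => ⟨Matrix.SpecialLinearGroup.mapGL ℝ g, g, rfl⟩
  have hφ : Function.Injective φ := fun a b h => by
    exact Matrix.SpecialLinearGroup.mapGL_injective (congrArg Subtype.val h)
  refine Set.Finite.subset ((ProperlyDiscontinuousSMul.finite_disjoint_inter_image (Γ := 𝒮ℒ) hK hL).preimage
    hφ.injOn) fun g hg => ?_
  obtain ⟨x, hx, hgx⟩ := hg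
  rw [Set.mem_preimage, Set.mem_setOf_eq]
  exact ⟨g • x, ⟨x, hx, rfl⟩, hgx⟩

theorem continuous_SL_smul (g : SL(2, ℤ)) : Continuous fun x : ℍ => g • x :=
  continuous_const_smul (Matrix.SpecialLinearGroup.mapGL ℝ g : GL (Fin 2) ℝ)

/-- The fibres of j are the orbits. -/
theorem jFun_eq_iff {τ τ' : ℍ} : jFun τ = jFun τ' ↔ ∃ γ : SL(2, ℤ), γ • τ = τ' := by
  refine ⟨fun h => ?_, fun ⟨γ, h⟩ => by rw [← h, jFun_smul]⟩
  obtain ⟨K, hK, hKn⟩ := exists_compact_mem_nhds τ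
  obtain ⟨L, hL, hLn⟩ := exists_compact_mem_nhds τ'
  have hfin := finite_smul_meets hK hL
  by_contra hc
  push Not at hc
  have hev : ∀ᶠ p : ℍ × ℍ in 𝓝 τ ×ˢ 𝓝 τ', p.1 ∈ K ∧ p.2 ∈ L ∧ ∀ g ∈ hfin.toFinset, g • p.1 ≠ p.2 := by
    refine (tendsto_fst.eventually hKn).and ((tendsto_snd.eventually hLn).and ?_)
    rw [Filter.eventually_all_finset]
    intro g _
    have ht : Tendsto (fun p : ℍ × ℍ => (g • p.1, p.2)) (𝓝 τ ×ˢ 𝓝 τ') (𝓝 (g • τ, τ')) := by
      rw [nhds_prod_eq]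
      exact (((continuous_SL_smul g).tendsto τ).comp tendsto_fst).prodMk tendsto_snd
    exact ht.eventually ((isClosed_eq continuous_fst continuous_snd).isOpen_compl.mem_nhds (hc g))
  rw [← nhds_prod_eq] at hev
  obtain ⟨U, V, hU, hτU, hV, hτV, hUV⟩ := mem_nhds_prod_iff'.mp hev
  have hsub : ∀ S : Set ℍ, ((↑) '' S : Set ℂ) ⊆ upperHalfPlaneSet := fun S => by
    rintro _ ⟨x, -, rfl⟩; exact x.im_pos
  have hoU : IsOpen ((↑) '' U : Set ℂ) := isOpenEmbedding_coe.isOpenMap U hU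
  have hoV := isOpen_image_jFun (hsub V) (isOpenEmbedding_coe.isOpenMap V hV)
  have hW : IsOpen (((↑) '' U : Set ℂ) ∩ (jFun ∘ ofComplex) ⁻¹' ((jFun ∘ ofComplex) '' ((↑) '' V))) := by
    have hc : ContinuousOn (jFun ∘ ofComplex) ((↑) '' U : Set ℂ) :=
      differentiableOn_jC.continuousOn.mono (hsub U)
    exact hc.isOpen_inter_preimage hoU hoV
  obtain ⟨z, ⟨⟨x, hx, rfl⟩, hz2⟩, hz3⟩ :=
    (countable_not_generic.dense_compl ℂ).inter_open_nonempty _ hW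
      ⟨τ, ⟨τ, hτU, rfl⟩, ⟨τ', ⟨τ', hτV, rfl⟩, by simp [UpperHalfPlane.ofComplex_apply, h]⟩⟩
  obtain ⟨_, ⟨y, hy, rfl⟩, hyx⟩ := hz2
  simp only [Function.comp_apply, UpperHalfPlane.ofComplex_apply] at hyx
  obtain ⟨g, hgx⟩ := exists_smul_eq_of_generic (not_not.mp hz3) hyx.symm
  obtain ⟨h1, h2, h3⟩ := hUV (show (x, y) ∈ U ×ˢ V from ⟨hx, hy⟩)
  exact h3 g (hfin.mem_toFinset.mpr ⟨x, h1, by rw [hgx]; exact h2⟩) hgx

end FLTAgent.ModFun
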