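import Fermat.Agent.ModFun.Cosets

/-!
A quotient of modular forms which is integral over level one is a cusp form.
-/

set_option autoImplicit false

noncomputable section

open UpperHalfPlane CongruenceSubgroup ModularForm Filter
open scoped MatrixGroups Manifold Topology

namespace FLTAgent.ModFun

theorem root_lt {n : ℕ} {c : ℕ → ℂ} (hc0 : c 0 = 1) {y : ℂ}
    (h : ∑ m ∈ Finset.range (n + 1), c m * y ^ (n - m) = 0) {ε : ℝ} (hε : 0 < ε)
    (hsum : ∑ m ∈ Finset.range n, ‖c (m + 1)‖ / ε ^ (m + 1) < 1) : ‖y‖ < ε := by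
  by_contra hy
  push Not at hy
  have hy0 : 0 < ‖y‖ := hε.trans_le hy
  rw [Finset.sum_range_succ', hc0, one_mul, Nat.sub_zero, add_comm, add_eq_zero_iff_eq_neg] at h
  have h1 : ‖y‖ ^ n ≤ ∑ m ∈ Finset.range n, ‖c (m + 1)‖ * ‖y‖ ^ (n - (m + 1)) := by
    rw [← norm_pow, h, norm_neg]
    refine (norm_sum_le _ _).trans (le_of_eq ?_)
    simp [norm_mul, norm_pow]
  have h2 : ∀ m ∈ Finset.range n,
      ‖c (m + 1)‖ * ‖y‖ ^ (n - (m + 1)) ≤ ‖c (m + 1)‖ / ε ^ (m + 1) * ‖y‖ ^ n := by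
    intro m hm
    have e : ‖y‖ ^ n = ‖y‖ ^ (n - (m + 1)) * ‖y‖ ^ (m + 1) := by
      rw [← pow_add, Nat.sub_add_cancel (Finset.mem_range.mp hm)]
    rw [e, div_mul_eq_mul_div, le_div_iff₀ (by positivity)]
    have : ε ^ (m + 1) ≤ ‖y‖ ^ (m + 1) := pow_le_pow_left₀ hε.le hy _
    nlinarith [norm_nonneg (c (m + 1)), pow_nonneg (norm_nonneg y) (n - (m + 1)),
      mul_nonneg (norm_nonneg (c (m + 1))) (pow_nonneg (norm_nonneg y) (n - (m + 1)))]
  have h3 := h1.trans (Finset.sum_le_sum h2)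
  rw [← Finset.sum_mul] at h3
  nlinarith [pow_pos hy0 n]

theorem root_le {n : ℕ} {c : ℕ → ℂ} (hc0 : c 0 = 1) {y : ℂ}
    (h : ∑ m ∈ Finset.range (n + 1), c m * y ^ (n - m) = 0) :
    ‖y‖ ≤ 1 + ∑ m ∈ Finset.range n, ‖c (m + 1)‖ := by
  set S := ∑ m ∈ Finset.range n, ‖c (m + 1)‖
  have hS : 0 ≤ S := Finset.sum_nonneg fun m _ => norm_nonneg _
  refine (root_lt hc0 h (by positivity) ?_).le
  calc ∑ m ∈ Finset.range n, ‖c (m + 1)‖ / (1 + S) ^ (m + 1)
      ≤ ∑ m ∈ Finset.range n, ‖c (m + 1)‖ / (1 + S) := by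
        refine Finset.sum_le_sum fun m _ => div_le_div_of_nonneg_left (norm_nonneg _) (by positivity) ?_
        exact le_self_pow₀ (by linarith) (by omega)
    _ = S / (1 + S) := by rw [Finset.sum_div]
    _ < 1 := by rw [div_lt_one (by positivity)]; linarith

/-- removable singularities for a quotient -/
theorem exists_quot {R D : ℍ → ℂ} (hR : MDiff R) (hD : MDiff D) (hD0 : D ≠ 0) {B : ℍ → ℝ}
    (hB : Continuous B) (hb : ∀ τ, D τ ≠ 0 → ‖R τ / D τ‖ ≤ B τ) :
    ∃ h : ℍ → ℂ, MDiff h ∧ h * D = R := by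
  rw [UpperHalfPlane.mdifferentiable_iff] at hR hD
  set F := R ∘ ofComplex
  set G := D ∘ ofComplex
  set U : Set ℂ := upperHalfPlaneSet
  have hU : IsOpen U := isOpen_upperHalfPlaneSet
  have hGn : ∀ z ∈ U, ∀ᶠ w in 𝓝[≠] z, G w ≠ 0 := by
    intro z hz
    have han : AnalyticOnNhd ℂ G U := hD.analyticOnNhd hU
    rcases (han z hz).eventually_eq_zero_or_eventually_ne_zero with h | h
    · refine absurd (funext fun τ => ?_) hD0
      have := han.eqOn_zero_of_preconnected_of_eventuallyEq_zero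
        (Convex.isPreconnected (convex_halfSpace_im_gt 0)) hz h (show (τ : ℂ) ∈ U from τ.im_pos)
      simpa [G, UpperHalfPlane.ofComplex_apply] using this
    · exact h
  let q : ℂ → ℂ := fun z => F z / G z
  let h : ℂ → ℂ := fun z => limUnder (𝓝[≠] z) q
  have key : ∀ z ∈ U, DifferentiableAt ℂ h z ∧
      ∀ᶠ w in 𝓝[≠] z, h w * G w = F w := by
    intro z hz
    have hBc : ContinuousAt (fun w => B (ofComplex w)) z := by
      refine hB.continuousAt.comp ?_
      exact (UpperHalfPlane.contMDiffAt_ofComplex (n := 1) hz).continuousAt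
    have hev : ∀ᶠ w in 𝓝 z, w ∈ U ∧ B (ofComplex w) ≤ B (ofComplex z) + 1 ∧
        (w ≠ z → G w ≠ 0) := by
      refine (hU.eventually_mem hz).and ((hBc.eventually_le_const (lt_add_one _)).and ?_)
      simpa [eventually_nhdsWithin_iff] using hGn z hz
    obtain ⟨s, hs, hso, hzs⟩ := eventually_nhds_iff.mp hev
    have hd : ∀ w ∈ s \ {z}, DifferentiableAt ℂ q w := fun w hw =>
      ((hR w (hs w hw.1).1).differentiableAt (hU.mem_nhds (hs w hw.1).1)).div
        ((hD w (hs w hw.1).1).differentiableAt (hU.mem_nhds (hs w hw.1).1)) ((hs w hw.1).2.2 hw.2)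
    have hq : ∀ w ∈ s \ {z}, h w = q w := fun w hw =>
      ((hd w hw).continuousAt.tendsto.mono_left nhdsWithin_le_nhds).limUnder_eq
    have hsn : s ∈ 𝓝 z := hso.mem_nhds hzs
    have hupd := Complex.differentiableOn_update_limUnder_of_bddAbove hsn
      (fun w hw => (hd w hw).differentiableWithinAt) ⟨B (ofComplex z) + 1, by
        rintro x ⟨w, hw, rfl⟩
        exact (hb (ofComplex w) ((hs w hw.1).2.2 hw.2)).trans (hs w hw.1).2.1⟩
    constructor
    · refine (hupd.differentiableAt hsn).congr_of_eventuallyEq ?_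
      filter_upwards [hsn] with w hw
      by_cases hwz : w = z
      · subst hwz; simp [h]
      · rw [Function.update_of_ne hwz, hq w ⟨hw, hwz⟩]
    · filter_upwards [nhdsWithin_le_nhds hsn, self_mem_nhdsWithin] with w hw (hwz : w ≠ z)
      rw [hq w ⟨hw, hwz⟩]
      exact div_mul_cancel₀ _ ((hs w hw).2.2 hwz)
  refine ⟨fun τ => h τ, ?_, ?_⟩
  · rw [UpperHalfPlane.mdifferentiable_iff]
    refine DifferentiableOn.congr (f := h) (fun z hz => (key z hz).1.differentiableWithinAt) ?_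
    intro z (hz : 0 < z.im)
    simp [Function.comp_apply, ofComplex_apply_of_im_pos hz]
  · funext τ
    obtain ⟨h1, h2⟩ := key τ τ.im_pos
    have hg : ContinuousAt G (τ : ℂ) := ((hD τ τ.im_pos).differentiableAt (hU.mem_nhds τ.im_pos)).continuousAt
    have hf : ContinuousAt F (τ : ℂ) := ((hR τ τ.im_pos).differentiableAt (hU.mem_nhds τ.im_pos)).continuousAt
    have := tendsto_nhds_unique (((h1.continuousAt.mul hg).tendsto.mono_left
      nhdsWithin_le_nhds).congr' h2) (hf.tendsto.mono_left nhdsWithin_le_nhds)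
    simpa [F, G, UpperHalfPlane.ofComplex_apply] using this

theorem pow_slash (f : ℍ → ℂ) (k : ℤ) (j : ℕ) (γ : SL(2, ℤ)) :
    (f ^ j) ∣[(j : ℤ) * k] γ = (f ∣[k] γ) ^ j := by
  induction j with
  | zero => simp [is_invariant_one]
  | succ j ih =>
    rw [pow_succ, pow_succ, show (((j + 1 : ℕ) : ℤ)) * k = (j : ℤ) * k + k by push_cast; ring,
      mul_slash_SL2, ih]

theorem pow_ne_zero' {f : ℍ → ℂ} (hf : MDiff f) (h : f ≠ 0) (j : ℕ) : f ^ j ≠ 0 := by
  induction j with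
  | zero => exact fun e => one_ne_zero (congrFun e UpperHalfPlane.I)
  | succ j ih =>
    rw [pow_succ, ne_eq, UpperHalfPlane.mul_eq_zero_iff (hf.pow j) hf]
    tauto

variable {N : ℕ} [NeZero N] {k d : ℤ}

theorem quot_isCF {R D : ℍ → ℂ} (hR : IsMF N (k + d) R) (hD : IsMF N d D) (hD0 : D ≠ 0)
    {n : ℕ} {c : ℕ → ℍ → ℂ} (hc0 : c 0 = 1) (hc : ∀ m : ℕ, IsMF 1 ((m : ℤ) * k) (c m))
    (hcz : ∀ m, m ≠ 0 → IsZeroAtImInfty (c m))
    (hrel : ∑ m ∈ Finset.range (n + 1), c m * R ^ (n - m) * D ^ m = 0) :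
    ∃ h, IsCF N k h ∧ h * D = R := by
  have hb : ∀ τ, D τ ≠ 0 → ‖R τ / D τ‖ ≤ 1 + ∑ m ∈ Finset.range n, ‖c (m + 1) τ‖ := by
    intro τ hτ
    refine root_le (c := fun m => c m τ) (by simp [hc0]) ?_
    have hr := congrFun hrel τ
    simp only [Finset.sum_apply, Pi.mul_apply, Pi.pow_apply, Pi.zero_apply] at hr
    apply mul_left_cancel₀ (pow_ne_zero n hτ)
    rw [mul_zero, Finset.mul_sum]
    refine Eq.trans (Finset.sum_congr rfl fun m hm => ?_) hr
    have hm' : m ≤ n := Nat.lt_succ_iff.mp (Finset.mem_range.mp hm)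
    rw [show D τ ^ n = D τ ^ (n - m) * D τ ^ m by rw [← pow_add, Nat.sub_add_cancel hm'], div_pow]
    field_simp
  obtain ⟨h, hh, hhD⟩ := exists_quot hR.holo hD.holo hD0
    (continuous_const.add (continuous_finsetSum _ fun m _ => (hc (m + 1)).holo.continuous.norm)) hb
  have hrelh : ∑ m ∈ Finset.range (n + 1), c m * h ^ (n - m) = 0 := by
    have hmd : MDiff (∑ m ∈ Finset.range (n + 1), c m * h ^ (n - m)) :=
      mdiff_sum _ fun m _ => (hc m).holo.mul (hh.pow _)
    refine ((UpperHalfPlane.mul_eq_zero_iff (hD.holo.pow n) hmd).mp ?_).resolve_left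
      (pow_ne_zero' hD.holo hD0 n)
    rw [Finset.mul_sum]
    refine Eq.trans (Finset.sum_congr rfl fun m hm => ?_) hrel
    have hm' : m ≤ n := Nat.lt_succ_iff.mp (Finset.mem_range.mp hm)
    rw [← hhD, mul_pow, show D ^ n = D ^ (n - m) * D ^ m by rw [← pow_add, Nat.sub_add_cancel hm']]
    ring
  refine ⟨h, ⟨hh, fun γ hγ => ?_, fun γ => ?_⟩, hhD⟩
  · have e : (h ∣[k] γ - h) * D = 0 := by
      have := congrArg (fun f => f ∣[k + d] γ) hhD
      simp only [mul_slash_SL2, hD.inv γ hγ, hR.inv γ hγ] at this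
      rw [sub_mul, this, hhD, sub_self]
    exact sub_eq_zero.mp (((UpperHalfPlane.mul_eq_zero_iff ((mdiff_slash hh k γ).sub hh) hD.holo).mp e).resolve_right hD0)
  · have e : ∑ m ∈ Finset.range (n + 1), c m * (h ∣[k] γ) ^ (n - m) = 0 := by
      have := congrArg (fun f => f ∣[(n : ℤ) * k] γ) hrelh
      simp only [SlashAction.sum_slash, SlashAction.zero_slash] at this
      refine Eq.trans (Finset.sum_congr rfl fun m hm => ?_) this
      have hm' : m ≤ n := Nat.lt_succ_iff.mp (Finset.mem_range.mp hm)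
      rw [show (n : ℤ) * k = (m : ℤ) * k + ((n - m : ℕ) : ℤ) * k by
        rw [Nat.cast_sub hm']; ring, mul_slash_SL2, (hc m).inv γ (mem_Gamma0_one γ), pow_slash]
    rw [UpperHalfPlane.isZeroAtImInfty_iff]
    intro ε hε
    have ht : Tendsto (fun τ => ∑ m ∈ Finset.range n, ‖c (m + 1) τ‖ / ε ^ (m + 1)) atImInfty (𝓝 0) := by
      rw [show (0 : ℝ) = ∑ m ∈ Finset.range n, (0 : ℝ) / ε ^ (m + 1) by simp]
      exact tendsto_finsetSum _ fun m _ => by
        simpa using ((hcz (m + 1) (by omega)).norm).div_const (ε ^ (m + 1))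
    obtain ⟨A, hA⟩ := (atImInfty_mem _).mp (ht.eventually (gt_mem_nhds one_pos))
    refine ⟨A, fun τ hτ => (root_lt (c := fun m => c m τ) (by simp [hc0]) ?_ hε (hA τ hτ)).le⟩
    simpa using congrFun e τ

end FLTAgent.ModFun
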